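import Fermat.Agent.Red.GV.Main
import Fermat.Agent.S37.Gate

/-!
# P-RED / GV: the Gauss valuation in the vocabulary of `Fermat.Agent.S37`

`K = Kbar = ℚ̄`, `A` a valuation subring of `ℚ̄` over `ℓ`, `π = IsLocalRing.residue A`,
`FF N = FK Kbar N`.

* `isResidueMap_residue` — the standing hypothesis of GV holds.
* `mem_modelAt_iff`, `mem_modelFin_iff`, `mem_modelInf_iff` — the chart rings of `S37` in terms
  of `RingHom.IsIntegralElem`.
* `gaussV A N`, `gaussR A N` — the Gauss subring and its reduction map.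
* `congOne_iff_gaussR` — `S37.CongOne A w ↔ red w = 1`.
* `modelFin_le_gaussV`, `modelInf_le_gaussV`, `mem_modelFin_of_cst_mul`,
  `mem_modelInf_of_cst_mul`, `exists_eq_cst_mul_of_gaussR_eq_zero_fin/inf` — charts and QEP.
-/

set_option autoImplicit false

open ModularCurve AlgebraicCurve

noncomputable section

namespace Fermat.Agent.Red.GV

open Fermat.Agent.S28 Fermat.Agent.S37 Fermat.Agent.Red.GV.Asm

/-- The residue map of a valuation subring over `ℓ` satisfies the standing hypotheses. -/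
theorem isResidueMap_residue {K : Type} [Field K] (A : ValuationSubring K) (ℓ : ℕ)
    (hA : A.LiesOverPrime ℓ) : IsResidueMap A (IsLocalRing.residue A) ℓ where
  ker_eq := fun a => by
    rw [IsLocalRing.residue_eq_zero_iff, ValuationSubring.coe_mem_nonunits_iff]
  natCast_mem := hA

/-! ### The chart rings -/

section Charts

variable (M : ℕ) (A : ValuationSubring Kbar)

theorem coe_jB [NeZero M] : ((jB M : FF M) : LaurentSeries Kbar) = jK Kbar :=
  Rep.h71_coeffEmb_jq Kbar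

theorem coe_cst (a : Kbar) : ((cst M a : FF M) : LaurentSeries Kbar) = HahnSeries.C a :=
  coe_algebraMap_FK M a

theorem cst_mem_ringAdj (x : FF M) (a : A) : cst M (a : Kbar) ∈ ringAdj M A x :=
  Subring.subset_closure (Or.inl ⟨(a : Kbar), a.2, rfl⟩)

theorem self_mem_ringAdj (x : FF M) : x ∈ ringAdj M A x :=
  Subring.subset_closure (Or.inr rfl)

/-- The evaluation `A[Y] → FF M`, `Y ↦ x`. -/
def evalF (x : FF M) : Polynomial A →+* FF M :=
  Polynomial.eval₂RingHom ((algebraMap Kbar (FF M)).comp A.subtype) x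

theorem evalF_C (x : FF M) (a : A) : evalF M A x (Polynomial.C a) = cst M (a : Kbar) := by
  simp [evalF]

theorem evalF_X (x : FF M) : evalF M A x Polynomial.X = x := by
  simp [evalF]

theorem coe_evalF (x : FF M) (Q : Polynomial A) :
    ((evalF M A x Q : FF M) : LaurentSeries Kbar) = evalA A (x : LaurentSeries Kbar) Q := by
  induction Q using Polynomial.induction_on with
  | C a => rw [evalF_C, coe_cst, evalA_C]
  | add p q hp hq =>
    rw [map_add, map_add, ← hp, ← hq]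
    rfl
  | monomial n a h =>
    have h1 : (Polynomial.C a * Polynomial.X ^ (n + 1) : Polynomial A) =
        (Polynomial.C a * Polynomial.X ^ n) * Polynomial.X := by rw [pow_succ, mul_assoc]
    rw [h1, map_mul (evalF M A x), map_mul (evalA A _), evalF_X, Asm.evalA_X, ← h]
    rfl

theorem evalF_mem_ringAdj (x : FF M) (Q : Polynomial A) : evalF M A x Q ∈ ringAdj M A x := by
  induction Q using Polynomial.induction_on with
  | C a => rw [evalF_C]; exact cst_mem_ringAdj M A x a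
  | add p q hp hq => rw [map_add]; exact add_mem hp hq
  | monomial n a h =>
    rw [pow_succ, ← mul_assoc, map_mul, evalF_X]
    exact mul_mem h (self_mem_ringAdj M A x)

/-- The evaluation `A[Y] → A[x] ⊆ FF M`. -/
def evalAdj (x : FF M) : Polynomial A →+* ringAdj M A x :=
  (evalF M A x).codRestrict (ringAdj M A x) (evalF_mem_ringAdj M A x)

theorem coe_evalAdj (x : FF M) (Q : Polynomial A) :
    ((evalAdj M A x Q : ringAdj M A x) : FF M) = evalF M A x Q :=
  rfl

theorem evalAdj_surjective (x : FF M) : Function.Surjective (evalAdj M A x) := by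
  intro y
  have hle : ringAdj M A x ≤ (evalF M A x).range := by
    refine Subring.closure_le.2 ?_
    rintro z (⟨a, ha, rfl⟩ | rfl)
    · exact ⟨Polynomial.C ⟨a, ha⟩, evalF_C M A x ⟨a, ha⟩⟩
    · exact ⟨Polynomial.X, evalF_X M A z⟩
  obtain ⟨Q, hQ⟩ := hle y.2
  exact ⟨Q, Subtype.ext hQ⟩

theorem subtype_comp_evalAdj (x : FF M) :
    (ringAdj M A x).subtype.comp (evalAdj M A x) = evalF M A x :=
  rfl

theorem coe_eval₂_evalF (t x : FF M) (p : Polynomial (Polynomial A)) :
    ((Polynomial.eval₂ (evalF M A t) x p : FF M) : LaurentSeries Kbar) =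
      Polynomial.eval₂ (evalA A (t : LaurentSeries Kbar)) (x : LaurentSeries Kbar) p := by
  have h1 : ∀ z : FF M, ((z : FF M) : LaurentSeries Kbar) =
      (modularFunctionFieldBar M).val.toRingHom z := fun _ => rfl
  rw [h1, Polynomial.hom_eval₂]
  congr 1
  exact RingHom.ext fun Q => coe_evalF M A t Q

/-- Integrality over the subring `A[t]`, in terms of `evalF`. -/
theorem isIntegralElem_subtype_iff (t x : FF M) :
    (ringAdj M A t).subtype.IsIntegralElem x ↔ (evalF M A t).IsIntegralElem x := by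
  constructor
  · rintro ⟨p, hp, hpx⟩
    obtain ⟨p', hp', -, hp'm⟩ := Polynomial.lifts_and_degree_eq_and_monic
      ((Polynomial.mem_lifts p).2 (Polynomial.map_surjective _ (evalAdj_surjective M A t) p)) hp
    refine ⟨p', hp'm, ?_⟩
    rw [← subtype_comp_evalAdj, ← Polynomial.eval₂_map, hp']
    exact hpx
  · rintro ⟨p, hp, hpx⟩
    refine ⟨p.map (evalAdj M A t), hp.map _, ?_⟩
    rw [Polynomial.eval₂_map, subtype_comp_evalAdj]
    exact hpx

theorem isIntegralElem_evalF_iff (t x : FF M) :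
    (evalF M A t).IsIntegralElem x ↔
      (evalA A (t : LaurentSeries Kbar)).IsIntegralElem (x : LaurentSeries Kbar) := by
  constructor
  · rintro ⟨p, hp, hpx⟩
    refine ⟨p, hp, ?_⟩
    rw [← coe_eval₂_evalF, hpx]
    rfl
  · rintro ⟨p, hp, hpx⟩
    refine ⟨p, hp, ?_⟩
    apply Subtype.ext
    rw [coe_eval₂_evalF, hpx]
    rfl

set_option synthInstance.maxHeartbeats 400000 in
/-- Membership in a chart ring of `S37`, in terms of `IsIntegralElem`. -/
theorem mem_modelAt_iff (t x : FF M) :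
    x ∈ modelAt M A t ↔
      (evalA A (t : LaurentSeries Kbar)).IsIntegralElem (x : LaurentSeries Kbar) := by
  rw [← isIntegralElem_evalF_iff, ← isIntegralElem_subtype_iff]
  rfl

theorem mem_modelFin_iff [NeZero M] (x : FF M) :
    x ∈ modelFin M A ↔ (evalA A (jK Kbar)).IsIntegralElem (x : LaurentSeries Kbar) := by
  rw [modelFin, mem_modelAt_iff, coe_jB]

theorem mem_modelInf_iff [NeZero M] (x : FF M) :
    x ∈ modelInf M A ↔ (evalA A (jK Kbar)⁻¹).IsIntegralElem (x : LaurentSeries Kbar) := by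
  rw [modelInf, mem_modelAt_iff]
  have : (((jB M)⁻¹ : FF M) : LaurentSeries Kbar) = (jK Kbar)⁻¹ := by
    rw [← coe_jB M]
    rfl
  rw [this]

end Charts

/-! ### The Gauss valuation -/

section Gauss

variable (A : ValuationSubring Kbar) (N : ℕ)

/-- The Gauss subring of `FF N` attached to `A`. -/
abbrev gaussV : Subring (FF N) := gaussSubring A (IsLocalRing.residue A) N

/-- The reduction map of the Gauss valuation. -/
abbrev gaussR : gaussV A N →+* LaurentSeries (IsLocalRing.ResidueField A) :=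
  gaussRed A (IsLocalRing.residue A) N

theorem mem_gaussV_iff (x : FF N) :
    x ∈ gaussV A N ↔ InOTA A (IsLocalRing.residue A) (x : LaurentSeries Kbar) :=
  Iff.rfl

variable {ℓ : ℕ} [NeZero N]

/-- **`S37.CongOne` is `red = 1`.** -/
theorem congOne_iff_gaussR (hℓ : ℓ.Prime) (hN : ¬ ℓ ∣ N) (hA : A.LiesOverPrime ℓ) (w : FF N) :
    CongOne A w ↔ ∃ h : w ∈ gaussV A N, gaussR A N ⟨w, h⟩ = 1 := by
  have : Fact ℓ.Prime := ⟨hℓ⟩
  exact congOne_iff A (IsLocalRing.residue A) N ℓ (isResidueMap_residue A ℓ hA) hN w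

/-- The Gauss subring is a valuation subring. -/
theorem mem_or_inv_mem_gaussV (hℓ : ℓ.Prime) (hN : ¬ ℓ ∣ N) (hA : A.LiesOverPrime ℓ)
    (x : FF N) : x ∈ gaussV A N ∨ x⁻¹ ∈ gaussV A N := by
  have : Fact ℓ.Prime := ⟨hℓ⟩
  exact mem_or_inv_mem_gaussSubring A _ N ℓ (isResidueMap_residue A ℓ hA) hN x

/-- The kernel of the reduction. -/
theorem gaussR_eq_zero_iff (hℓ : ℓ.Prime) (hN : ¬ ℓ ∣ N) (hA : A.LiesOverPrime ℓ)
    (x : gaussV A N) :
    gaussR A N x = 0 ↔ (x : FF N) = 0 ∨ (x : FF N)⁻¹ ∉ gaussV A N := by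
  have : Fact ℓ.Prime := ⟨hℓ⟩
  exact gaussRed_eq_zero_iff A _ N ℓ (isResidueMap_residue A ℓ hA) hN x

/-- Every nonzero function is a constant times a Gauss unit. -/
theorem exists_cst_mul_unit (hℓ : ℓ.Prime) (hN : ¬ ℓ ∣ N) (hA : A.LiesOverPrime ℓ)
    (x : FF N) (hx : x ≠ 0) :
    ∃ c : Kbar, c ≠ 0 ∧ cst N c * x ∈ gaussV A N ∧ (cst N c * x)⁻¹ ∈ gaussV A N := by
  have : Fact ℓ.Prime := ⟨hℓ⟩
  exact exists_scalar_mul_unit A _ N ℓ (isResidueMap_residue A ℓ hA) hN x hx

omit [NeZero N] in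
/-- Constants: `cst c` is Gauss-integral iff `c ∈ A`. -/
theorem cst_mem_gaussV_iff (hA : A.LiesOverPrime ℓ) (c : Kbar) :
    cst N c ∈ gaussV A N ↔ c ∈ A :=
  algebraMap_mem_gaussSubring_iff A _ N ℓ (isResidueMap_residue A ℓ hA) c

/-- The finite chart consists of Gauss-integral functions. -/
theorem modelFin_le_gaussV (hℓ : ℓ.Prime) (hN : ¬ ℓ ∣ N) (hA : A.LiesOverPrime ℓ) :
    modelFin N A ≤ gaussV A N := by
  have : Fact ℓ.Prime := ⟨hℓ⟩
  intro x hx
  exact mem_gaussSubring_of_isIntegralElem_fin A _ N ℓ (isResidueMap_residue A ℓ hA) hN x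
    ((mem_modelFin_iff N A x).1 hx)

/-- The chart at infinity consists of Gauss-integral functions. -/
theorem modelInf_le_gaussV (hℓ : ℓ.Prime) (hN : ¬ ℓ ∣ N) (hA : A.LiesOverPrime ℓ) :
    modelInf N A ≤ gaussV A N := by
  have : Fact ℓ.Prime := ⟨hℓ⟩
  intro x hx
  exact mem_gaussSubring_of_isIntegralElem_inf A _ N ℓ (isResidueMap_residue A ℓ hA) hN x
    ((mem_modelInf_iff N A x).1 hx)

/-- **QEP, finite chart.** -/
theorem mem_modelFin_of_cst_mul (hℓ : ℓ.Prime) (hN : ¬ ℓ ∣ N) (hA : A.LiesOverPrime ℓ)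
    (x : FF N) (hx : x ∈ gaussV A N) (c : Kbar) (hcA : c ∈ A) (hc : c ≠ 0)
    (h : cst N c * x ∈ modelFin N A) : x ∈ modelFin N A := by
  have : Fact ℓ.Prime := ⟨hℓ⟩
  rw [mem_modelFin_iff] at h ⊢
  refine isIntegralElem_fin_of_mul A _ N ℓ (isResidueMap_residue A ℓ hA) hN x hx ⟨c, hcA⟩
    (fun h0 => hc (congrArg Subtype.val h0)) ?_
  have h1 : ((cst N c * x : FF N) : LaurentSeries Kbar) =
      ((cst N c : FF N) : LaurentSeries Kbar) * (x : LaurentSeries Kbar) := rfl
  rwa [h1, coe_cst] at h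

/-- **QEP, chart at infinity.** -/
theorem mem_modelInf_of_cst_mul (hℓ : ℓ.Prime) (hN : ¬ ℓ ∣ N) (hA : A.LiesOverPrime ℓ)
    (x : FF N) (hx : x ∈ gaussV A N) (c : Kbar) (hcA : c ∈ A) (hc : c ≠ 0)
    (h : cst N c * x ∈ modelInf N A) : x ∈ modelInf N A := by
  have : Fact ℓ.Prime := ⟨hℓ⟩
  rw [mem_modelInf_iff] at h ⊢
  refine isIntegralElem_inf_of_mul A _ N ℓ (isResidueMap_residue A ℓ hA) hN x hx ⟨c, hcA⟩
    (fun h0 => hc (congrArg Subtype.val h0)) ?_
  have h1 : ((cst N c * x : FF N) : LaurentSeries Kbar) =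
      ((cst N c : FF N) : LaurentSeries Kbar) * (x : LaurentSeries Kbar) := rfl
  rwa [h1, coe_cst] at h

/-- **Kernel of the reduction on the finite chart** is `𝔪_A · modelFin`. -/
theorem exists_eq_cst_mul_of_gaussR_eq_zero_fin (hℓ : ℓ.Prime) (hN : ¬ ℓ ∣ N)
    (hA : A.LiesOverPrime ℓ) (x : gaussV A N) (hx : (x : FF N) ∈ modelFin N A)
    (hred : gaussR A N x = 0) :
    ∃ (c : Kbar) (x' : FF N), c ≠ 0 ∧ c ∈ A.nonunits ∧ x' ∈ modelFin N A ∧
      (x : FF N) = cst N c * x' := by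
  have : Fact ℓ.Prime := ⟨hℓ⟩
  obtain ⟨c, x', hc, hnu, hx', hxx'⟩ := exists_eq_mul_of_gaussRed_eq_zero_fin A _ N ℓ
    (isResidueMap_residue A ℓ hA) hN x ((mem_modelFin_iff N A _).1 hx) hred
  exact ⟨(c : Kbar), x', fun h0 => hc (Subtype.ext h0), hnu, (mem_modelFin_iff N A _).2 hx', hxx'⟩

/-- **Kernel of the reduction on the chart at infinity** is `𝔪_A · modelInf`. -/
theorem exists_eq_cst_mul_of_gaussR_eq_zero_inf (hℓ : ℓ.Prime) (hN : ¬ ℓ ∣ N)
    (hA : A.LiesOverPrime ℓ) (x : gaussV A N) (hx : (x : FF N) ∈ modelInf N A)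
    (hred : gaussR A N x = 0) :
    ∃ (c : Kbar) (x' : FF N), c ≠ 0 ∧ c ∈ A.nonunits ∧ x' ∈ modelInf N A ∧
      (x : FF N) = cst N c * x' := by
  have : Fact ℓ.Prime := ⟨hℓ⟩
  obtain ⟨c, x', hc, hnu, hx', hxx'⟩ := exists_eq_mul_of_gaussRed_eq_zero_inf A _ N ℓ
    (isResidueMap_residue A ℓ hA) hN x ((mem_modelInf_iff N A _).1 hx) hred
  exact ⟨(c : Kbar), x', fun h0 => hc (Subtype.ext h0), hnu, (mem_modelInf_iff N A _).2 hx', hxx'⟩

end Gauss

end Fermat.Agent.Red.GV
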