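import Fermat.Agent.Red.GV.Main

/-!
# P-RED / GV: compatibility of the Gauss valuation with automorphisms of the coefficients

Let `σ : K →+* K` preserve `A`, inducing `σA : A →+* A` and `σk : k →+* k`.  Then the
coefficientwise action of `σ` on `K((q))` preserves Gauss-integrality and commutes with the
reduction map: `red (σ x) = σk (red x)`.
-/

set_option autoImplicit false

open ModularCurve

noncomputable section

namespace Fermat.Agent.Red.GV

open Fermat.Agent.S28 Fermat.Agent.Red.GV.Asm

/-- transport of evaluation maps along a coefficient map -/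
theorem coeffMap_evalC_gen {R S : Type} [CommRing R] [CommRing S] (f : R →+* S)
    (y : LaurentSeries R) (Q : Polynomial R) :
    coeffMap f (evalC y Q) = evalC (coeffMap f y) (Q.map f) := by
  have hcomp : (coeffMap f).comp (HahnSeries.C : R →+* LaurentSeries R) =
      (HahnSeries.C : S →+* LaurentSeries S).comp f := by
    ext a : 1
    simp only [RingHom.comp_apply, HahnSeries.C_apply, coeffMap_single]
  show coeffMap f (Polynomial.eval₂ _ y Q) = Polynomial.eval₂ _ (coeffMap f y) (Q.map f)
  rw [Polynomial.hom_eval₂, hcomp, Polynomial.eval₂_map]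

variable {K : Type} [Field K] (A : ValuationSubring K) {k : Type} [Field k] (π : A →+* k)
  (σ : K →+* K) (σA : A →+* A) (hσ : ∀ a : A, ((σA a : A) : K) = σ (a : K))
  (σk : k →+* k) (hσk : ∀ a : A, π (σA a) = σk (π a))

include hσ in
theorem coeffMap_embA (y : LaurentSeries A) :
    coeffMap σ (embA A y) = embA A (coeffMap σA y) := by
  rw [embA, coeffMap_coeffMap, coeffMap_coeffMap]
  exact coeffMap_congr (RingHom.ext fun a => (hσ a).symm) y

include hσk in
theorem redA_coeffMap (y : LaurentSeries A) :
    redA π (coeffMap σA y) = coeffMap σk (redA π y) := by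
  rw [redA, coeffMap_coeffMap, coeffMap_coeffMap]
  exact coeffMap_congr (RingHom.ext fun a => hσk a) y

include hσ in
theorem coeffMap_evalA_jK (Q : Polynomial A) :
    coeffMap σ (evalA A (jK K) Q) = evalA A (jK K) (Q.map σA) := by
  rw [← embA_evalC_j, coeffMap_embA A σ σA hσ, coeffMap_evalC_gen, coeffMap_jqModC,
    embA_evalC_j]

include hσk in
theorem map_map_ne_zero (Q : Polynomial A) (hQ : Q.map π ≠ 0) : (Q.map σA).map π ≠ 0 := by
  rw [Polynomial.map_map, show π.comp σA = σk.comp π from RingHom.ext fun a => hσk a,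
    ← Polynomial.map_map]
  intro h
  exact hQ (Polynomial.map_injective σk σk.injective (by rw [h, Polynomial.map_zero]))

include hσ hσk in
/-- Gauss-integrality is preserved by the coefficientwise action of `σ`. -/
theorem inOTA_coeffMap (x : LaurentSeries K) (hx : InOTA A π x) : InOTA A π (coeffMap σ x) := by
  obtain ⟨Q, hQ, y, hy⟩ := hx
  refine ⟨Q.map σA, map_map_ne_zero A π σA σk hσk Q hQ, coeffMap σA y, ?_⟩
  rw [← coeffMap_embA A σ σA hσ, hy, map_mul, coeffMap_evalA_jK A σ σA hσ]

include hσ hσk in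
/-- The reduction map commutes with the coefficientwise action. -/
theorem OTA_redT_coeffMap (x : OTA A π) (hx' : coeffMap σ (x : LaurentSeries K) ∈ OTA A π) :
    OTA_redT A π ⟨coeffMap σ (x : LaurentSeries K), hx'⟩ = coeffMap σk (OTA_redT A π x) := by
  obtain ⟨Q, hQ, y, hy⟩ := x.2
  have h1 := OTA_redT_mul_eq x Q y hQ hy
  have hy' : embA A (coeffMap σA y) = evalA A (jK K) (Q.map σA) *
      ((⟨coeffMap σ (x : LaurentSeries K), hx'⟩ : OTA A π) : LaurentSeries K) := by
    rw [← coeffMap_embA A σ σA hσ, hy, map_mul, coeffMap_evalA_jK A σ σA hσ]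
  have h2 := OTA_redT_mul_eq ⟨coeffMap σ (x : LaurentSeries K), hx'⟩ (Q.map σA) (coeffMap σA y)
    (map_map_ne_zero A π σA σk hσk Q hQ) hy'
  have hne : evalC (jqModC k) ((Q.map σA).map π) ≠ 0 :=
    evalC_jqModC_ne_zero k _ (map_map_ne_zero A π σA σk hσk Q hQ)
  have h3 : evalC (jqModC k) ((Q.map σA).map π) = coeffMap σk (evalC (jqModC k) (Q.map π)) := by
    rw [coeffMap_evalC_gen, coeffMap_jqModC, Polynomial.map_map, Polynomial.map_map,
      show π.comp σA = σk.comp π from RingHom.ext fun a => hσk a]
  apply mul_right_cancel₀ hne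
  rw [h2, redA_coeffMap A π σA σk hσk, ← h1, map_mul, h3]

variable [Algebra ℚ K] (N : ℕ)

include hσ hσk in
/-- Version for the Gauss subring of `F_K`: if `σ x` (coefficientwise) is again in `F_K`,
it is Gauss-integral and its reduction is `σk (red x)`. -/
theorem gaussRed_coeffMap (x : gaussSubring A π N) (x' : FK K N)
    (hx' : (x' : LaurentSeries K) = coeffMap σ ((x : FK K N) : LaurentSeries K)) :
    ∃ h : x' ∈ gaussSubring A π N,
      gaussRed A π N ⟨x', h⟩ = coeffMap σk (gaussRed A π N x) := by
  have hmem : x' ∈ gaussSubring A π N := by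
    rw [mem_gaussSubring_iff, hx']
    exact inOTA_coeffMap A π σ σA hσ σk hσk _ x.2
  refine ⟨hmem, ?_⟩
  have h := OTA_redT_coeffMap A π σ σA hσ σk hσk (gaussIncl A π N x)
    (inOTA_coeffMap A π σ σA hσ σk hσk _ x.2)
  show OTA_redT A π (gaussIncl A π N ⟨x', hmem⟩) =
    coeffMap σk (OTA_redT A π (gaussIncl A π N x))
  rw [← h]
  congr 1
  exact Subtype.ext hx'

end Fermat.Agent.Red.GV
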