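import Fermat.Agent.Red.GV.Bar
import Fermat.Agent.Red.GV.Galois

/-!
# P-RED / GV: Galois compatibility and further properties of the Gauss valuation, `S37` vocabulary

* `gaussR_gal` — for `σ` in the decomposition group of `A`, `gal N σ` preserves `gaussV A N`
  and `red (σ • x) = σ̄ (red x)` coefficientwise.
* `gaussR_gal_of_inertia` — for `σ` in the inertia group, `red (σ • x) = red x`.
* `gaussR_gal_of_frobenius` — for a Frobenius `σ`, the coefficients of `red (σ • x)` are the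
  `ℓ`-th powers of those of `red x`.
* `jB_mem_gaussV`, `jB_inv_mem_gaussV` — `j` is a Gauss unit.
* `one_add_cst_mul_inv_mem_gaussV` — `(1 + c x)⁻¹ ∈ V` for `c ∈ 𝔪_A`, `x ∈ V`.
* `exists_sub_one_eq_of_congOne` — `CongOne A w → w - 1 ∈ 𝔪_A · V`.
-/

set_option autoImplicit false

open ModularCurve AlgebraicCurve

noncomputable section

namespace Fermat.Agent.Red.GV

open Fermat.Agent.S28 Fermat.Agent.S37 Fermat.Agent.Red.GV.Asm

section Galois

variable (A : ValuationSubring Kbar) (N : ℕ)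

/-- the ring endomorphism of `A` induced by an element of the decomposition group. -/
def decompA (σ : GQ) (hσ : σ ∈ A.decompositionSubgroup ℚ) : A →+* A :=
  MulSemiringAction.toRingHom (A.decompositionSubgroup ℚ) A ⟨σ, hσ⟩

/-- the ring endomorphism of the residue field induced by an element of the decomposition
group. -/
def decompK (σ : GQ) (hσ : σ ∈ A.decompositionSubgroup ℚ) :
    IsLocalRing.ResidueField A →+* IsLocalRing.ResidueField A :=
  MulSemiringAction.toRingHom (A.decompositionSubgroup ℚ) (IsLocalRing.ResidueField A) ⟨σ, hσ⟩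

theorem coe_decompA (σ : GQ) (hσ : σ ∈ A.decompositionSubgroup ℚ) (a : A) :
    ((decompA A σ hσ a : A) : Kbar) = (σ : Kbar →+* Kbar) (a : Kbar) :=
  rfl

theorem residue_decompA (σ : GQ) (hσ : σ ∈ A.decompositionSubgroup ℚ) (a : A) :
    IsLocalRing.residue A (decompA A σ hσ a) = decompK A σ hσ (IsLocalRing.residue A a) :=
  IsLocalRing.ResidueField.residue_smul _ (⟨σ, hσ⟩ : A.decompositionSubgroup ℚ) a

theorem coe_gal_smul (σ : GQ) (x : FF N) :
    ((gal N σ • x : FF N) : LaurentSeries Kbar) =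
      coeffMap (σ : Kbar →+* Kbar) (x : LaurentSeries Kbar) :=
  rfl

/-- **Decomposition group**: `σ` preserves the Gauss subring and `red (σ x) = σ̄ (red x)`. -/
theorem gaussR_gal (σ : GQ) (hσ : σ ∈ A.decompositionSubgroup ℚ) (x : gaussV A N) :
    ∃ h : gal N σ • (x : FF N) ∈ gaussV A N,
      gaussR A N ⟨gal N σ • (x : FF N), h⟩ = coeffMap (decompK A σ hσ) (gaussR A N x) :=
  gaussRed_coeffMap A (IsLocalRing.residue A) (σ : Kbar →+* Kbar) (decompA A σ hσ)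
    (coe_decompA A σ hσ) (decompK A σ hσ) (residue_decompA A σ hσ) N x _ (coe_gal_smul N σ _)

theorem gal_smul_mem_gaussV (σ : GQ) (hσ : σ ∈ A.decompositionSubgroup ℚ) (x : FF N)
    (hx : x ∈ gaussV A N) : gal N σ • x ∈ gaussV A N :=
  (gaussR_gal A N σ hσ ⟨x, hx⟩).1

theorem mem_decomp_of_mem_inertia {σ : GQ} (hσ : σ ∈ A.inertiaSubgroupIn ℚ) :
    σ ∈ A.decompositionSubgroup ℚ := by
  obtain ⟨τ, -, rfl⟩ := hσ
  exact τ.2

theorem decompK_of_inertia {σ : GQ} (hσ : σ ∈ A.inertiaSubgroupIn ℚ) :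
    decompK A σ (mem_decomp_of_mem_inertia A hσ) = RingHom.id _ := by
  obtain ⟨τ, hτ, rfl⟩ := hσ
  have hker : MulSemiringAction.toRingAut (A.decompositionSubgroup ℚ)
      (IsLocalRing.ResidueField A) τ = 1 := hτ
  ext z
  have h1 := congrArg (fun e : RingAut (IsLocalRing.ResidueField A) => e z) hker
  have h2 : τ • z = z := by simpa using h1
  exact h2

/-- **Inertia**: `red (σ x) = red x`. -/
theorem gaussR_gal_of_inertia {σ : GQ} (hσ : σ ∈ A.inertiaSubgroupIn ℚ) (x : gaussV A N) :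
    ∃ h : gal N σ • (x : FF N) ∈ gaussV A N,
      gaussR A N ⟨gal N σ • (x : FF N), h⟩ = gaussR A N x := by
  obtain ⟨h, hred⟩ := gaussR_gal A N σ (mem_decomp_of_mem_inertia A hσ) x
  refine ⟨h, ?_⟩
  rw [hred, decompK_of_inertia A hσ, coeffMap_id]

/-- **Frobenius**: the coefficients of `red (σ x)` are the `ℓ`-th powers of those of
`red x`. -/
theorem gaussR_gal_of_frobenius {ℓ : ℕ} {σ : GQ} (hσ : A.IsFrobeniusAt σ ℓ) (x : gaussV A N) :
    ∃ h : gal N σ • (x : FF N) ∈ gaussV A N,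
      ∀ n : ℤ, (gaussR A N ⟨gal N σ • (x : FF N), h⟩).coeff n = ((gaussR A N x).coeff n) ^ ℓ := by
  obtain ⟨h, hred⟩ := gaussR_gal A N σ hσ.mem_decompositionSubgroup x
  refine ⟨h, fun n => ?_⟩
  rw [hred, coeffMap_coeff]
  exact hσ.smul_residue_eq _

end Galois

section Units

variable (A : ValuationSubring Kbar) (N : ℕ) [NeZero N] {ℓ : ℕ}

theorem jB_mem_gaussV : jB N ∈ gaussV A N :=
  mem_gaussSubring_of_embA A _ N (jB N) (jqModC A) (by rw [embA_jqModC, coe_jB])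

theorem gaussR_jB : gaussR A N ⟨jB N, jB_mem_gaussV A N⟩ = jqModC (IsLocalRing.ResidueField A) := by
  have h := gaussRed_of_embA A (IsLocalRing.residue A) N ⟨jB N, jB_mem_gaussV A N⟩ (jqModC A)
    (by rw [embA_jqModC, coe_jB])
  rw [redA_jqModC] at h
  exact h

theorem jB_inv_mem_gaussV (hℓ : ℓ.Prime) (hN : ¬ ℓ ∣ N) (hA : A.LiesOverPrime ℓ) :
    (jB N)⁻¹ ∈ gaussV A N := by
  have : Fact ℓ.Prime := ⟨hℓ⟩
  refine inv_mem_gaussSubring_of_gaussRed_ne_zero A _ N ℓ (isResidueMap_residue A ℓ hA) hN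
    ⟨jB N, jB_mem_gaussV A N⟩ ?_
  rw [gaussR_jB A N]
  exact jqModC_ne_zero_of_nontrivial _

omit [NeZero N] in
/-- the reduction of a constant in `𝔪_A` vanishes. -/
theorem gaussR_cst_of_nonunit (hA : A.LiesOverPrime ℓ) (c : Kbar) (hc : c ∈ A.nonunits)
    (hcst : cst N c ∈ gaussV A N) : gaussR A N ⟨cst N c, hcst⟩ = 0 := by
  have hπ := isResidueMap_residue A ℓ hA
  have hcA : c ∈ A := mem_of_mem_nonunits A c hc
  have h3 := gaussRed_algebraMap A (IsLocalRing.residue A) N ⟨c, hcA⟩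
  rw [(hπ.ker_eq ⟨c, hcA⟩).2 hc, map_zero] at h3
  exact h3

/-- `(1 + c x)⁻¹ ∈ V` for `c ∈ 𝔪_A`, `x ∈ V`; in particular `1 + c x ≠ 0`. -/
theorem one_add_cst_mul_inv_mem_gaussV (hℓ : ℓ.Prime) (hN : ¬ ℓ ∣ N) (hA : A.LiesOverPrime ℓ)
    (c : Kbar) (hc : c ∈ A.nonunits) (x : FF N) (hx : x ∈ gaussV A N) :
    1 + cst N c * x ≠ 0 ∧ (1 + cst N c * x)⁻¹ ∈ gaussV A N := by
  have : Fact ℓ.Prime := ⟨hℓ⟩
  have hπ := isResidueMap_residue A ℓ hA
  have hcA : c ∈ A := mem_of_mem_nonunits A c hc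
  have hcst : cst N c ∈ gaussV A N := algebraMap_mem_gaussSubring A _ N ⟨c, hcA⟩
  obtain ⟨y, hy⟩ : ∃ y : gaussV A N, y = 1 + ⟨cst N c, hcst⟩ * ⟨x, hx⟩ := ⟨_, rfl⟩
  have hycoe : (y : FF N) = 1 + cst N c * x := by
    rw [hy]
    rfl
  have hred : gaussR A N y = 1 := by
    rw [hy, map_add, map_mul, map_one, gaussR_cst_of_nonunit A N hA c hc hcst, zero_mul,
      add_zero]
  have hne : gaussR A N y ≠ 0 := by
    rw [hred]
    exact one_ne_zero
  rw [← hycoe]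
  refine ⟨fun h0 => hne ?_, inv_mem_gaussSubring_of_gaussRed_ne_zero A _ N ℓ hπ hN y hne⟩
  have : y = 0 := Subtype.ext h0
  rw [this, map_zero]

/-- `CongOne A w` implies `w - 1 ∈ 𝔪_A · V`. -/
theorem exists_sub_one_eq_of_congOne (hℓ : ℓ.Prime) (hN : ¬ ℓ ∣ N) (hA : A.LiesOverPrime ℓ)
    (w : FF N) (hw : CongOne A w) :
    ∃ (c : Kbar) (x : FF N), c ≠ 0 ∧ c ∈ A.nonunits ∧ x ∈ gaussV A N ∧
      w - 1 = cst N c * x := by
  have : Fact ℓ.Prime := ⟨hℓ⟩
  have hπ := isResidueMap_residue A ℓ hA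
  obtain ⟨hmem, hred⟩ := (congOne_iff_gaussR A N hℓ hN hA w).1 hw
  have hmem1 : w - 1 ∈ gaussV A N := sub_mem hmem (one_mem _)
  have hred1 : gaussRed A (IsLocalRing.residue A) N ⟨w - 1, hmem1⟩ = 0 := by
    have h1 : (⟨w - 1, hmem1⟩ : gaussV A N) = ⟨w, hmem⟩ - 1 := rfl
    show gaussR A N ⟨w - 1, hmem1⟩ = 0
    rw [h1, map_sub, map_one, hred, sub_self]
  obtain ⟨c, x', hc, hnu, hx', hxx'⟩ :=
    exists_eq_mul_of_gaussRed_eq_zero A _ N ℓ hπ hN ⟨w - 1, hmem1⟩ hred1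
  exact ⟨(c : Kbar), x', fun h0 => hc (Subtype.ext h0), hnu, hx', hxx'⟩

/-- Conversely, `w - 1 ∈ 𝔪_A · V` implies `CongOne A w`. -/
theorem congOne_of_sub_one_eq (hℓ : ℓ.Prime) (hN : ¬ ℓ ∣ N) (hA : A.LiesOverPrime ℓ)
    (w : FF N) (c : Kbar) (hc : c ∈ A.nonunits) (x : FF N) (hx : x ∈ gaussV A N)
    (h : w - 1 = cst N c * x) : CongOne A w := by
  have : Fact ℓ.Prime := ⟨hℓ⟩
  have hπ := isResidueMap_residue A ℓ hA
  have hcA : c ∈ A := mem_of_mem_nonunits A c hc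
  have hcst : cst N c ∈ gaussV A N := algebraMap_mem_gaussSubring A _ N ⟨c, hcA⟩
  have hw : w = 1 + cst N c * x := by rw [← h]; ring
  have hmem : w ∈ gaussV A N := by
    rw [hw]
    exact add_mem (one_mem _) (mul_mem hcst hx)
  rw [congOne_iff_gaussR A N hℓ hN hA w]
  refine ⟨hmem, ?_⟩
  have h1 : (⟨w, hmem⟩ : gaussV A N) = 1 + ⟨cst N c, hcst⟩ * ⟨x, hx⟩ := Subtype.ext hw
  rw [h1, map_add, map_mul, map_one]
  rw [gaussR_cst_of_nonunit A N hA c hc hcst, zero_mul, add_zero]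

end Units

end Fermat.Agent.Red.GV
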