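import Fermat.Agent.Red.GV.SoftBar
import Fermat.Agent.Red.GV.BarGalois

/-!
# P-RED / GV (soft form): Galois compatibility, comparison with `gaussV`, units

* `softR_gal` — for `σ` in the decomposition group of `A`, `gal N σ` preserves `softV A N`
  and `red (σ • x) = σ̄ (red x)` coefficientwise (any level).
* `softR_gal_of_inertia`, `softR_gal_of_frobenius`.
* `softV_eq_gaussV`, `softR_eq_gaussR` — for `ℓ ∤ N` the soft Gauss valuation is the one of
  `Red/GV/Bar.lean`.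
* `one_add_cst_mul_inv_mem_softV` — `(1 + c x)⁻¹ ∈ softV` for `c ∈ 𝔪_A`, `x ∈ softV`.
-/

set_option autoImplicit false
set_option linter.unusedSectionVars false

open ModularCurve AlgebraicCurve

noncomputable section

namespace Fermat.Agent.Red.GV.Soft

open Fermat.Agent.S05 Fermat.Agent.S28 Fermat.Agent.S37 Fermat.Agent.Red.GV

variable (A : ValuationSubring Kbar) (N : ℕ)

/-! ### Galois -/

/-- **Decomposition group**: `σ` preserves `softV` and `red (σ x) = σ̄ (red x)`. -/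
theorem softR_gal (σ : GQ) (hσ : σ ∈ A.decompositionSubgroup ℚ) (x : softV A N) :
    ∃ h : gal N σ • (x : FF N) ∈ softV A N,
      softR A N ⟨gal N σ • (x : FF N), h⟩ = coeffMap (decompK A σ hσ) (softR A N x) := by
  have h1 : coeffMap (σ : Kbar →+* Kbar)
      ((softIncl A N x : softOT A (IsLocalRing.residue A)) : LaurentSeries Kbar) ∈
      softOT A (IsLocalRing.residue A) :=
    mem_softOT_coeffMap (σ : Kbar →+* Kbar) (decompA A σ hσ) (coe_decompA A σ hσ)
      (decompK A σ hσ) (residue_decompA A σ hσ) (softIncl A N x).2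
  have h : gal N σ • (x : FF N) ∈ softV A N := by
    rw [mem_softV_iff, coe_gal_smul]
    exact h1
  refine ⟨h, ?_⟩
  have h2 := softRedT_coeffMap (σ : Kbar →+* Kbar) (decompA A σ hσ) (coe_decompA A σ hσ)
    (decompK A σ hσ) (residue_decompA A σ hσ) (softIncl A N x) h1
  show softRedT A _ (softIncl A N ⟨gal N σ • (x : FF N), h⟩) =
    coeffMap (decompK A σ hσ) (softRedT A _ (softIncl A N x))
  rw [← h2]
  have e : softIncl A N ⟨gal N σ • (x : FF N), h⟩ =
      ⟨coeffMap (σ : Kbar →+* Kbar)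
        ((softIncl A N x : softOT A (IsLocalRing.residue A)) : LaurentSeries Kbar), h1⟩ :=
    Subtype.ext ((coe_softIncl A N _).trans (coe_gal_smul N σ (x : FF N)))
  rw [e]

theorem gal_smul_mem_softV (σ : GQ) (hσ : σ ∈ A.decompositionSubgroup ℚ) (x : FF N)
    (hx : x ∈ softV A N) : gal N σ • x ∈ softV A N :=
  (softR_gal A N σ hσ ⟨x, hx⟩).1

/-- **Inertia**: `red (σ x) = red x`. -/
theorem softR_gal_of_inertia {σ : GQ} (hσ : σ ∈ A.inertiaSubgroupIn ℚ) (x : softV A N) :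
    ∃ h : gal N σ • (x : FF N) ∈ softV A N,
      softR A N ⟨gal N σ • (x : FF N), h⟩ = softR A N x := by
  obtain ⟨h, hred⟩ := softR_gal A N σ (mem_decomp_of_mem_inertia A hσ) x
  refine ⟨h, ?_⟩
  rw [hred, decompK_of_inertia A hσ, coeffMap_id]

/-- **Frobenius**: the coefficients of `red (σ x)` are the `ℓ`-th powers of those of
`red x`. -/
theorem softR_gal_of_frobenius {ℓ : ℕ} {σ : GQ} (hσ : A.IsFrobeniusAt σ ℓ) (x : softV A N) :
    ∃ h : gal N σ • (x : FF N) ∈ softV A N,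
      ∀ n : ℤ, (softR A N ⟨gal N σ • (x : FF N), h⟩).coeff n = ((softR A N x).coeff n) ^ ℓ := by
  obtain ⟨h, hred⟩ := softR_gal A N σ hσ.mem_decompositionSubgroup x
  refine ⟨h, fun n => ?_⟩
  rw [hred, coeffMap_coeff]
  exact hσ.smul_residue_eq _

/-! ### Comparison with the Gauss valuation of `Red/GV/Bar.lean` -/

theorem gaussV_le_softV : gaussV A N ≤ softV A N := by
  intro x hx
  obtain ⟨Q, hQ, y, hy⟩ := (mem_gaussV_iff A N x).mp hx
  refine (mem_softV_iff A N x).mpr ⟨y, OTA_jA A Q, ?_, ?_⟩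
  · rw [OTA_redA_jA]
    exact evalC_jqModC_ne_zero _ _ hQ
  · rw [hy, OTA_embA_jA, mul_comm]

variable {ℓ : ℕ}

theorem softV_le_gaussV [NeZero N] (hℓ : ℓ.Prime) (hN : ¬ ℓ ∣ N) (hA : A.LiesOverPrime ℓ) :
    softV A N ≤ gaussV A N := by
  rintro x ⟨a, b, hb, hab⟩
  have : Fact ℓ.Prime := ⟨hℓ⟩
  exact mem_gaussSubring_of_frac A _ N ℓ (isResidueMap_residue A ℓ hA) hN x a b hb hab

/-- **For `ℓ ∤ N` the soft Gauss ring is the Gauss ring.** -/
theorem softV_eq_gaussV [NeZero N] (hℓ : ℓ.Prime) (hN : ¬ ℓ ∣ N) (hA : A.LiesOverPrime ℓ) :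
    softV A N = gaussV A N :=
  le_antisymm (softV_le_gaussV A N hℓ hN hA) (gaussV_le_softV A N)

/-- the two reductions agree (where both are defined). -/
theorem softR_eq_gaussR (x : FF N) (hx : x ∈ softV A N) (hx' : x ∈ gaussV A N) :
    softR A N ⟨x, hx⟩ = gaussR A N ⟨x, hx'⟩ := by
  obtain ⟨a, b, hb, hab⟩ := hx
  have h1 := softR_mul_redA A N ⟨x, ⟨a, b, hb, hab⟩⟩ a b hb hab
  have h2 := gaussRed_mul_redA A (IsLocalRing.residue A) N ⟨x, hx'⟩ a b hab
  exact mul_right_cancel₀ hb (h1.trans h2.symm)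

/-! ### Units -/

/-- `(1 + c x)⁻¹` is Gauss-integral for `c ∈ 𝔪_A`, `x` Gauss-integral (any level). -/
theorem one_add_cst_mul_mem_softV (c : Kbar) (hc : c ∈ A.nonunits) (x : FF N)
    (hx : x ∈ softV A N) :
    ∃ h : 1 + cst N c * x ∈ softV A N, softR A N ⟨1 + cst N c * x, h⟩ = 1 := by
  have hcA : c ∈ A := A.nonunits_subset hc
  have hcV : cst N c ∈ softV A N := (cst_mem_softV_iff A N c).mpr hcA
  have h : 1 + cst N c * x ∈ softV A N := add_mem (one_mem _) (mul_mem hcV hx)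
  refine ⟨h, ?_⟩
  have e : (⟨1 + cst N c * x, h⟩ : softV A N) = 1 + ⟨cst N c, hcV⟩ * ⟨x, hx⟩ := rfl
  rw [e, map_add, map_one, map_mul, softR_cst_of_nonunit A N c hc hcV, zero_mul, add_zero]

theorem one_add_cst_mul_inv_mem_softV (c : Kbar) (hc : c ∈ A.nonunits) (x : FF N)
    (hx : x ∈ softV A N) : (1 + cst N c * x)⁻¹ ∈ softV A N := by
  obtain ⟨h, hred⟩ := one_add_cst_mul_mem_softV A N c hc x hx
  have hne : softR A N ⟨1 + cst N c * x, h⟩ ≠ 0 := by
    rw [hred]
    exact one_ne_zero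
  exact ((softR_ne_zero_iff A N _).mp hne).2

/-- `CongOne A w` implies `w - 1 ∈ ker (softR)`. -/
theorem softR_sub_one_of_congOne (w : FF N) (hw : CongOne A w) :
    ∃ h : w - 1 ∈ softV A N, softR A N ⟨w - 1, h⟩ = 0 := by
  obtain ⟨h, hred⟩ := (congOne_iff_softR A N w).mp hw
  have h1 : w - 1 ∈ softV A N := sub_mem h (one_mem _)
  refine ⟨h1, ?_⟩
  have e : (⟨w - 1, h1⟩ : softV A N) = ⟨w, h⟩ - 1 := rfl
  rw [e, map_sub, map_one, hred, sub_self]

end Fermat.Agent.Red.GV.Soft
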