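import Fermat.Agent.Red.GV.SoftGal
import Fermat.Agent.Red.BC.Span
import Fermat.Agent.S37.Inertia

/-!
# P-RED / GV (soft form): rational functions

For a nonzero function `x ∈ FF N` with RATIONAL `q`-expansion (any level `N`):

* `exists_rat_scale` — there is `n : ℤ` such that `ℓ ^ n · x` is a unit of `softV A N`, and
  the reduction of `ℓ ^ n · x` has coefficients in the prime field `𝔽_ℓ`;
* `softR_of_isRat` — if `x ∈ softV A N` then the reduction of `x` has coefficients in `𝔽_ℓ`,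
  and if it vanishes then `x / ℓ ∈ softV A N`.
-/

set_option autoImplicit false
set_option linter.unusedSectionVars false

open ModularCurve AlgebraicCurve

noncomputable section

namespace Fermat.Agent.Red.GV.Soft

open Fermat.Agent.S05 Fermat.Agent.S28 Fermat.Agent.S37 Fermat.Agent.Red.GV

section Zl

variable (ℓ : ℕ) [Fact ℓ.Prime]

/-- the identification of `ℤ_(ℓ)` (as a valuation subring of `ℚ`) with `ℤ_(ℓ)` (as a
subring). -/
def zlId : ↥(ratLocalizedAtValuationSubring ℓ) →+* GaloisRep.ratLocalizedAt ℓ where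
  toFun x := ⟨(x : ℚ), x.2⟩
  map_one' := rfl
  map_zero' := rfl
  map_add' _ _ := rfl
  map_mul' _ _ := rfl

@[simp]
theorem coe_zlId (x : ↥(ratLocalizedAtValuationSubring ℓ)) :
    ((zlId ℓ x : GaloisRep.ratLocalizedAt ℓ) : ℚ) = (x : ℚ) :=
  rfl

/-- the residue map `ℤ_(ℓ) → 𝔽_ℓ` on the valuation subring. -/
def zlRes : ↥(ratLocalizedAtValuationSubring ℓ) →+* ZMod ℓ :=
  (resL ℓ).comp (zlId ℓ)

theorem zl_liesOver : (ratLocalizedAtValuationSubring ℓ).LiesOverPrime ℓ := by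
  have hℓ : ℓ.Prime := Fact.out
  show ((ℓ : ℕ) : ℚ) ∈ (ratLocalizedAtValuationSubring ℓ).nonunits
  rw [ValuationSubring.mem_nonunits_iff]
  by_contra hlt
  rw [not_lt] at hlt
  have hℓ0 : ((ℓ : ℕ) : ℚ) ≠ 0 := Nat.cast_ne_zero.mpr hℓ.ne_zero
  have h1 : (ratLocalizedAtValuationSubring ℓ).valuation ((ℓ : ℚ))⁻¹ ≤ 1 := by
    rw [map_inv₀]
    exact inv_le_one_of_one_le₀ hlt
  have h2 : ((ℓ : ℚ))⁻¹ ∈ ratLocalizedAtValuationSubring ℓ :=
    (ValuationSubring.valuation_le_one_iff _ _).mp h1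
  have h3 : (((ℓ : ℚ))⁻¹).den.Coprime ℓ := h2
  have h4 : (((ℓ : ℚ))⁻¹).den = ℓ := by
    rw [Rat.inv_natCast_den]
    simp [hℓ.ne_zero]
  rw [h4] at h3
  exact hℓ.one_lt.ne' ((Nat.coprime_self ℓ).mp h3)

theorem isAlgebraic_int_rat : Algebra.IsAlgebraic ℤ ℚ := by
  constructor
  intro x
  have h2 : IsAlgebraic ℚ x := isAlgebraic_algebraMap (R := ℚ) (A := ℚ) x
  exact (IsFractionRing.isAlgebraic_iff ℤ ℚ ℚ (x := x)).2 h2

end Zl

section RatScale

variable (A : ValuationSubring Kbar) (N : ℕ) {ℓ : ℕ}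

/-- **Rational scaling, series form.**  A nonzero rational modular function of level `N` is
`ℓ ^ (-n) · a / b` with `a, b ∈ A((q))` whose reductions are nonzero with coefficients in
`𝔽_ℓ`. -/
theorem exists_rat_scale_series (hℓ : ℓ.Prime) (hA : A.LiesOverPrime ℓ)
    (κ : ZMod ℓ →+* IsLocalRing.ResidueField A)
    (g : LaurentSeries ℚ) (hg : g ∈ modularFunctionFieldFull N) (hg0 : g ≠ 0) :
    ∃ (n : ℤ) (a b : LaurentSeries A) (ra rb : LaurentSeries (ZMod ℓ)),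
      ra ≠ 0 ∧ rb ≠ 0 ∧ redA (IsLocalRing.residue A) a = coeffMap κ ra ∧
      redA (IsLocalRing.residue A) b = coeffMap κ rb ∧
      embA A a = (HahnSeries.C ((ℓ : Kbar) ^ n) * coeffEmb Kbar g) * embA A b := by
  haveI : Fact ℓ.Prime := ⟨hℓ⟩
  obtain ⟨ι, κ', hι, hκ'⟩ :=
    exists_baseHom A (IsLocalRing.residue A) ℓ (isResidueMap_residue A ℓ hA)
  have hκeq : κ' = κ := Subsingleton.elim _ _
  rw [hκeq] at hκ'
  obtain ⟨ord, hord⟩ := @RO.exists_isOrd ℚ _ (ratLocalizedAtValuationSubring ℓ) _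
    isAlgebraic_int_rat ℓ hℓ (zl_liesOver ℓ)
  have hgdf : g ∈ dfField (K := ℚ) := by
    have h1 := coeffEmb_mem_dfField_of_mem_full (K := ℚ) N g hg
    have h2 : coeffEmb ℚ g = g := by
      ext n
      rfl
    rwa [h2] at h1
  have : Algebra.IsAlgebraic ℚ ℚ := ⟨fun x => isAlgebraic_algebraMap (R := ℚ) (A := ℚ) x⟩
  obtain ⟨c, a₀, b₀, hc, ha₀, hb₀, hab⟩ := exists_scale (zlRes ℓ) hord hℓ hgdf hg0
  obtain ⟨z, hz⟩ := ord_ratCast hord hℓ hc
  have hz' : ord c = z := hz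
  have hu := hord.isUnitOf_div_zpow hc hz'
  have hℓ0 : ((ℓ : ℕ) : ℚ) ≠ 0 := Nat.cast_ne_zero.mpr hℓ.ne_zero
  have hzp0 : ((ℓ : ℕ) : ℚ) ^ z ≠ 0 := zpow_ne_zero _ hℓ0
  set u : ℚ := c / ((ℓ : ℕ) : ℚ) ^ z with hudef
  have hu0 : u ≠ 0 := div_ne_zero hc hzp0
  have huinv : u⁻¹ ∈ ratLocalizedAtValuationSubring ℓ := by
    rw [← ValuationSubring.valuation_le_one_iff, map_inv₀]
    have h1 : (ratLocalizedAtValuationSubring ℓ).valuation u = 1 := hu
    rw [h1, inv_one]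
  have humem : u ∈ ratLocalizedAtValuationSubring ℓ := by
    rw [← ValuationSubring.valuation_le_one_iff]
    have h1 : (ratLocalizedAtValuationSubring ℓ).valuation u = 1 := hu
    rw [h1]
  set vA : ↥(ratLocalizedAtValuationSubring ℓ) := ⟨u⁻¹, huinv⟩ with hvA
  set uA : ↥(ratLocalizedAtValuationSubring ℓ) := ⟨u, humem⟩ with huA
  have hvu : vA * uA = 1 := Subtype.ext (inv_mul_cancel₀ hu0)
  have hπv : zlRes ℓ vA ≠ 0 := by
    intro h0
    have h1 := congrArg (zlRes ℓ) hvu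
    rw [map_mul, h0, zero_mul, map_one] at h1
    exact zero_ne_one h1
  set a₁ : LaurentSeries ↥(ratLocalizedAtValuationSubring ℓ) := HahnSeries.C vA * a₀ with ha₁
  have hra₁ : redA (zlRes ℓ) a₁ ≠ 0 := by
    rw [ha₁, redA_C_mul]
    refine mul_ne_zero ?_ ha₀
    rw [Ne, map_eq_zero_iff _ HahnSeries.C_injective]
    exact hπv
  have hea₁ : embA (ratLocalizedAtValuationSubring ℓ) a₁ =
      (HahnSeries.C (((ℓ : ℕ) : ℚ) ^ z) * g) * embA (ratLocalizedAtValuationSubring ℓ) b₀ := by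
    rw [ha₁, embA_C_mul, hab]
    have h1 : ((vA : ↥(ratLocalizedAtValuationSubring ℓ)) : ℚ) = u⁻¹ := rfl
    rw [h1]
    have h2 : (HahnSeries.C u⁻¹ : LaurentSeries ℚ) * HahnSeries.C c =
        HahnSeries.C (((ℓ : ℕ) : ℚ) ^ z) := by
      rw [← map_mul]
      congr 1
      rw [hudef]
      field_simp
    rw [← h2]
    ring
  -- transport to `A`
  set σA : ↥(ratLocalizedAtValuationSubring ℓ) →+* A := ι.comp (zlId ℓ) with hσA
  have hσ : ∀ a : ↥(ratLocalizedAtValuationSubring ℓ),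
      ((σA a : A) : Kbar) = algebraMap ℚ Kbar (a : ℚ) := fun a => hι (zlId ℓ a)
  have hσk : ∀ a : ↥(ratLocalizedAtValuationSubring ℓ),
      IsLocalRing.residue A (σA a) = κ (zlRes ℓ a) := fun a => hκ' (zlId ℓ a)
  refine ⟨z, coeffMap σA a₁, coeffMap σA b₀, redA (zlRes ℓ) a₁, redA (zlRes ℓ) b₀, hra₁, hb₀,
    soft_redA_coeffMap σA κ hσk a₁, soft_redA_coeffMap σA κ hσk b₀, ?_⟩
  rw [soft_embA_coeffMap (algebraMap ℚ Kbar) σA hσ, soft_embA_coeffMap (algebraMap ℚ Kbar) σA hσ,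
    hea₁, map_mul, map_mul]
  congr 2
  rw [HahnSeries.C_apply, coeffMap_single, map_zpow₀, map_natCast, HahnSeries.C_apply]

theorem soft_coeffMap_injective {k₁ k₂ : Type} [Field k₁] [Field k₂] (κ : k₁ →+* k₂) :
    Function.Injective (coeffMap κ) := by
  intro x y h
  ext n
  have := congrArg (fun z => HahnSeries.coeff z n) h
  exact κ.injective this

theorem natCast_zpow_mem (ℓ : ℕ) {k : ℤ} (hk : 0 ≤ k) :
    ((ℓ : ℕ) : Kbar) ^ k ∈ A := by
  lift k to ℕ using hk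
  rw [zpow_natCast]
  exact A.pow_mem (_root_.natCast_mem A ℓ) k

theorem natCast_zpow_mem_nonunits (hA : A.LiesOverPrime ℓ) {k : ℤ} (hk : 0 < k) :
    ((ℓ : ℕ) : Kbar) ^ k ∈ A.nonunits := by
  lift k to ℕ using hk.le
  have hk' : k ≠ 0 := by
    rintro rfl
    simp at hk
  rw [zpow_natCast]
  have hA' : ((ℓ : ℕ) : Kbar) ∈ A.nonunits := hA
  rw [ValuationSubring.mem_nonunits_iff] at hA' ⊢
  rw [map_pow]
  exact pow_lt_one₀ zero_le hA' hk'

/-- **Rational scaling.**  For a nonzero function `x` of level `N` with rational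
`q`-expansion there is `n : ℤ` such that `ℓ ^ n · x` is a unit of `softV A N` whose reduction
has coefficients in the prime field. -/
theorem exists_rat_scale (hℓ : ℓ.Prime) (hA : A.LiesOverPrime ℓ)
    (κ : ZMod ℓ →+* IsLocalRing.ResidueField A) (x : FF N) (hx : x ≠ 0) (hrat : IsRat x) :
    ∃ (n : ℤ) (r : LaurentSeries (ZMod ℓ)) (h : cst N (((ℓ : ℕ) : Kbar) ^ n) * x ∈ softV A N),
      r ≠ 0 ∧ (cst N (((ℓ : ℕ) : Kbar) ^ n) * x)⁻¹ ∈ softV A N ∧
      softR A N ⟨cst N (((ℓ : ℕ) : Kbar) ^ n) * x, h⟩ = coeffMap κ r := by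
  haveI : Fact ℓ.Prime := ⟨hℓ⟩
  obtain ⟨g, hg, hgx⟩ := hrat
  have hg0 : g ≠ 0 := by
    rintro rfl
    apply hx
    apply Subtype.ext
    rw [← hgx, map_zero]
    rfl
  obtain ⟨n, a, b, ra, rb, hra, hrb, hreda, hredb, hab⟩ :=
    exists_rat_scale_series A N hℓ hA κ g hg hg0
  have hκra : coeffMap κ ra ≠ 0 := fun h0 =>
    hra (soft_coeffMap_injective κ (h0.trans (map_zero (coeffMap κ)).symm))
  have hκrb : coeffMap κ rb ≠ 0 := fun h0 =>
    hrb (soft_coeffMap_injective κ (h0.trans (map_zero (coeffMap κ)).symm))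
  have hb : redA (IsLocalRing.residue A) b ≠ 0 := by
    rw [hredb]
    exact hκrb
  have ha : redA (IsLocalRing.residue A) a ≠ 0 := by
    rw [hreda]
    exact hκra
  have hab' : embA A a =
      ((cst N (((ℓ : ℕ) : Kbar) ^ n) * x : FF N) : LaurentSeries Kbar) * embA A b := by
    rw [hab, hgx]
    congr 1
    show _ = ((cst N (((ℓ : ℕ) : Kbar) ^ n) : FF N) : LaurentSeries Kbar) *
      (x : LaurentSeries Kbar)
    rw [soft_coe_cst]
  have hw : IsWit A (IsLocalRing.residue A)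
      ((cst N (((ℓ : ℕ) : Kbar) ^ n) * x : FF N) : LaurentSeries Kbar) a b := ⟨hb, hab'⟩
  have hmem : cst N (((ℓ : ℕ) : Kbar) ^ n) * x ∈ softV A N := ⟨a, b, hw⟩
  refine ⟨n, ra / rb, hmem, div_ne_zero hra hrb, ⟨b, a, hw.inv ha⟩, ?_⟩
  have h1 := softR_mul_redA A N ⟨_, hmem⟩ a b hb hab'
  rw [hreda, hredb] at h1
  rw [map_div₀, eq_div_iff hκrb]
  exact h1

/-- **Reduction of rational functions.**  If `x ∈ softV A N` has rational `q`-expansion, then
its reduction has coefficients in the prime field, and if the reduction vanishes then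
`x / ℓ ∈ softV A N`. -/
theorem softR_of_isRat (hℓ : ℓ.Prime) (hA : A.LiesOverPrime ℓ)
    (κ : ZMod ℓ →+* IsLocalRing.ResidueField A) (x : FF N) (hrat : IsRat x)
    (hx : x ∈ softV A N) :
    ∃ r : LaurentSeries (ZMod ℓ), softR A N ⟨x, hx⟩ = coeffMap κ r ∧
      (r = 0 → cst N (((ℓ : ℕ) : Kbar))⁻¹ * x ∈ softV A N) := by
  have hℓ0 : ((ℓ : ℕ) : Kbar) ≠ 0 := Nat.cast_ne_zero.mpr hℓ.ne_zero
  by_cases hx0 : x = 0
  · subst hx0
    refine ⟨0, ?_, fun _ => ?_⟩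
    · rw [map_zero]
      exact map_zero (softR A N)
    · rw [mul_zero]
      exact zero_mem _
  obtain ⟨n, r, hu, hr, huinv, hred⟩ := exists_rat_scale A N hℓ hA κ x hx0 hrat
  have hcn0 : cst N (((ℓ : ℕ) : Kbar) ^ n) ≠ 0 := by
    rw [Ne, map_eq_zero_iff _ (algebraMap Kbar (FF N)).injective]
    exact zpow_ne_zero _ hℓ0
  rcases lt_trichotomy n 0 with hn | hn | hn
  · -- `x = ℓ ^ (-n) · u`, `-n ≥ 1`
    have hm : 0 < -n := by omega
    have hxu : x = cst N (((ℓ : ℕ) : Kbar) ^ (-n)) * (cst N (((ℓ : ℕ) : Kbar) ^ n) * x) := by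
      rw [← mul_assoc, ← map_mul, ← zpow_add₀ hℓ0, neg_add_cancel, zpow_zero, map_one, one_mul]
    have hcm : cst N (((ℓ : ℕ) : Kbar) ^ (-n)) ∈ softV A N :=
      (cst_mem_softV_iff A N _).mpr (natCast_zpow_mem A ℓ hm.le)
    refine ⟨0, ?_, fun _ => ?_⟩
    · have e : (⟨x, hx⟩ : softV A N) =
          ⟨cst N (((ℓ : ℕ) : Kbar) ^ (-n)), hcm⟩ * ⟨cst N (((ℓ : ℕ) : Kbar) ^ n) * x, hu⟩ :=
        Subtype.ext hxu
      rw [e, map_mul, softR_cst_of_nonunit A N _ (natCast_zpow_mem_nonunits A hA hm) hcm,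
        zero_mul, map_zero]
    · have h1 : cst N (((ℓ : ℕ) : Kbar))⁻¹ * x =
          cst N (((ℓ : ℕ) : Kbar) ^ (-n - 1)) * (cst N (((ℓ : ℕ) : Kbar) ^ n) * x) := by
        rw [← mul_assoc, ← map_mul, ← zpow_add₀ hℓ0]
        have : -n - 1 + n = -1 := by ring
        rw [this, zpow_neg_one]
      rw [h1]
      exact mul_mem ((cst_mem_softV_iff A N _).mpr (natCast_zpow_mem A ℓ (by omega))) hu
  · subst hn
    have hxu : cst N (((ℓ : ℕ) : Kbar) ^ (0 : ℤ)) * x = x := by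
      rw [zpow_zero]
      show algebraMap Kbar (FF N) 1 * x = x
      rw [map_one, one_mul]
    refine ⟨r, ?_, fun h0 => absurd h0 hr⟩
    rw [← hred]
    congr 1
    exact Subtype.ext hxu.symm
  · -- impossible: `x⁻¹ = ℓ ^ n · u⁻¹` is not a unit
    exfalso
    have hxinv : x⁻¹ = cst N (((ℓ : ℕ) : Kbar) ^ n) * (cst N (((ℓ : ℕ) : Kbar) ^ n) * x)⁻¹ := by
      rw [mul_inv, ← mul_assoc, mul_inv_cancel₀ hcn0, one_mul]
    have hcn : cst N (((ℓ : ℕ) : Kbar) ^ n) ∈ softV A N :=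
      (cst_mem_softV_iff A N _).mpr (natCast_zpow_mem A ℓ hn.le)
    have hxinvmem : x⁻¹ ∈ softV A N := by
      rw [hxinv]
      exact mul_mem hcn huinv
    have h0 : softR A N ⟨x⁻¹, hxinvmem⟩ = 0 := by
      have e : (⟨x⁻¹, hxinvmem⟩ : softV A N) =
          ⟨cst N (((ℓ : ℕ) : Kbar) ^ n), hcn⟩ * ⟨(cst N (((ℓ : ℕ) : Kbar) ^ n) * x)⁻¹, huinv⟩ :=
        Subtype.ext hxinv
      rw [e, map_mul, softR_cst_of_nonunit A N _ (natCast_zpow_mem_nonunits A hA hn) hcn,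
        zero_mul]
    rcases (softR_eq_zero_iff A N ⟨x⁻¹, hxinvmem⟩).mp h0 with h1 | h1
    · exact hx0 (inv_eq_zero.mp h1)
    · apply h1
      show (x⁻¹)⁻¹ ∈ softV A N
      rwa [inv_inv]

/-- **Galois descent**: a function fixed by the whole Galois group has rational
`q`-expansion. -/
theorem isRat_of_gal_fixed (x : FF N) (h : ∀ σ : GQ, gal N σ • x = x) : IsRat x := by
  have hc : ∀ n : ℤ, (x : LaurentSeries Kbar).coeff n ∈ Set.range (algebraMap ℚ Kbar) := by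
    intro n
    have h1 : ∀ σ : GQ, σ ((x : LaurentSeries Kbar).coeff n) = (x : LaurentSeries Kbar).coeff n := by
      intro σ
      have h2 := congrArg (fun y : FF N => (y : LaurentSeries Kbar).coeff n) (h σ)
      simp only [coe_gal_smul, coeffMap_coeff] at h2
      exact h2
    have hAC : IsAlgClosure ℚ Kbar := ⟨inferInstance, AlgebraicClosure.isAlgebraic ℚ⟩
    have hGal : IsGalois ℚ Kbar := IsAlgClosure.isGalois ℚ Kbar
    exact (InfiniteGalois.mem_range_algebraMap_iff_fixed (k := ℚ) (K := Kbar) _).mpr h1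
  obtain ⟨g, hg, hgx⟩ := Fermat.Agent.Red.BC.h58_exists_rat_of_coeff
    (modularFunctionFieldFull N) x.2 hc
  exact ⟨g, hg, hgx⟩

theorem isRat_iff_gal_fixed (x : FF N) : IsRat x ↔ ∀ σ : GQ, gal N σ • x = x :=
  ⟨fun h σ => GalI.gal_smul_of_isRat σ h, isRat_of_gal_fixed N x⟩

end RatScale

end Fermat.Agent.Red.GV.Soft
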