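import Fermat.Agent.Red.GV.Asm2

/-!
# P-RED / GV7 (part 3): the Gauss valuation on `F_K` and the two charts
-/

set_option autoImplicit false

open ModularCurve

noncomputable section

namespace Fermat.Agent.Red.GV.Asm

open Fermat.Agent.S28 Fermat.Agent.Red.GV

/-- The function field `F_K = K ⊗ F_N ⊆ K((q))`. -/
abbrev FK (K : Type) [Field K] [Algebra ℚ K] (N : ℕ) :
    IntermediateField K (LaurentSeries K) :=
  laurentBaseChange K (modularFunctionFieldFull N)

theorem inOTA_zero {K : Type} [Field K] (A : ValuationSubring K) {k : Type} [Field k]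
    (π : A →+* k) : InOTA A π 0 :=
  ⟨1, by simp, 0, by simp⟩

/-- Every nonzero element of `F_K` has a normalised representation with numerator in the
`A[j]`-span of the powers of the modular unit. -/
theorem exists_gauss_rep {K : Type} [Field K] [Algebra ℚ K] (A : ValuationSubring K)
    {k : Type} [Field k] (π : A →+* k) (N ℓ : ℕ) [NeZero N] [Fact ℓ.Prime]
    (hπ : IsResidueMap A π ℓ) (D : IgusaInput N ℓ)
    (x : LaurentSeries K) (hx : x ∈ FK K N) (hx0 : x ≠ 0) :
    ∃ (c : K) (Dn : Polynomial A) (P : Fin D.I → Polynomial A) (bb : LaurentSeries A),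
      c ≠ 0 ∧ Dn.map π ≠ 0 ∧ redA π bb ≠ 0 ∧
      embA A bb = ∑ i : Fin D.I, evalA A (jK K) (P i) * (UK K D.U) ^ (i : ℕ) ∧
      HahnSeries.C c * (evalA A (jK K) Dn * x) = embA A bb := by
  obtain ⟨UA, hUA, -, -, hnewton⟩ := exists_UA_newton A π N ℓ hπ D
  obtain ⟨c, Dn, P, hc, hDn, hP, hrep⟩ := exists_normalized_rep_K A π N ℓ D UA hUA x hx hx0
  exact ⟨c, Dn, P, combA A D.I UA P, hc, hDn, hnewton P hP, by rw [embA_combA, hUA], hrep⟩

/-- Multiplying a representation by a scalar of `A`. -/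
theorem rep_C_mul {K : Type} [Field K] [Algebra ℚ K] (A : ValuationSubring K) (I : ℕ)
    (U : LaurentSeries K) (P : Fin I → Polynomial A) (bb : LaurentSeries A)
    (hbb : embA A bb = ∑ i : Fin I, evalA A (jK K) (P i) * U ^ (i : ℕ)) (a : A) :
    embA A (HahnSeries.C a * bb) =
      ∑ i : Fin I, evalA A (jK K) (Polynomial.C a * P i) * U ^ (i : ℕ) := by
  rw [embA_C_mul, hbb, Finset.mul_sum]
  refine Finset.sum_congr rfl fun i _ => ?_
  rw [map_mul, evalA_C, mul_assoc]

/-- Elements of `OT ∩ F_K` have a denominator-free representation in the basis `U^i`. -/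
theorem exists_rep_of_inOTA {K : Type} [Field K] [Algebra ℚ K] (A : ValuationSubring K)
    {k : Type} [Field k] (π : A →+* k) (N ℓ : ℕ) [NeZero N] [Fact ℓ.Prime]
    (hπ : IsResidueMap A π ℓ) (D : IgusaInput N ℓ)
    (x : LaurentSeries K) (hx : x ∈ FK K N) (hOT : InOTA A π x) :
    ∃ (Dn : Polynomial A) (P : Fin D.I → Polynomial A), Dn.map π ≠ 0 ∧
      evalA A (jK K) Dn * x =
        ∑ i : Fin D.I, evalA A (jK K) (P i) * (UK K D.U) ^ (i : ℕ) := by
  by_cases hx0 : x = 0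
  · subst hx0
    exact ⟨1, fun _ => 0, by simp, by simp⟩
  obtain ⟨c, Dn, P, bb, hc, hDn, hbb, hbbP, hrep⟩ := exists_gauss_rep A π N ℓ hπ D x hx hx0
  have hcA : c⁻¹ ∈ A := (inOTA_iff_of_rep A π hπ.ker_eq x c hc Dn hDn bb hbb hrep).1 hOT
  refine ⟨Dn, fun i => Polynomial.C (⟨c⁻¹, hcA⟩ : A) * P i, hDn, ?_⟩
  rw [rep_of_inv_mem A x c hc hcA Dn bb hrep, rep_C_mul A D.I _ P bb hbbP]

/-- Integrality over `A[t]` (for `t` with `A`-integral expansion) implies Gauss-integrality. -/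
theorem inOTA_of_isIntegralElem {K : Type} [Field K] [Algebra ℚ K] (A : ValuationSubring K)
    {k : Type} [Field k] (π : A →+* k) (N ℓ : ℕ) [NeZero N] [Fact ℓ.Prime]
    (hπ : IsResidueMap A π ℓ) (D : IgusaInput N ℓ)
    (tA : LaurentSeries A) (x : LaurentSeries K) (hx : x ∈ FK K N)
    (hint : (evalA A (embA A tA)).IsIntegralElem x) : InOTA A π x := by
  by_cases hx0 : x = 0
  · subst hx0; exact inOTA_zero A π
  obtain ⟨c, Dn, P, bb, hc, hDn, hbb, -, hrep⟩ := exists_gauss_rep A π N ℓ hπ D x hx hx0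
  exact inOTA_of_isIntegralElem_of_rep A π hπ.ker_eq x c hc Dn hDn bb hbb hrep
    (Asm.isIntegralElem_of_comp (evalC tA) (embA A) x (by rwa [embA_comp_evalC]))

/-- **Valuation-ring property, precise form**: for `x ∈ F_K` nonzero with normalised
representation of scalar `c`, the inverse `x⁻¹` is Gauss-integral iff `c ∈ A`. -/
theorem inOTA_inv_iff_of_rep {K : Type} [Field K] [Algebra ℚ K] (A : ValuationSubring K)
    {k : Type} [Field k] (π : A →+* k) (N ℓ : ℕ) [NeZero N] [Fact ℓ.Prime]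
    (hπ : IsResidueMap A π ℓ) (D : IgusaInput N ℓ)
    (x : LaurentSeries K) (hx : x ∈ FK K N) (hx0 : x ≠ 0)
    (c : K) (hc0 : c ≠ 0) (Dn : Polynomial A) (hDn : Dn.map π ≠ 0)
    (bb : LaurentSeries A) (hbb : redA π bb ≠ 0)
    (hrep : HahnSeries.C c * (evalA A (jK K) Dn * x) = embA A bb) :
    InOTA A π x⁻¹ ↔ c ∈ A := by
  obtain ⟨c', Dn', -, bb', hc', hDn', hbb', -, hrep'⟩ :=
    exists_gauss_rep A π N ℓ hπ D x⁻¹ (inv_mem hx) (inv_ne_zero hx0)
  have hprod : HahnSeries.C (c * c') * evalA A (jK K) (Dn * Dn') = embA A (bb * bb') := by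
    rw [map_mul (embA A), ← hrep, ← hrep', map_mul, map_mul]
    have : x * x⁻¹ = 1 := mul_inv_cancel₀ hx0
    calc HahnSeries.C c * HahnSeries.C c' * (evalA A (jK K) Dn * evalA A (jK K) Dn')
        = HahnSeries.C c * HahnSeries.C c' * (evalA A (jK K) Dn * evalA A (jK K) Dn') *
            (x * x⁻¹) := by rw [this, mul_one]
      _ = _ := by ring
  have hDD : (Dn * Dn').map π ≠ 0 := by
    rw [Polynomial.map_mul]
    exact mul_ne_zero hDn hDn'
  have hbbbb : redA π (bb * bb') ≠ 0 := by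
    rw [map_mul]
    exact mul_ne_zero hbb hbb'
  obtain ⟨he, he'⟩ := unit_of_scalar_rep A π hπ.ker_eq (c * c') (mul_ne_zero hc0 hc')
    (Dn * Dn') hDD (bb * bb') hbbbb hprod
  rw [inOTA_iff_of_rep A π hπ.ker_eq x⁻¹ c' hc' Dn' hDn' bb' hbb' hrep']
  constructor
  · intro h
    have : c = c'⁻¹ * (c * c') := by
      field_simp
    rw [this]
    exact mul_mem h he
  · intro h
    have : c'⁻¹ = c * (c * c')⁻¹ := by
      field_simp
    rw [this]
    exact mul_mem h he'

/-- **Valuation-ring property**: for `x ∈ F_K` nonzero, `x` or `x⁻¹` is Gauss-integral. -/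
theorem inOTA_or_inv {K : Type} [Field K] [Algebra ℚ K] (A : ValuationSubring K)
    {k : Type} [Field k] (π : A →+* k) (N ℓ : ℕ) [NeZero N] [Fact ℓ.Prime]
    (hπ : IsResidueMap A π ℓ) (D : IgusaInput N ℓ)
    (x : LaurentSeries K) (hx : x ∈ FK K N) : InOTA A π x ∨ InOTA A π x⁻¹ := by
  by_cases hx0 : x = 0
  · subst hx0; exact Or.inl (inOTA_zero A π)
  obtain ⟨c, Dn, P, bb, hc, hDn, hbb, -, hrep⟩ := exists_gauss_rep A π N ℓ hπ D x hx hx0
  rw [inOTA_iff_of_rep A π hπ.ker_eq x c hc Dn hDn bb hbb hrep,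
    inOTA_inv_iff_of_rep A π N ℓ hπ D x hx hx0 c hc Dn hDn bb hbb hrep]
  exact (A.mem_or_inv_mem c).symm

/-- **The value group of the Gauss valuation is that of `A`**: every nonzero `x ∈ F_K`
becomes a Gauss unit after multiplication by a nonzero scalar. -/
theorem exists_scalar_unit {K : Type} [Field K] [Algebra ℚ K] (A : ValuationSubring K)
    {k : Type} [Field k] (π : A →+* k) (N ℓ : ℕ) [NeZero N] [Fact ℓ.Prime]
    (hπ : IsResidueMap A π ℓ) (D : IgusaInput N ℓ)
    (x : LaurentSeries K) (hx : x ∈ FK K N) (hx0 : x ≠ 0) :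
    ∃ c : K, c ≠ 0 ∧ InOTA A π (HahnSeries.C c * x) ∧ InOTA A π (HahnSeries.C c * x)⁻¹ := by
  obtain ⟨c, Dn, P, bb, hc, hDn, hbb, -, hrep⟩ := exists_gauss_rep A π N ℓ hπ D x hx hx0
  have hrep1 : HahnSeries.C (1 : K) * (evalA A (jK K) Dn * (HahnSeries.C c * x)) =
      embA A bb := by
    rw [map_one, one_mul, ← hrep]
    ring
  have hCx : HahnSeries.C c * x ∈ FK K N := by
    have h1 : (HahnSeries.C c : LaurentSeries K) = algebraMap K (LaurentSeries K) c := by
      rw [algebraMap_laurentSeries_eq_single]; rfl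
    rw [h1]
    exact mul_mem ((FK K N).algebraMap_mem c) hx
  refine ⟨c, hc, ?_, ?_⟩
  · rw [inOTA_iff_of_rep A π hπ.ker_eq _ 1 one_ne_zero Dn hDn bb hbb hrep1, inv_one]
    exact A.one_mem
  · rw [inOTA_inv_iff_of_rep A π N ℓ hπ D _ hCx (mul_ne_zero (C_ne_zero' hc) hx0) 1 one_ne_zero
      Dn hDn bb hbb hrep1]
    exact A.one_mem

end Fermat.Agent.Red.GV.Asm
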