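import Fermat.Agent.Red.GV.SoftScale
import Fermat.Agent.S37.Gate

/-!
# P-RED / GV (soft form): the `q`-expansion Gauss valuation at every level, `S37` vocabulary

`K = ℚ̄`, `A` a valuation subring of `ℚ̄` over a prime `ℓ`, `N` ANY level (`ℓ ∣ N` allowed),
`F = FF N ⊆ K((q))`.

* `softV A N : Subring (FF N)` — the functions `x = a / b` with `a, b ∈ A((q))`, `b ≢ 0`.
* `softR A N : softV A N →+* k((q))` — the reduction `a / b ↦ ā / b̄`.
* `exists_cst_mul_unit_soft` — every nonzero function is a constant times a unit of `softV`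
  (the value group is that of `A`).
* `softRing` — `softV` as a valuation subring; `softR_eq_zero_iff` — the kernel of `softR` is
  the set of non-units.
* `cst_mem_softV_iff`, `softR_cst` — constants.
* `congOne_iff_softR` — `S37.CongOne A w ↔ w ∈ softV ∧ softR w = 1`.
* `degen_mem_softV_iff`, `softR_degen` — compatibility with the inclusions `F_N ⊆ F_M`.
* `beta_mem_softV_iff`, `softR_beta` — compatibility with `q ↦ q ^ ℓ`.
No input from the theory of modular curves is used (only: `j(q ^ d)` has integral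
coefficients).
-/

set_option autoImplicit false
set_option linter.unusedSectionVars false

open ModularCurve AlgebraicCurve

noncomputable section

namespace Fermat.Agent.Red.GV.Soft

open Fermat.Agent.S05 Fermat.Agent.S37 Fermat.Agent.Red.GV

variable (A : ValuationSubring Kbar) (N : ℕ)

/-- The Gauss-integral functions of level `N` (soft form). -/
def softV : Subring (FF N) :=
  (softOT A (IsLocalRing.residue A)).comap (modularFunctionFieldBar N).val.toRingHom

theorem mem_softV_iff (x : FF N) :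
    x ∈ softV A N ↔ IsSoft A (IsLocalRing.residue A) (x : LaurentSeries Kbar) :=
  Iff.rfl

/-- The inclusion of `softV` into the ring of Gauss-integral fractions. -/
def softIncl : softV A N →+* softOT A (IsLocalRing.residue A) :=
  ((modularFunctionFieldBar N).val.toRingHom.comp (softV A N).subtype).codRestrict
    (softOT A (IsLocalRing.residue A)) (fun x => x.2)

@[simp]
theorem coe_softIncl (x : softV A N) :
    ((softIncl A N x : softOT A (IsLocalRing.residue A)) : LaurentSeries Kbar) =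
      ((x : FF N) : LaurentSeries Kbar) :=
  rfl

/-- The reduction map of the Gauss valuation (soft form). -/
def softR : softV A N →+* LaurentSeries (IsLocalRing.ResidueField A) :=
  (softRedT A (IsLocalRing.residue A)).comp (softIncl A N)

/-- Characterisation of the reduction: if `emb a = x · emb b`, `b ≢ 0`, then
`red x · b̄ = ā`. -/
theorem softR_mul_redA (x : softV A N) (a b : LaurentSeries A)
    (hb : redA (IsLocalRing.residue A) b ≠ 0)
    (h : embA A a = ((x : FF N) : LaurentSeries Kbar) * embA A b) :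
    softR A N x * redA (IsLocalRing.residue A) b = redA (IsLocalRing.residue A) a :=
  softRedT_mul_eq (softIncl A N x) a b hb h

theorem softR_of_embA (x : softV A N) (y : LaurentSeries A)
    (hy : embA A y = ((x : FF N) : LaurentSeries Kbar)) :
    softR A N x = redA (IsLocalRing.residue A) y :=
  softRedT_of_embA (softIncl A N x) y hy

theorem mem_softV_of_frac (x : FF N) (a b : LaurentSeries A)
    (hb : redA (IsLocalRing.residue A) b ≠ 0)
    (h : embA A a = (x : LaurentSeries Kbar) * embA A b) : x ∈ softV A N :=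
  (mem_softV_iff A N x).mpr ⟨a, b, hb, h⟩

theorem mem_softV_of_embA (x : FF N) (y : LaurentSeries A)
    (hy : embA A y = (x : LaurentSeries Kbar)) : x ∈ softV A N :=
  (mem_softV_iff A N x).mpr
    ⟨y, 1, by rw [map_one]; exact one_ne_zero, by rw [hy, map_one, mul_one]⟩

/-- **The kernel of the reduction is the set of non-units.** -/
theorem softR_eq_zero_iff (x : softV A N) :
    softR A N x = 0 ↔ (x : FF N) = 0 ∨ (x : FF N)⁻¹ ∉ softV A N := by
  have h := softRedT_eq_zero_iff (softIncl A N x)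
  rw [coe_softIncl] at h
  show softRedT A _ (softIncl A N x) = 0 ↔ _
  rw [h]
  constructor
  · rintro (h0 | h1)
    · left
      exact Subtype.ext h0
    · right
      exact h1
  · rintro (h0 | h1)
    · left
      rw [h0]
      rfl
    · right
      exact h1

theorem softR_ne_zero_iff (x : softV A N) :
    softR A N x ≠ 0 ↔ (x : FF N) ≠ 0 ∧ (x : FF N)⁻¹ ∈ softV A N := by
  rw [Ne, softR_eq_zero_iff, not_or, not_not]

/-! ### Constants -/

theorem soft_coe_cst (a : Kbar) : ((cst N a : FF N) : LaurentSeries Kbar) = HahnSeries.C a := by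
  show algebraMap Kbar (LaurentSeries Kbar) a = HahnSeries.C a
  rw [algebraMap_laurentSeries_eq_single]
  rfl

theorem residue_eq_zero_of_nonunit (a : A) (ha : (a : Kbar) ∈ A.nonunits) :
    IsLocalRing.residue A a = 0 := by
  rw [IsLocalRing.residue_eq_zero_iff]
  exact (ValuationSubring.coe_mem_nonunits_iff).mp ha

/-- Constants: `cst c` is Gauss-integral iff `c ∈ A`. -/
theorem cst_mem_softV_iff (c : Kbar) : cst N c ∈ softV A N ↔ c ∈ A := by
  rw [mem_softV_iff, soft_coe_cst]
  exact C_mem_softOT_iff A _ (residue_eq_zero_of_nonunit A) c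

theorem softR_cst (a : A) (h : cst N (a : Kbar) ∈ softV A N) :
    softR A N ⟨cst N (a : Kbar), h⟩ = HahnSeries.C (IsLocalRing.residue A a) := by
  have h1 : HahnSeries.C (a : Kbar) ∈ softOT A (IsLocalRing.residue A) :=
    C_mem_softOT A _ a
  have h2 := softRedT_C A (IsLocalRing.residue A) a h1
  rw [← h2]
  show softRedT A _ (softIncl A N ⟨cst N (a : Kbar), h⟩) = _
  congr 1
  exact Subtype.ext (soft_coe_cst N (a : Kbar))

/-- the reduction of a constant in `𝔪_A` vanishes. -/
theorem softR_cst_of_nonunit (c : Kbar) (hc : c ∈ A.nonunits) (h : cst N c ∈ softV A N) :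
    softR A N ⟨cst N c, h⟩ = 0 := by
  have hcA : c ∈ A := A.nonunits_subset hc
  have h1 := softR_cst A N ⟨c, hcA⟩ h
  rw [h1, residue_eq_zero_of_nonunit A ⟨c, hcA⟩ hc, map_zero]

/-! ### `CongOne` -/

/-- **`S37.CongOne` is `red = 1`** (at every level). -/
theorem congOne_iff_softR (w : FF N) :
    CongOne A w ↔ ∃ h : w ∈ softV A N, softR A N ⟨w, h⟩ = 1 := by
  constructor
  · rintro ⟨a, b, hb, hab, hred⟩
    have hw : w ∈ softV A N := ⟨a, b, hb, hab⟩
    refine ⟨hw, ?_⟩
    have h1 := softR_mul_redA A N ⟨w, hw⟩ a b hb hab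
    have hred' : redA (IsLocalRing.residue A) a = redA (IsLocalRing.residue A) b := hred
    rw [hred'] at h1
    exact mul_right_cancel₀ hb (h1.trans (one_mul _).symm)
  · rintro ⟨⟨a, b, hb, hab⟩, hred⟩
    refine ⟨a, b, hb, hab, ?_⟩
    have h1 := softR_mul_redA A N ⟨w, ⟨a, b, hb, hab⟩⟩ a b hb hab
    rw [hred, one_mul] at h1
    exact h1.symm

/-! ### Scaling: the value group -/

variable {ℓ : ℕ}

theorem FF_le_dfField (x : FF N) : (x : LaurentSeries Kbar) ∈ dfField (K := Kbar) :=
  laurentBaseChange_le_dfField (modularFunctionFieldFull N)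
    (coeffEmb_mem_dfField_of_mem_full N) x.2

/-- **Scaling, series form.**  Every nonzero function of level `N` is `c⁻¹ · a / b` with
`a, b ∈ A((q))` of nonzero reduction. -/
theorem exists_scale_FF (hℓ : ℓ.Prime) (hA : A.LiesOverPrime ℓ) (x : FF N) (hx : x ≠ 0) :
    ∃ (c : Kbar) (a b : LaurentSeries A), c ≠ 0 ∧ redA (IsLocalRing.residue A) a ≠ 0 ∧
      redA (IsLocalRing.residue A) b ≠ 0 ∧
      embA A a = ((cst N c * x : FF N) : LaurentSeries Kbar) * embA A b := by
  obtain ⟨ord, hord⟩ := @RO.exists_isOrd _ _ A _ RO.isAlgebraic_int_Qbar ℓ hℓ hA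
  have : Algebra.IsAlgebraic ℚ Kbar := AlgebraicClosure.isAlgebraic ℚ
  have hx0 : (x : LaurentSeries Kbar) ≠ 0 := fun h0 => hx (Subtype.ext h0)
  obtain ⟨c, a, b, hc, ha, hb, hab⟩ :=
    exists_scale (IsLocalRing.residue A) hord hℓ (FF_le_dfField N x) hx0
  refine ⟨c, a, b, hc, ha, hb, ?_⟩
  rw [hab]
  congr 1
  show _ = ((cst N c : FF N) : LaurentSeries Kbar) * (x : LaurentSeries Kbar)
  rw [soft_coe_cst]

/-- **Every nonzero function is a constant times a Gauss unit.** -/
theorem exists_cst_mul_unit_soft (hℓ : ℓ.Prime) (hA : A.LiesOverPrime ℓ) (x : FF N)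
    (hx : x ≠ 0) :
    ∃ c : Kbar, c ≠ 0 ∧ cst N c * x ∈ softV A N ∧ (cst N c * x)⁻¹ ∈ softV A N := by
  obtain ⟨c, a, b, hc, ha, hb, hab⟩ := exists_scale_FF A N hℓ hA x hx
  have hw : IsWit A (IsLocalRing.residue A) ((cst N c * x : FF N) : LaurentSeries Kbar) a b :=
    ⟨hb, hab⟩
  refine ⟨c, hc, ⟨a, b, hw⟩, ⟨b, a, ?_⟩⟩
  exact hw.inv ha

/-- **Valuation-ring property.** -/
theorem mem_or_inv_mem_softV (hℓ : ℓ.Prime) (hA : A.LiesOverPrime ℓ) (x : FF N) :
    x ∈ softV A N ∨ x⁻¹ ∈ softV A N := by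
  by_cases hx : x = 0
  · left
    rw [hx]
    exact zero_mem _
  obtain ⟨c, hc, hu, hui⟩ := exists_cst_mul_unit_soft A N hℓ hA x hx
  have hcst0 : cst N c ≠ 0 := by
    rw [Ne, map_eq_zero_iff _ (algebraMap Kbar (FF N)).injective]
    exact hc
  rcases A.mem_or_inv_mem c with hcA | hcA
  · -- `x⁻¹ = c * (c x)⁻¹`
    right
    have h1 : x⁻¹ = cst N c * (cst N c * x)⁻¹ := by
      field_simp
    rw [h1]
    exact mul_mem ((cst_mem_softV_iff A N c).mpr hcA) hui
  · left
    have h0 : cst N c⁻¹ = (cst N c)⁻¹ := map_inv₀ (algebraMap Kbar (FF N)) c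
    have h1 : x = cst N c⁻¹ * (cst N c * x) := by
      rw [h0]
      field_simp
    rw [h1]
    exact mul_mem ((cst_mem_softV_iff A N c⁻¹).mpr hcA) hu

/-- The Gauss valuation subring of `FF N` (soft form; any level). -/
def softRing (hℓ : ℓ.Prime) (hA : A.LiesOverPrime ℓ) : ValuationSubring (FF N) :=
  { softV A N with
    mem_or_inv_mem' := mem_or_inv_mem_softV A N hℓ hA }

@[simp]
theorem softRing_toSubring (hℓ : ℓ.Prime) (hA : A.LiesOverPrime ℓ) :
    (softRing A N hℓ hA).toSubring = softV A N :=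
  rfl

theorem mem_softRing_iff (hℓ : ℓ.Prime) (hA : A.LiesOverPrime ℓ) (x : FF N) :
    x ∈ softRing A N hℓ hA ↔ x ∈ softV A N :=
  Iff.rfl

/-- non-units of the valuation ring = kernel of the reduction. -/
theorem softR_eq_zero_iff_mem_nonunits (hℓ : ℓ.Prime) (hA : A.LiesOverPrime ℓ)
    (x : softV A N) :
    softR A N x = 0 ↔ (x : FF N) ∈ (softRing A N hℓ hA).nonunits := by
  rw [softR_eq_zero_iff, ValuationSubring.mem_nonunits_iff]
  constructor
  · rintro (h0 | h1)
    · rw [h0, map_zero]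
      exact zero_lt_one
    · have hx0 : (x : FF N) ≠ 0 := by
        intro h0
        apply h1
        rw [h0, inv_zero]
        exact zero_mem _
      have h2 : ¬ (softRing A N hℓ hA).valuation (x : FF N)⁻¹ ≤ 1 := fun hle =>
        h1 ((ValuationSubring.valuation_le_one_iff _ _).mp hle)
      rw [map_inv₀, not_le] at h2
      have hpos : 0 < (softRing A N hℓ hA).valuation (x : FF N) :=
        zero_lt_iff.mpr ((Valuation.ne_zero_iff _).mpr hx0)
      exact (one_lt_inv₀ hpos).mp h2
  · intro hlt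
    by_cases h0 : (x : FF N) = 0
    · exact Or.inl h0
    right
    intro hinv
    have h1 : (softRing A N hℓ hA).valuation (x : FF N)⁻¹ ≤ 1 :=
      (ValuationSubring.valuation_le_one_iff _ _).mpr hinv
    rw [map_inv₀] at h1
    have hpos : 0 < (softRing A N hℓ hA).valuation (x : FF N) :=
      zero_lt_iff.mpr ((Valuation.ne_zero_iff _).mpr h0)
    exact absurd ((inv_le_one₀ hpos).mp h1) (not_le.mpr hlt)

/-! ### Compatibility with the inclusions `F_N ⊆ F_M` -/

theorem degen_mem_softV_iff {N M : ℕ} [NeZero N] [NeZero M] (h : N ∣ M) (x : FF N) :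
    degen h x ∈ softV A M ↔ x ∈ softV A N := by
  rw [mem_softV_iff, mem_softV_iff, coe_degen]

theorem softR_degen {N M : ℕ} [NeZero N] [NeZero M] (h : N ∣ M) (x : softV A N)
    (hx : degen h (x : FF N) ∈ softV A M) :
    softR A M ⟨degen h (x : FF N), hx⟩ = softR A N x := by
  have e : softIncl A M ⟨degen h (x : FF N), hx⟩ = softIncl A N x :=
    Subtype.ext ((coe_softIncl A M _).trans ((coe_degen h (x : FF N)).trans
      (coe_softIncl A N x).symm))
  show softRedT A _ (softIncl A M ⟨degen h (x : FF N), hx⟩) = softRedT A _ (softIncl A N x)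
  rw [e]

theorem alpha_mem_softV_iff {N : ℕ} [NeZero N] (d : ℕ) [NeZero d] (x : FF N) :
    heckeAlphaBar Kbar N d x ∈ softV A (N * d) ↔ x ∈ softV A N := by
  rw [mem_softV_iff, mem_softV_iff, coe_heckeAlphaBar]

theorem softR_alpha {N : ℕ} [NeZero N] (d : ℕ) [NeZero d] (x : softV A N)
    (hx : heckeAlphaBar Kbar N d (x : FF N) ∈ softV A (N * d)) :
    softR A (N * d) ⟨heckeAlphaBar Kbar N d (x : FF N), hx⟩ = softR A N x := by
  have e : softIncl A (N * d) ⟨heckeAlphaBar Kbar N d (x : FF N), hx⟩ = softIncl A N x :=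
    Subtype.ext ((coe_softIncl A (N * d) _).trans ((coe_heckeAlphaBar N d (x : FF N)).trans
      (coe_softIncl A N x).symm))
  show softRedT A _ (softIncl A (N * d) ⟨heckeAlphaBar Kbar N d (x : FF N), hx⟩) =
    softRedT A _ (softIncl A N x)
  rw [e]

/-! ### Compatibility with `q ↦ q ^ d` -/

theorem beta_mem_softV {N : ℕ} [NeZero N] (d : ℕ) [NeZero d] (x : FF N)
    (hx : x ∈ softV A N) : heckeBetaBar Kbar N d x ∈ softV A (N * d) := by
  rw [mem_softV_iff, coe_heckeBetaBar]
  exact mem_softOT_qExpand A _ d hx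

theorem softR_beta {N : ℕ} [NeZero N] (d : ℕ) [NeZero d] (x : softV A N)
    (hx : heckeBetaBar Kbar N d (x : FF N) ∈ softV A (N * d)) :
    softR A (N * d) ⟨heckeBetaBar Kbar N d (x : FF N), hx⟩ =
      qExpand (IsLocalRing.ResidueField A) d (softR A N x) := by
  have h1 : qExpand Kbar d ((softIncl A N x : softOT A (IsLocalRing.residue A)) :
      LaurentSeries Kbar) ∈ softOT A (IsLocalRing.residue A) :=
    mem_softOT_qExpand A _ d (softIncl A N x).2
  have h2 := softRedT_qExpand A (IsLocalRing.residue A) d (softIncl A N x) h1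
  show softRedT A _ (softIncl A (N * d) ⟨heckeBetaBar Kbar N d (x : FF N), hx⟩) =
    qExpand _ d (softRedT A _ (softIncl A N x))
  rw [← h2]
  have e : softIncl A (N * d) ⟨heckeBetaBar Kbar N d (x : FF N), hx⟩ =
      ⟨qExpand Kbar d ((softIncl A N x : softOT A (IsLocalRing.residue A)) :
        LaurentSeries Kbar), h1⟩ :=
    Subtype.ext ((coe_softIncl A (N * d) _).trans (coe_heckeBetaBar N d (x : FF N)))
  rw [e]

/-- `β` detects Gauss-integrality. -/
theorem beta_mem_softV_iff (hℓ : ℓ.Prime) (hA : A.LiesOverPrime ℓ) {N : ℕ} [NeZero N]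
    (d : ℕ) [NeZero d] (x : FF N) :
    heckeBetaBar Kbar N d x ∈ softV A (N * d) ↔ x ∈ softV A N := by
  refine ⟨fun hβ => ?_, beta_mem_softV A d x⟩
  by_contra hx
  have hx0 : x ≠ 0 := by
    rintro rfl
    exact hx (zero_mem _)
  have hinv : x⁻¹ ∈ softV A N := (mem_or_inv_mem_softV A N hℓ hA x).resolve_left hx
  have hred : softR A N ⟨x⁻¹, hinv⟩ = 0 := by
    rw [softR_eq_zero_iff]
    right
    show (x⁻¹)⁻¹ ∉ softV A N
    rwa [inv_inv]
  have hβinv : heckeBetaBar Kbar N d x⁻¹ ∈ softV A (N * d) := beta_mem_softV A d _ hinv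
  have h1 := softR_beta A d ⟨x⁻¹, hinv⟩ hβinv
  rw [hred, map_zero] at h1
  have h2 : (⟨heckeBetaBar Kbar N d x, hβ⟩ : softV A (N * d)) *
      ⟨heckeBetaBar Kbar N d x⁻¹, hβinv⟩ = 1 := by
    apply Subtype.ext
    show heckeBetaBar Kbar N d x * heckeBetaBar Kbar N d x⁻¹ = 1
    rw [← map_mul, mul_inv_cancel₀ hx0, map_one]
  have h3 := congrArg (softR A (N * d)) h2
  rw [map_mul, map_one] at h3
  have h4 : softR A (N * d) ⟨heckeBetaBar Kbar N d (⟨x⁻¹, hinv⟩ : softV A N), hβinv⟩ = 0 := h1
  have h5 : softR A (N * d) ⟨heckeBetaBar Kbar N d x⁻¹, hβinv⟩ = 0 := h4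
  rw [h5, mul_zero] at h3
  exact zero_ne_one h3

end Fermat.Agent.Red.GV.Soft
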