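import Fermat.Agent.S28.RDefs
import Fermat.Prelude.Def_ModularCurve_X0ModL

/-!
# P-RED / GV: the Gauss valuation on the modular function field over a valuation ring

Shared definitions.  Setting: `K` a field with `[Algebra ℚ K]`, `A : ValuationSubring K`,
`π : A →+* k` a ring homomorphism to a field `k` (the residue map), `ℓ` a prime which is a
non-unit of `A`, `N` a level prime to `ℓ`.

* `embA A`      : `A((q)) → K((q))`, coefficientwise inclusion.
* `redA π`      : `A((q)) → k((q))`, coefficientwise reduction.
* `evalA A x`   : `A[Y] → K((q))`, `Y ↦ x` (constants through `A ⊆ K`).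
* `jK K`        : the `q`-expansion of `j` in `K((q))`.
* `InOTA A π x` : `x ∈ K((q))` is Gauss-integral: `Q(j)·x ∈ A((q))` for some `Q ∈ A[Y]`
                  with `Q mod 𝔪 ≠ 0`.
* `ResidueMapOf A π ℓ` : the standing hypotheses on `(A, π, ℓ)`.
-/

set_option autoImplicit false

open ModularCurve

noncomputable section

namespace Fermat.Agent.Red.GV

open Fermat.Agent.S28

/-- Coefficientwise inclusion `A((q)) → K((q))`. -/
def embA {K : Type} [Field K] (A : ValuationSubring K) : LaurentSeries A →+* LaurentSeries K :=
  coeffMap A.subtype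

/-- Coefficientwise reduction `A((q)) → k((q))`. -/
def redA {K : Type} [Field K] {A : ValuationSubring K} {k : Type} [Field k] (π : A →+* k) :
    LaurentSeries A →+* LaurentSeries k :=
  coeffMap π

/-- The `q`-expansion of `j` with coefficients in `K`. -/
def jK (K : Type) [Field K] : LaurentSeries K := jqModC K

/-- Evaluation `A[Y] → K((q))`, `Y ↦ x`, constants through `A ⊆ K`. -/
def evalA {K : Type} [Field K] (A : ValuationSubring K) (x : LaurentSeries K) :
    Polynomial A →+* LaurentSeries K :=
  Polynomial.eval₂RingHom ((HahnSeries.C : K →+* LaurentSeries K).comp A.subtype) x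

/-- `x` is Gauss-integral: some `Q(j)·x` with `Q ≢ 0 mod 𝔪` has coefficients in `A`. -/
def InOTA {K : Type} [Field K] (A : ValuationSubring K) {k : Type} [Field k] (π : A →+* k)
    (x : LaurentSeries K) : Prop :=
  ∃ Q : Polynomial A, Q.map π ≠ 0 ∧ ∃ y : LaurentSeries A, embA A y = evalA A (jK K) Q * x

/-- Standing hypotheses: `π` is the residue map of `A` (kernel = non-units) and `ℓ` is a
non-unit of `A`. -/
structure IsResidueMap {K : Type} [Field K] (A : ValuationSubring K) {k : Type} [Field k]
    (π : A →+* k) (ℓ : ℕ) : Prop where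
  ker_eq : ∀ a : A, π a = 0 ↔ (a : K) ∈ A.nonunits
  natCast_mem : (ℓ : K) ∈ A.nonunits

/-- The modular unit with coefficients in `K`. -/
def UK (K : Type) [Field K] [Algebra ℚ K] (U : LaurentSeries ℚ) : LaurentSeries K :=
  coeffEmb K U

end Fermat.Agent.Red.GV
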