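import Fermat.Agent.Red.GV.Defs
import Fermat.Agent.S28.RSeries

/-!
# P-RED / GV, task GV1: series lemmas over a valuation ring

`embA A : A((q)) → K((q))`, `redA π : A((q)) → k((q))`, the evaluation maps `evalC`, `evalA`,
and the formal `j`-series over `A`, `K`, `k`.

This is the analogue of `Fermat/Agent/S28/RSeries.lean` with `ℤ_(ℓ) ⊆ ℚ` replaced by
`A ⊆ K` and `resL` by `π`.
-/

set_option autoImplicit false

open ModularCurve

noncomputable section

namespace Fermat.Agent.Red.GV

open Fermat.Agent.S28

/-! ### `embA` -/

theorem h36_embA_coeff {K : Type} [Field K] (A : ValuationSubring K) (y : LaurentSeries A)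
    (n : ℤ) : (embA A y).coeff n = ((y.coeff n : A) : K) := rfl

theorem embA_injective {K : Type} [Field K] (A : ValuationSubring K) :
    Function.Injective (embA A) := by
  intro x y h
  ext n
  have h1 := congrArg (fun z => HahnSeries.coeff z n) h
  simp only [h36_embA_coeff] at h1
  exact_mod_cast h1

theorem exists_embA_eq_iff {K : Type} [Field K] (A : ValuationSubring K) (x : LaurentSeries K) :
    (∃ y, embA A y = x) ↔ ∀ n, x.coeff n ∈ A := by
  constructor
  · rintro ⟨y, rfl⟩ n
    rw [h36_embA_coeff]
    exact (y.coeff n).2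
  · intro h
    refine ⟨⟨fun n => ⟨x.coeff n, h n⟩, ?_⟩, ?_⟩
    · refine x.isPWO_support.mono ?_
      intro n hn
      simp only [Function.mem_support, ne_eq] at hn ⊢
      intro h0
      apply hn
      exact Subtype.ext h0
    · ext n
      rfl

/-! ### `redA` -/

theorem h36_redA_coeff {K : Type} [Field K] {A : ValuationSubring K} {k : Type} [Field k]
    (π : A →+* k) (y : LaurentSeries A) (n : ℤ) : (redA π y).coeff n = π (y.coeff n) := rfl

/-! ### the `j`-series -/

theorem embA_jqModC {K : Type} [Field K] (A : ValuationSubring K) :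
    embA A (jqModC A) = jK K := by
  rw [embA, coeffMap_jqModC, jK]

theorem redA_jqModC {K : Type} [Field K] {A : ValuationSubring K} {k : Type} [Field k]
    (π : A →+* k) : redA π (jqModC A) = jqModC k := by
  rw [redA, coeffMap_jqModC]

/-! ### evaluation maps -/

theorem embA_evalC {K : Type} [Field K] (A : ValuationSubring K) (y : LaurentSeries A)
    (Q : Polynomial A) : embA A (evalC y Q) = evalA A (embA A y) Q := by
  have hcomp : (embA A).comp (HahnSeries.C : A →+* LaurentSeries A) =
      (HahnSeries.C : K →+* LaurentSeries K).comp A.subtype := by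
    ext a : 1
    simp only [RingHom.comp_apply, HahnSeries.C_apply, embA, coeffMap_single]
  show embA A (Polynomial.eval₂ _ y Q) = Polynomial.eval₂ _ (embA A y) Q
  rw [Polynomial.hom_eval₂, hcomp]

theorem redA_evalC {K : Type} [Field K] {A : ValuationSubring K} {k : Type} [Field k]
    (π : A →+* k) (y : LaurentSeries A) (Q : Polynomial A) :
    redA π (evalC y Q) = evalC (redA π y) (Q.map π) := by
  have hcomp : (redA π).comp (HahnSeries.C : A →+* LaurentSeries A) =
      (HahnSeries.C : k →+* LaurentSeries k).comp π := by
    ext a : 1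
    simp only [RingHom.comp_apply, HahnSeries.C_apply, redA, coeffMap_single]
  show redA π (Polynomial.eval₂ _ y Q) = Polynomial.eval₂ _ (redA π y) (Q.map π)
  rw [Polynomial.hom_eval₂, hcomp, Polynomial.eval₂_map]

theorem evalA_eq_evalC_map {K : Type} [Field K] (A : ValuationSubring K) (x : LaurentSeries K)
    (Q : Polynomial A) : evalA A x Q = evalC x (Q.map A.subtype) := by
  show Polynomial.eval₂ _ x Q = Polynomial.eval₂ _ x (Q.map A.subtype)
  rw [Polynomial.eval₂_map]

/-- `j` is invertible in `R((q))` for every commutative ring `R`. -/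
theorem exists_jqModC_inv (R : Type) [CommRing R] :
    ∃ y : LaurentSeries R, y * jqModC R = 1 := by
  set u : PowerSeries R := jNum.map (Int.castRingHom R) with hu
  have hc : PowerSeries.constantCoeff u = 1 :=
    P2MW.S_ModularCurve_coeff_jqModC_neg_one.ModularCurve.CharLRows.constantCoeff_jNum_map _
  have hunit : IsUnit u := by
    rw [PowerSeries.isUnit_iff_constantCoeff, hc]
    exact isUnit_one
  obtain ⟨v, hv⟩ := hunit.exists_left_inv
  refine ⟨HahnSeries.single (1 : ℤ) 1 * HahnSeries.ofPowerSeries ℤ _ v, ?_⟩
  rw [jqModC, ← hu]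
  calc HahnSeries.single (1 : ℤ) (1 : R) * HahnSeries.ofPowerSeries ℤ _ v *
        (HahnSeries.single (-1 : ℤ) 1 * HahnSeries.ofPowerSeries ℤ _ u)
      = (HahnSeries.single (1 : ℤ) (1 : R) * HahnSeries.single (-1 : ℤ) 1) *
        (HahnSeries.ofPowerSeries ℤ _ v * HahnSeries.ofPowerSeries ℤ _ u) := by ring
    _ = 1 := by
        have h1 : HahnSeries.ofPowerSeries ℤ R v * HahnSeries.ofPowerSeries ℤ R u = 1 := by
          rw [← map_mul, hv, map_one]
        have h2 : HahnSeries.single (1 : ℤ) (1 : R) * HahnSeries.single (-1 : ℤ) 1 = 1 := by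
          rw [HahnSeries.single_mul_single]
          simp
        rw [h1, h2, mul_one]

/-! ### transcendence of `j` -/

theorem h36_transcendental_jK (K : Type) [Field K] : Transcendental K (jK K) :=
  P2MW.S_ModularCurve_coeff_jqModC_neg_one.ModularCurve.CharLRows.transcendental_jqModC K

theorem evalC_jK_injective (K : Type) [Field K] : Function.Injective (evalC (jK K)) := by
  have h := transcendental_iff_injective.mp (h36_transcendental_jK K)
  intro P Q hPQ
  apply h
  rw [← h8_evalC_eq_aeval, ← h8_evalC_eq_aeval]
  exact hPQ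

theorem evalC_jK_inv_injective (K : Type) [Field K] :
    Function.Injective (evalC (jK K)⁻¹) := by
  have h0 : Transcendental K (jK K)⁻¹ := by
    intro halg
    exact h36_transcendental_jK K (IsAlgebraic.inv_iff.mp halg)
  have h := transcendental_iff_injective.mp h0
  intro P Q hPQ
  apply h
  rw [← h8_evalC_eq_aeval, ← h8_evalC_eq_aeval]
  exact hPQ

/-! ### constants -/

/-- scalar multiplication by a constant of `A` commutes with `embA`. -/
theorem embA_C_mul {K : Type} [Field K] (A : ValuationSubring K) (a : A) (y : LaurentSeries A) :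
    embA A (HahnSeries.C a * y) = HahnSeries.C (a : K) * embA A y := by
  rw [map_mul]
  congr 1
  simp only [HahnSeries.C_apply, embA, coeffMap_single]
  rfl

theorem redA_C_mul {K : Type} [Field K] {A : ValuationSubring K} {k : Type} [Field k]
    (π : A →+* k) (a : A) (y : LaurentSeries A) :
    redA π (HahnSeries.C a * y) = HahnSeries.C (π a) * redA π y := by
  rw [map_mul]
  congr 1
  simp only [HahnSeries.C_apply, redA, coeffMap_single]

end Fermat.Agent.Red.GV
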