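import Fermat.Agent.Red.GV.Defs
import Fermat.Agent.S28.RAsm

/-!
# P-RED / GV2: comparison with `ℤ_(ℓ)`

* `exists_baseHom` : `ℤ_(ℓ) ⊆ A`, compatibly with the residue maps `ℤ_(ℓ) → 𝔽_ℓ` and `π : A → k`.
* `exists_UA` : the modular unit `U` has coefficients in `A`; its reduction is nonzero of
  order `≥ m (I - 1)`, and `U`, `U / j^m` satisfy monic relations over `A[j]`, `A[1/j]`.
-/

set_option autoImplicit false

open ModularCurve

noncomputable section

namespace Fermat.Agent.Red.GV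

open Fermat.Agent.S28

namespace Base

/-- the characteristic of the residue field is `ℓ` -/
theorem h80_natCast_eq_zero {K : Type} [Field K] (A : ValuationSubring K)
    {k : Type} [Field k] (π : A →+* k) (ℓ : ℕ) (hπ : IsResidueMap A π ℓ) : (ℓ : k) = 0 := by
  have h1 : π (ℓ : A) = 0 := (hπ.ker_eq (ℓ : A)).mpr (by
    have : (((ℓ : A) : A) : K) = (ℓ : K) := by simp
    rw [this]; exact hπ.natCast_mem)
  rwa [map_natCast] at h1

theorem h80_charP {K : Type} [Field K] (A : ValuationSubring K)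
    {k : Type} [Field k] (π : A →+* k) (ℓ : ℕ) [Fact ℓ.Prime] (hπ : IsResidueMap A π ℓ) :
    CharP k ℓ :=
  (CharP.charP_iff_prime_eq_zero (Fact.out : ℓ.Prime)).mpr (h80_natCast_eq_zero A π ℓ hπ)

/-- an element of `A` which is not killed by `π` is a unit of `A` -/
theorem h80_inv_mem {K : Type} [Field K] (A : ValuationSubring K)
    {k : Type} [Field k] (π : A →+* k) (ℓ : ℕ) (hπ : IsResidueMap A π ℓ) (a : A)
    (ha : π a ≠ 0) : ((a : K))⁻¹ ∈ A := by
  have h1 : (a : K) ∉ A.nonunits := fun h => ha ((hπ.ker_eq a).mpr h)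
  rw [ValuationSubring.mem_nonunits_iff, not_lt] at h1
  rw [← ValuationSubring.valuation_le_one_iff, map_inv₀]
  exact inv_le_one_of_one_le₀ h1

/-- the denominator of an `ℓ`-integral rational number is not killed by `π` -/
theorem h80_den_ne_zero {K : Type} [Field K] (A : ValuationSubring K)
    {k : Type} [Field k] (π : A →+* k) (ℓ : ℕ) [Fact ℓ.Prime] (hπ : IsResidueMap A π ℓ)
    (r : GaloisRep.ratLocalizedAt ℓ) : (((r : ℚ).den : ℕ) : k) ≠ 0 := by
  have hchar := h80_charP A π ℓ hπ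
  have h := den_ne_zero_of_mem ℓ r.2
  intro h0
  apply h
  have h1 : (ZMod.castHom (dvd_refl ℓ) k) (((r : ℚ).den : ℕ) : ZMod ℓ) = 0 := by
    rw [map_natCast]; exact h0
  exact (map_eq_zero_iff _ (RingHom.injective _)).mp h1

theorem h80_algebraMap_mem {K : Type} [Field K] [Algebra ℚ K] (A : ValuationSubring K)
    {k : Type} [Field k] (π : A →+* k) (ℓ : ℕ) [Fact ℓ.Prime] (hπ : IsResidueMap A π ℓ)
    (r : GaloisRep.ratLocalizedAt ℓ) : algebraMap ℚ K (r : ℚ) ∈ A := by
  have hden : ((((r : ℚ).den : ℕ) : A) : K)⁻¹ ∈ A :=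
    h80_inv_mem A π ℓ hπ (((r : ℚ).den : ℕ) : A) (by
      rw [map_natCast]; exact h80_den_ne_zero A π ℓ hπ r)
  have hnum : ((((r : ℚ).num : ℤ) : A) : K) ∈ A := (((r : ℚ).num : ℤ) : A).2
  have h1 : algebraMap ℚ K (r : ℚ) =
      ((((r : ℚ).num : ℤ) : A) : K) * ((((r : ℚ).den : ℕ) : A) : K)⁻¹ := by
    have h2 : ((r : ℚ)) = ((r : ℚ).num : ℚ) / ((r : ℚ).den : ℚ) := (Rat.num_div_den _).symm
    conv_lhs => rw [h2]
    rw [map_div₀, map_intCast, map_natCast, div_eq_mul_inv]
    simp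
  rw [h1]
  exact A.mul_mem _ _ hnum hden

/-- the inclusion `ℤ_(ℓ) → A` -/
def h80_iota {K : Type} [Field K] [Algebra ℚ K] (A : ValuationSubring K)
    {k : Type} [Field k] (π : A →+* k) (ℓ : ℕ) [Fact ℓ.Prime] (hπ : IsResidueMap A π ℓ) :
    GaloisRep.ratLocalizedAt ℓ →+* A where
  toFun r := ⟨algebraMap ℚ K (r : ℚ), h80_algebraMap_mem A π ℓ hπ r⟩
  map_one' := Subtype.ext (map_one (algebraMap ℚ K))
  map_zero' := Subtype.ext (map_zero (algebraMap ℚ K))
  map_add' x y := Subtype.ext (map_add (algebraMap ℚ K) (x : ℚ) (y : ℚ))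
  map_mul' x y := Subtype.ext (map_mul (algebraMap ℚ K) (x : ℚ) (y : ℚ))

theorem h80_coe_iota {K : Type} [Field K] [Algebra ℚ K] (A : ValuationSubring K)
    {k : Type} [Field k] (π : A →+* k) (ℓ : ℕ) [Fact ℓ.Prime] (hπ : IsResidueMap A π ℓ)
    (r : GaloisRep.ratLocalizedAt ℓ) :
    ((h80_iota A π ℓ hπ r : A) : K) = algebraMap ℚ K (r : ℚ) := rfl

/-- general transport of evaluation maps along a coefficient map -/
theorem h80_coeffMap_evalC {R S : Type} [CommRing R] [CommRing S] (f : R →+* S)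
    (y : LaurentSeries R) (Q : Polynomial R) :
    coeffMap f (evalC y Q) = evalC (coeffMap f y) (Q.map f) := by
  have hcomp : (coeffMap f).comp (HahnSeries.C : R →+* LaurentSeries R) =
      (HahnSeries.C : S →+* LaurentSeries S).comp f := by
    ext a : 1
    simp only [RingHom.comp_apply, HahnSeries.C_apply, coeffMap_single]
  show coeffMap f (Polynomial.eval₂ _ y Q) = Polynomial.eval₂ _ (coeffMap f y) (Q.map f)
  rw [Polynomial.hom_eval₂, hcomp, Polynomial.eval₂_map]

theorem h80_coeffMap_comp_evalC {R S : Type} [CommRing R] [CommRing S] (f : R →+* S)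
    (y : LaurentSeries R) :
    (coeffMap f).comp (evalC y) = (evalC (coeffMap f y)).comp (Polynomial.mapRingHom f) :=
  RingHom.ext fun Q => h80_coeffMap_evalC f y Q

/-- transfer of a monic relation along a coefficient map -/
theorem h80_transfer_monic {R S : Type} [CommRing R] [CommRing S] (f : R →+* S)
    (t v : LaurentSeries R)
    (h : ∃ P : Polynomial (Polynomial R), P.Monic ∧ P.eval₂ (evalC t) v = 0) :
    ∃ P : Polynomial (Polynomial S), P.Monic ∧
      P.eval₂ (evalC (coeffMap f t)) (coeffMap f v) = 0 := by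
  obtain ⟨P, hP, h0⟩ := h
  refine ⟨P.map (Polynomial.mapRingHom f), hP.map _, ?_⟩
  rw [Polynomial.eval₂_map, ← h80_coeffMap_comp_evalC, ← Polynomial.hom_eval₂, h0, map_zero]

/-- descent of a monic relation from `ℚ((q))` to `ℤ_(ℓ)((q))` -/
theorem h80_descend_monic (ℓ : ℕ) [Fact ℓ.Prime]
    (tR vR : LaurentSeries (GaloisRep.ratLocalizedAt ℓ))
    (h : ∃ P : Polynomial (Polynomial (GaloisRep.ratLocalizedAt ℓ)), P.Monic ∧
      P.eval₂ (evalAt (GaloisRep.ratLocalizedAt ℓ) (embR ℓ tR)) (embR ℓ vR) = 0) :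
    ∃ P : Polynomial (Polynomial (GaloisRep.ratLocalizedAt ℓ)), P.Monic ∧
      P.eval₂ (evalC tR) vR = 0 := by
  obtain ⟨P, hP, h0⟩ := h
  refine ⟨P, hP, ?_⟩
  rw [← Asm.embR_comp_evalC, ← Polynomial.hom_eval₂] at h0
  exact embR_injective ℓ (by rw [h0, map_zero])

end Base

open Base

/-- `ℤ_(ℓ) ⊆ A` compatibly with the residue maps. -/
theorem exists_baseHom {K : Type} [Field K] [Algebra ℚ K] (A : ValuationSubring K)
    {k : Type} [Field k] (π : A →+* k) (ℓ : ℕ) [Fact ℓ.Prime] (hπ : IsResidueMap A π ℓ) :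
    ∃ (ι : GaloisRep.ratLocalizedAt ℓ →+* A) (κ : ZMod ℓ →+* k),
      (∀ r, ((ι r : A) : K) = algebraMap ℚ K (r : ℚ)) ∧ (∀ r, π (ι r) = κ (resL ℓ r)) := by
  have hchar := h80_charP A π ℓ hπ
  refine ⟨h80_iota A π ℓ hπ, ZMod.castHom (dvd_refl ℓ) k, fun r => rfl, fun r => ?_⟩
  have hd := h80_den_ne_zero A π ℓ hπ r
  -- both sides times the denominator equal the numerator
  have hR : r * (((r : ℚ).den : ℕ) : GaloisRep.ratLocalizedAt ℓ) =
      (((r : ℚ).num : ℤ) : GaloisRep.ratLocalizedAt ℓ) := by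
    apply Subtype.ext
    push_cast
    exact Rat.mul_den_eq_num _
  have h1 : π (h80_iota A π ℓ hπ r) * (((r : ℚ).den : ℕ) : k) = (((r : ℚ).num : ℤ) : k) := by
    have := congrArg (fun x => π (h80_iota A π ℓ hπ x)) hR
    simpa only [map_mul, map_natCast, map_intCast] using this
  have h2 : (ZMod.castHom (dvd_refl ℓ) k) (resL ℓ r) * (((r : ℚ).den : ℕ) : k) =
      (((r : ℚ).num : ℤ) : k) := by
    have := congrArg (fun x => (ZMod.castHom (dvd_refl ℓ) k) (resL ℓ x)) hR
    simpa only [map_mul, map_natCast, map_intCast] using this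
  exact mul_right_cancel₀ hd (h1.trans h2.symm)

/-- The modular unit over `A`, with all the properties needed for the Newton lemma over `k`. -/
theorem exists_UA {K : Type} [Field K] [Algebra ℚ K] (A : ValuationSubring K)
    {k : Type} [Field k] (π : A →+* k) (N ℓ : ℕ) [Fact ℓ.Prime] (hπ : IsResidueMap A π ℓ)
    (D : IgusaInput N ℓ) :
    ∃ UA : LaurentSeries A, embA A UA = UK K D.U ∧
      redA π UA ≠ 0 ∧ ((D.m : ℤ) * ((D.I : ℤ) - 1) ≤ (redA π UA).order) ∧
      (∃ P : Polynomial (Polynomial A), P.Monic ∧ P.eval₂ (evalC (jqModC A)) UA = 0) ∧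
      (∀ jinv : LaurentSeries A, jinv * jqModC A = 1 →
        ∃ P : Polynomial (Polynomial A), P.Monic ∧
          P.eval₂ (evalC jinv) (UA * jinv ^ D.m) = 0) := by
  obtain ⟨ι, κ, hι, hκ⟩ := exists_baseHom A π ℓ hπ
  obtain ⟨UR, hUR⟩ := (exists_embR_eq_iff ℓ D.U).mpr D.U_coeff
  have hURc : ∀ n : ℤ, ((UR.coeff n : GaloisRep.ratLocalizedAt ℓ) : ℚ) = D.U.coeff n := by
    intro n
    rw [← hUR]; rfl
  refine ⟨coeffMap ι UR, ?_, ?_, ?_, ?_, ?_⟩
  · -- `embA`
    ext n
    show (((ι (UR.coeff n) : A)) : K) = algebraMap ℚ K (D.U.coeff n)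
    rw [hι, hURc]
  · -- nonvanishing
    intro h0
    have h1 := congrArg (fun z => HahnSeries.coeff z ((D.m : ℤ) * ((D.I : ℤ) - 1))) h0
    have h2 : UR.coeff ((D.m : ℤ) * ((D.I : ℤ) - 1)) = 1 := by
      apply Subtype.ext
      rw [hURc, D.U_monic.coeff_self]; rfl
    simp only [redA, coeffMap_coeff, HahnSeries.coeff_zero, h2, map_one] at h1
    exact one_ne_zero h1
  · -- order
    have hne : redA π (coeffMap ι UR) ≠ 0 := by
      intro h0
      have h1 := congrArg (fun z => HahnSeries.coeff z ((D.m : ℤ) * ((D.I : ℤ) - 1))) h0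
      have h2 : UR.coeff ((D.m : ℤ) * ((D.I : ℤ) - 1)) = 1 := by
        apply Subtype.ext
        rw [hURc, D.U_monic.coeff_self]; rfl
      simp only [redA, coeffMap_coeff, HahnSeries.coeff_zero, h2, map_one] at h1
      exact one_ne_zero h1
    refine Asm.le_order_of_forall_lt _ _ hne fun n hn => ?_
    have h2 : UR.coeff n = 0 := by
      apply Subtype.ext
      rw [hURc, D.U_monic.coeff_of_lt hn]; rfl
    simp only [redA, coeffMap_coeff, h2, map_zero]
  · -- monic relation over `A[j]`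
    have h1 := h80_descend_monic ℓ (jqModC _) UR (by
      rw [embR_jqModC, hUR]; exact D.U_int)
    have h2 := h80_transfer_monic ι _ _ h1
    rwa [coeffMap_jqModC] at h2
  · -- monic relation over `A[1/j]`
    intro jinv hjinv
    obtain ⟨jR, hjR⟩ := exists_jqInvR ℓ
    have hjR' : embR ℓ jR = jq⁻¹ := by
      have h := congrArg (embR ℓ) hjR
      rw [map_mul, map_one, embR_jqModC] at h
      exact eq_inv_of_mul_eq_one_left h
    have h1 := h80_descend_monic ℓ jR (UR * jR ^ D.m) (by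
      rw [hjR', map_mul, map_pow, hjR', hUR]; exact D.Uj_int)
    have h2 := h80_transfer_monic ι _ _ h1
    have h3 : coeffMap ι jR = jinv := by
      have h4 : coeffMap ι jR * jqModC A = 1 := by
        have := congrArg (coeffMap ι) hjR
        rwa [map_mul, map_one, coeffMap_jqModC] at this
      calc coeffMap ι jR = coeffMap ι jR * (jinv * jqModC A) := by rw [hjinv, mul_one]
        _ = (coeffMap ι jR * jqModC A) * jinv := by ring
        _ = jinv := by rw [h4, one_mul]
    rwa [map_mul, map_pow, h3] at h2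

end Fermat.Agent.Red.GV
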