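import Fermat.Agent.Red.GV.Defs
import Fermat.Agent.S28.IntLemma

/-!
# P-RED / GV, task GV6: the integrality lemma over `A[Y]`, `A` a valuation ring

Let `A` be a valuation ring with residue map `π : A → k`, `f : A[Y] → L` an injective ring
homomorphism into a field, `c ∈ A` nonzero and `Q ∈ A[Y]` with `Q mod 𝔪 ≠ 0`.  If both `c x` and
`Q x` are integral over `A[Y]`, then so is `x`.

This is the content (Gauss lemma) version of `Fermat.Agent.S28.isIntegralElem_of_prime_mul_of_mul`.
-/

set_option autoImplicit false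

open Polynomial

namespace Fermat.Agent.Red.GV

/-- In a valuation ring, among finitely many elements one divides all the others. -/
theorem h3_exists_dvd_all {A : Type} [CommRing A] [IsDomain A] [ValuationRing A]
    (S : Finset ℕ) (hS : S.Nonempty) (g : ℕ → A) :
    ∃ i₀ ∈ S, ∀ i ∈ S, g i₀ ∣ g i := by
  induction hS using Finset.Nonempty.cons_induction with
  | singleton a =>
    exact ⟨a, Finset.mem_singleton_self a, fun i hi => by
      rw [Finset.mem_singleton] at hi; rw [hi]⟩
  | cons a s ha hs ih =>
    obtain ⟨i₀, hi₀, hdiv⟩ := ih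
    rcases ValuationRing.dvd_total (g a) (g i₀) with h | h
    · refine ⟨a, Finset.mem_cons_self a s, fun i hi => ?_⟩
      rcases Finset.mem_cons.mp hi with rfl | hi'
      · exact dvd_rfl
      · exact h.trans (hdiv i hi')
    · refine ⟨i₀, Finset.mem_cons.mpr (Or.inr hi₀), fun i hi => ?_⟩
      rcases Finset.mem_cons.mp hi with rfl | hi'
      · exact h
      · exact hdiv i hi'

/-- The content argument: if `Q ^ e * a = c ^ e * b` in `A[Y]` with `Q mod 𝔪 ≠ 0`, then
`c ^ e` divides `a`. -/
theorem h3_C_pow_dvd_of_mul_eq {K : Type} [Field K] (A : ValuationSubring K)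
    {k : Type} [Field k] (π : A →+* k)
    (hker : ∀ a : A, π a = 0 ↔ (a : K) ∈ A.nonunits)
    (c : A) (Q : Polynomial A) (hQ : Q.map π ≠ 0) (e : ℕ) (a b : Polynomial A)
    (hab : Q ^ e * a = C c ^ e * b) : C c ^ e ∣ a := by
  by_cases ha : a = 0
  · rw [ha]; exact dvd_zero _
  have hsupp : a.support.Nonempty := by
    rwa [Finset.nonempty_iff_ne_empty, Ne, Polynomial.support_eq_empty]
  obtain ⟨i₀, hi₀, hdiv⟩ := h3_exists_dvd_all a.support hsupp (fun i => a.coeff i)
  set d : A := a.coeff i₀ with hd
  have hd0 : d ≠ 0 := Polynomial.mem_support_iff.mp hi₀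
  have hdall : ∀ i, d ∣ a.coeff i := by
    intro i
    by_cases hi : i ∈ a.support
    · exact hdiv i hi
    · rw [Polynomial.notMem_support_iff.mp hi]; exact dvd_zero _
  obtain ⟨a', ha'⟩ : C d ∣ a := (C_dvd_iff_dvd_coeff d a).mpr hdall
  have hcoeff : a'.coeff i₀ = 1 := by
    have h1 : a.coeff i₀ = d * a'.coeff i₀ := by rw [ha', coeff_C_mul]
    rw [← hd] at h1
    have h2 : d * a'.coeff i₀ = d * 1 := by rw [mul_one]; exact h1.symm
    exact mul_left_cancel₀ hd0 h2
  have hCpow : C c ^ e = C (c ^ e) := (C_pow).symm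
  -- it suffices that `c ^ e ∣ d`
  suffices hcd : c ^ e ∣ d by
    rw [hCpow, ha']
    exact Dvd.dvd.mul_right (_root_.map_dvd C hcd) a'
  rcases ValuationRing.dvd_total (c ^ e) d with h | ⟨m, hm⟩
  · exact h
  · by_cases hmu : IsUnit m
    · obtain ⟨u, rfl⟩ := hmu
      exact ⟨((u⁻¹ : Aˣ) : A), by rw [hm, mul_assoc, Units.mul_inv, mul_one]⟩
    · exfalso
      have hmk : π m = 0 := by
        rw [hker, ValuationSubring.coe_mem_nonunits_iff, IsLocalRing.mem_maximalIdeal]
        exact hmu
      -- cancel `C d`
      have hCd : C d ≠ 0 := by rwa [Ne, C_eq_zero]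
      have h1 : C d * (Q ^ e * a') = C d * (C m * b) := by
        calc C d * (Q ^ e * a') = Q ^ e * (C d * a') := by ring
          _ = Q ^ e * a := by rw [ha']
          _ = C c ^ e * b := hab
          _ = C (d * m) * b := by rw [hCpow, hm]
          _ = C d * (C m * b) := by rw [C_mul]; ring
      have h2 : Q ^ e * a' = C m * b := mul_left_cancel₀ hCd h1
      have h3 : (Q.map π) ^ e * a'.map π = 0 := by
        have := congrArg (Polynomial.map π) h2
        rw [Polynomial.map_mul, Polynomial.map_pow, Polynomial.map_mul, Polynomial.map_C, hmk,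
          C_0, zero_mul] at this
        exact this
      have h4 : a'.map π ≠ 0 := by
        intro h0
        have := congrArg (fun p => p.coeff i₀) h0
        simp only [coeff_map, hcoeff, map_one, coeff_zero] at this
        exact one_ne_zero this
      rcases mul_eq_zero.mp h3 with h5 | h5
      · exact pow_ne_zero e hQ h5
      · exact h4 h5

section Main

attribute [local instance] FractionRing.liftAlgebra

/-- **GV6.** Integrality lemma over `A[Y]`, `A` a valuation ring. -/
theorem isIntegralElem_of_mul_of_mul_val {K L : Type} [Field K] [Field L]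
    (A : ValuationSubring K) {k : Type} [Field k] (π : A →+* k)
    (hker : ∀ a : A, π a = 0 ↔ (a : K) ∈ A.nonunits)
    (f : Polynomial A →+* L) (hf : Function.Injective f) (c : A) (hc : c ≠ 0)
    (Q : Polynomial A) (hQ : Q.map π ≠ 0) (x : L)
    (h1 : f.IsIntegralElem (f (Polynomial.C c) * x)) (h2 : f.IsIntegralElem (f Q * x)) :
    f.IsIntegralElem x := by
  let B := Polynomial A
  let _ : Algebra B L := f.toAlgebra
  have : FaithfulSMul B L := (faithfulSMul_iff_algebraMap_injective B L).mpr hf
  have hp0 : (C c : B) ≠ 0 := by rwa [Ne, C_eq_zero]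
  have hQ0 : Q ≠ 0 := fun h => hQ (by rw [h, Polynomial.map_zero])
  have h1' : IsIntegral B (algebraMap B L (C c) * x) := h1
  have h2' : IsIntegral B (algebraMap B L Q * x) := h2
  have hinjK : Function.Injective (algebraMap B (FractionRing B)) :=
    IsFractionRing.injective B (FractionRing B)
  have hpK : algebraMap B (FractionRing B) (C c) ≠ 0 := fun h0 =>
    hp0 (hinjK (by rw [h0, map_zero]))
  -- `x` is integral over the fraction field
  have hxK : IsIntegral (FractionRing B) x := by
    have hpx : IsIntegral (FractionRing B) (algebraMap B L (C c) * x) := h1'.tower_top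
    have hpL : algebraMap B L (C c) ≠ 0 := by
      intro h0
      exact hp0 (hf (by rw [map_zero]; exact h0))
    have hinv : IsIntegral (FractionRing B)
        (algebraMap (FractionRing B) L (algebraMap B (FractionRing B) (C c))⁻¹) :=
      isIntegral_algebraMap
    have := hinv.mul hpx
    rwa [map_inv₀, ← IsScalarTower.algebraMap_apply, ← mul_assoc, inv_mul_cancel₀ hpL,
      one_mul] at this
  set μ := minpoly (FractionRing B) x with hμ
  -- every coefficient of `μ` lies in `B`
  have hcoeff : ∀ i, μ.coeff i ∈ Set.range (algebraMap B (FractionRing B)) := by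
    intro i
    obtain ⟨a, ha⟩ := Fermat.Agent.S28.IntLemma.coeff_mul_pow_mem (C c) hp0 x hxK h1' i
    obtain ⟨b, hb⟩ := Fermat.Agent.S28.IntLemma.coeff_mul_pow_mem Q hQ0 x hxK h2' i
    set e := μ.natDegree - i with he
    have hab : Q ^ e * a = C c ^ e * b := by
      apply hinjK
      rw [map_mul, map_mul, map_pow, map_pow, ← ha, ← hb]
      ring
    obtain ⟨g, hg⟩ := h3_C_pow_dvd_of_mul_eq A π hker c Q hQ e a b hab
    refine ⟨g, ?_⟩
    have hpe : algebraMap B (FractionRing B) (C c) ^ e ≠ 0 := pow_ne_zero _ hpK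
    apply mul_right_cancel₀ hpe
    rw [ha, hg, map_mul, map_pow, mul_comm]
  have hlifts : μ ∈ lifts (algebraMap B (FractionRing B)) :=
    (lifts_iff_coeff_lifts μ).mpr hcoeff
  obtain ⟨q, hqmap, -, hqmonic⟩ :=
    lifts_and_natDegree_eq_and_monic hlifts (minpoly.monic hxK)
  refine ⟨q, hqmonic, ?_⟩
  have h0 : aeval x μ = 0 := minpoly.aeval _ x
  rw [← hqmap, aeval_map_algebraMap] at h0
  exact h0

end Main

end Fermat.Agent.Red.GV
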