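import Fermat.Agent.Red.GV.Defs

/-!
# P-RED / GV3: normalisation of a finite family of polynomials over a valuation ring

Given a nonzero finite family `P i ∈ K[Y]` and a valuation subring `A` of `K`, there is a
constant `c ≠ 0` (a coefficient of maximal valuation) with `P i = c · P' i`, `P' i ∈ A[Y]`,
and some `P' i` has a coefficient equal to `1`, hence does not reduce to `0`.
-/

set_option autoImplicit false

open Polynomial

noncomputable section

namespace Fermat.Agent.Red.GV

/-- A nonzero finite family has a nonzero coefficient of maximal valuation. -/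
theorem h76_exists_max_coeff {K : Type} [Field K] (A : ValuationSubring K)
    {n : ℕ} (P : Fin n → Polynomial K) (hP : P ≠ 0) :
    ∃ (i₀ : Fin n) (m₀ : ℕ), (P i₀).coeff m₀ ≠ 0 ∧
      ∀ (i : Fin n) (m : ℕ), A.valuation ((P i).coeff m) ≤ A.valuation ((P i₀).coeff m₀) := by
  classical
  -- the finite set of indices of nonzero coefficients
  let S : Finset (Fin n × ℕ) :=
    (Finset.univ ×ˢ (Finset.univ.biUnion (fun i => (P i).support))).filter
      (fun x => (P x.1).coeff x.2 ≠ 0)
  have hS : ∀ x : Fin n × ℕ, x ∈ S ↔ (P x.1).coeff x.2 ≠ 0 := by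
    rintro ⟨i, m⟩
    simp only [S, Finset.mem_filter, Finset.mem_product, Finset.mem_univ, true_and,
      Finset.mem_biUnion, Polynomial.mem_support_iff]
    constructor
    · rintro ⟨-, h⟩
      exact h
    · intro h
      exact ⟨⟨i, h⟩, h⟩
  have hne : S.Nonempty := by
    by_contra hS0
    rw [Finset.not_nonempty_iff_eq_empty] at hS0
    apply hP
    funext i
    ext m
    by_contra hc
    have : (i, m) ∈ S := (hS (i, m)).mpr (by simpa using hc)
    rw [hS0] at this
    exact absurd this (Finset.notMem_empty _)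
  obtain ⟨⟨i₀, m₀⟩, hmem, hmax⟩ :=
    Finset.exists_max_image S (fun x => A.valuation ((P x.1).coeff x.2)) hne
  refine ⟨i₀, m₀, (hS _).mp hmem, fun i m => ?_⟩
  by_cases h0 : (P i).coeff m = 0
  · rw [h0, map_zero]
    exact zero_le
  · exact hmax (i, m) ((hS (i, m)).mpr h0)

theorem exists_normalize_family_val {K : Type} [Field K] (A : ValuationSubring K)
    {k : Type} [Field k] (π : A →+* k)
    {n : ℕ} (P : Fin n → Polynomial K) (hP : P ≠ 0) :
    ∃ (c : K) (P' : Fin n → Polynomial A), c ≠ 0 ∧ (∃ i, (P' i).map π ≠ 0) ∧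
      ∀ i, P i = Polynomial.C c * (P' i).map A.subtype := by
  obtain ⟨i₀, m₀, hc0, hmax⟩ := h76_exists_max_coeff A P hP
  set c : K := (P i₀).coeff m₀ with hc
  have hvc : A.valuation c ≠ 0 := (A.valuation.ne_zero_iff).mpr hc0
  have hmemA : ∀ (i : Fin n) (m : ℕ), c⁻¹ * (P i).coeff m ∈ A := by
    intro i m
    rw [← A.valuation_le_one_iff, map_mul, map_inv₀]
    rw [inv_mul_le_iff₀ (zero_lt_iff.mpr hvc), mul_one]
    exact hmax i m
  have hlift : ∀ i, Polynomial.C c⁻¹ * P i ∈ Polynomial.lifts A.subtype := by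
    intro i
    rw [Polynomial.lifts_iff_coeff_lifts]
    intro m
    rw [Polynomial.coeff_C_mul]
    exact ⟨⟨_, hmemA i m⟩, rfl⟩
  choose P' hP' using fun i => (Polynomial.mem_lifts _).mp (hlift i)
  refine ⟨c, P', hc0, ⟨i₀, ?_⟩, fun i => ?_⟩
  · intro h0
    have h1 : (P' i₀).coeff m₀ = 1 := by
      apply Subtype.ext
      have h2 := congrArg (fun q => q.coeff m₀) (hP' i₀)
      simp only [Polynomial.coeff_map, Polynomial.coeff_C_mul] at h2
      rw [← hc, inv_mul_cancel₀ hc0] at h2
      simpa using h2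
    have h3 := congrArg (fun q => q.coeff m₀) h0
    simp only [Polynomial.coeff_map, h1, map_one, Polynomial.coeff_zero] at h3
    exact one_ne_zero h3
  · rw [hP' i, ← mul_assoc, ← Polynomial.C_mul, mul_inv_cancel₀ hc0, Polynomial.C_1, one_mul]

end Fermat.Agent.Red.GV
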