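import Fermat.Agent.Red.GV.Defs
import Fermat.Agent.S28.RSeries

/-!
# P-RED / GV, task GV4: the Gauss-localised ring `OT` over a valuation ring and its reduction

For a valuation subring `A` of a field `K` and a ring homomorphism `π : A →+* k` to a field,

`OT = {x ∈ K((q)) | ∃ Q ∈ A[Y], π(Q) ≠ 0, Q(j)·x ∈ A((q))}`  and
`redT x = π(Q(j)·x) / π(Q)(j)`.

Main statement: `exists_redTA`.
-/

set_option autoImplicit false

open ModularCurve

noncomputable section

namespace Fermat.Agent.Red.GV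

open Fermat.Agent.S28

variable {K : Type} [Field K] (A : ValuationSubring K) {k : Type} [Field k] (π : A →+* k)

/-! ### Series facts used by the construction -/

theorem OTA_embA_injective : Function.Injective (embA A) := by
  intro x y h
  ext n
  have h1 := congrArg (fun z => HahnSeries.coeff z n) h
  exact h1

theorem OTA_embA_jqModC : embA A (jqModC A) = jK K := by
  rw [embA, coeffMap_jqModC, jK]

theorem OTA_redA_jqModC : redA π (jqModC A) = jqModC k := by
  rw [redA, coeffMap_jqModC]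

theorem OTA_embA_evalC (y : LaurentSeries A) (Q : Polynomial A) :
    embA A (evalC y Q) = evalA A (embA A y) Q := by
  have hcomp : (embA A).comp (HahnSeries.C : A →+* LaurentSeries A) =
      (HahnSeries.C : K →+* LaurentSeries K).comp A.subtype := by
    ext a : 1
    simp only [RingHom.comp_apply, HahnSeries.C_apply, embA, coeffMap_single]
  show embA A (Polynomial.eval₂ _ y Q) = Polynomial.eval₂ _ (embA A y) Q
  rw [Polynomial.hom_eval₂, hcomp]

theorem OTA_redA_evalC (y : LaurentSeries A) (Q : Polynomial A) :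
    redA π (evalC y Q) = evalC (redA π y) (Q.map π) := by
  have hcomp : (redA π).comp (HahnSeries.C : A →+* LaurentSeries A) =
      (HahnSeries.C : k →+* LaurentSeries k).comp π := by
    ext a : 1
    simp only [RingHom.comp_apply, HahnSeries.C_apply, redA, coeffMap_single]
  show redA π (Polynomial.eval₂ _ y Q) = Polynomial.eval₂ _ (redA π y) (Q.map π)
  rw [Polynomial.hom_eval₂, hcomp, Polynomial.eval₂_map]

/-! ### Witnesses -/

/-- `Q(j)` as a series with coefficients in `A`. -/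
def OTA_jA (Q : Polynomial A) : LaurentSeries A :=
  evalC (jqModC A) Q

theorem OTA_embA_jA (Q : Polynomial A) : embA A (OTA_jA A Q) = evalA A (jK K) Q := by
  rw [OTA_jA, OTA_embA_evalC, OTA_embA_jqModC]

theorem OTA_redA_jA (Q : Polynomial A) :
    redA π (OTA_jA A Q) = evalC (jqModC k) (Q.map π) := by
  rw [OTA_jA, OTA_redA_evalC, OTA_redA_jqModC]

/-- The data witnessing `InOTA`. -/
def OTA_IsWit (x : LaurentSeries K) (Q : Polynomial A) (y : LaurentSeries A) : Prop :=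
  Q.map π ≠ 0 ∧ embA A y = evalA A (jK K) Q * x

theorem OTA_inOTA_iff (x : LaurentSeries K) : InOTA A π x ↔ ∃ Q y, OTA_IsWit A π x Q y :=
  ⟨fun ⟨Q, hQ, y, hy⟩ => ⟨Q, y, hQ, hy⟩, fun ⟨Q, y, hQ, hy⟩ => ⟨Q, hQ, y, hy⟩⟩

theorem OTA_isWit_zero : OTA_IsWit A π 0 1 0 := by
  refine ⟨?_, ?_⟩
  · rw [Polynomial.map_one]; exact one_ne_zero
  · rw [map_zero, mul_zero]

theorem OTA_isWit_of_embA (y : LaurentSeries A) : OTA_IsWit A π (embA A y) 1 y := by
  refine ⟨?_, ?_⟩
  · rw [Polynomial.map_one]; exact one_ne_zero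
  · rw [map_one, one_mul]

theorem OTA_isWit_one : OTA_IsWit A π 1 1 1 := by
  have := OTA_isWit_of_embA A π 1
  rwa [map_one] at this

theorem OTA_map_mul_ne_zero {Q₁ Q₂ : Polynomial A} (h₁ : Q₁.map π ≠ 0)
    (h₂ : Q₂.map π ≠ 0) : (Q₁ * Q₂).map π ≠ 0 := by
  rw [Polynomial.map_mul]
  exact mul_ne_zero h₁ h₂

variable {A π}

theorem OTA_isWit_add {x₁ x₂ : LaurentSeries K} {Q₁ Q₂ : Polynomial A} {y₁ y₂ : LaurentSeries A}
    (h₁ : OTA_IsWit A π x₁ Q₁ y₁) (h₂ : OTA_IsWit A π x₂ Q₂ y₂) :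
    OTA_IsWit A π (x₁ + x₂) (Q₁ * Q₂) (OTA_jA A Q₂ * y₁ + OTA_jA A Q₁ * y₂) := by
  refine ⟨OTA_map_mul_ne_zero A π h₁.1 h₂.1, ?_⟩
  rw [map_add, map_mul, map_mul, OTA_embA_jA, OTA_embA_jA, h₁.2, h₂.2, map_mul]
  ring

theorem OTA_isWit_mul {x₁ x₂ : LaurentSeries K} {Q₁ Q₂ : Polynomial A} {y₁ y₂ : LaurentSeries A}
    (h₁ : OTA_IsWit A π x₁ Q₁ y₁) (h₂ : OTA_IsWit A π x₂ Q₂ y₂) :
    OTA_IsWit A π (x₁ * x₂) (Q₁ * Q₂) (y₁ * y₂) := by
  refine ⟨OTA_map_mul_ne_zero A π h₁.1 h₂.1, ?_⟩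
  rw [map_mul, h₁.2, h₂.2, map_mul]
  ring

theorem OTA_isWit_neg {x : LaurentSeries K} {Q : Polynomial A} {y : LaurentSeries A}
    (h : OTA_IsWit A π x Q y) : OTA_IsWit A π (-x) Q (-y) := by
  refine ⟨h.1, ?_⟩
  rw [map_neg, h.2, mul_neg]

variable (A π)

/-! ### The ring `OT` -/

/-- The Gauss-localised ring `OT` over `A`. -/
def OTA : Subring (LaurentSeries K) where
  carrier := {x | InOTA A π x}
  zero_mem' := (OTA_inOTA_iff A π 0).mpr ⟨_, _, OTA_isWit_zero A π⟩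
  one_mem' := (OTA_inOTA_iff A π 1).mpr ⟨_, _, OTA_isWit_one A π⟩
  add_mem' := fun {a b} ha hb => by
    obtain ⟨Q₁, y₁, h₁⟩ := (OTA_inOTA_iff A π a).mp ha
    obtain ⟨Q₂, y₂, h₂⟩ := (OTA_inOTA_iff A π b).mp hb
    exact (OTA_inOTA_iff A π _).mpr ⟨_, _, OTA_isWit_add h₁ h₂⟩
  mul_mem' := fun {a b} ha hb => by
    obtain ⟨Q₁, y₁, h₁⟩ := (OTA_inOTA_iff A π a).mp ha
    obtain ⟨Q₂, y₂, h₂⟩ := (OTA_inOTA_iff A π b).mp hb
    exact (OTA_inOTA_iff A π _).mpr ⟨_, _, OTA_isWit_mul h₁ h₂⟩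
  neg_mem' := fun {a} ha => by
    obtain ⟨Q, y, h⟩ := (OTA_inOTA_iff A π a).mp ha
    exact (OTA_inOTA_iff A π _).mpr ⟨_, _, OTA_isWit_neg h⟩

theorem OTA_mem (x : LaurentSeries K) : x ∈ OTA A π ↔ InOTA A π x := Iff.rfl

/-! ### The reduction map -/

/-- The value of the reduction attached to a witness. -/
def OTA_redVal (Q : Polynomial A) (y : LaurentSeries A) : LaurentSeries k :=
  redA π y / evalC (jqModC k) (Q.map π)

variable {A π}

/-- Independence of the witness. -/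
theorem OTA_redVal_eq {x : LaurentSeries K} {Q₁ Q₂ : Polynomial A} {y₁ y₂ : LaurentSeries A}
    (h₁ : OTA_IsWit A π x Q₁ y₁) (h₂ : OTA_IsWit A π x Q₂ y₂) :
    OTA_redVal A π Q₁ y₁ = OTA_redVal A π Q₂ y₂ := by
  have hne₁ := evalC_jqModC_ne_zero k _ h₁.1
  have hne₂ := evalC_jqModC_ne_zero k _ h₂.1
  rw [OTA_redVal, OTA_redVal, div_eq_div_iff hne₁ hne₂, ← OTA_redA_jA, ← OTA_redA_jA,
    ← map_mul, ← map_mul]
  congr 1
  apply OTA_embA_injective A
  rw [map_mul, map_mul, OTA_embA_jA, OTA_embA_jA, h₁.2, h₂.2]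
  ring

variable (A π)

/-- The reduction map on `OT`, as a function. -/
def OTA_redTFun (x : OTA A π) : LaurentSeries k :=
  OTA_redVal A π ((OTA_inOTA_iff A π (x : LaurentSeries K)).mp x.2).choose
    ((OTA_inOTA_iff A π (x : LaurentSeries K)).mp x.2).choose_spec.choose

variable {A π}

theorem OTA_redTFun_eq (x : OTA A π) {Q : Polynomial A} {y : LaurentSeries A}
    (h : OTA_IsWit A π (x : LaurentSeries K) Q y) : OTA_redTFun A π x = OTA_redVal A π Q y :=
  OTA_redVal_eq ((OTA_inOTA_iff A π (x : LaurentSeries K)).mp x.2).choose_spec.choose_spec h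

variable (A π)

theorem OTA_redVal_one_left (y : LaurentSeries A) : OTA_redVal A π 1 y = redA π y := by
  rw [OTA_redVal, Polynomial.map_one, map_one, div_one]

/-- The reduction map on `OT`. -/
def OTA_redT : OTA A π →+* LaurentSeries k where
  toFun := OTA_redTFun A π
  map_one' := by
    rw [OTA_redTFun_eq 1 (Q := 1) (y := 1) (OTA_isWit_one A π), OTA_redVal_one_left, map_one]
  map_zero' := by
    rw [OTA_redTFun_eq 0 (Q := 1) (y := 0) (OTA_isWit_zero A π), OTA_redVal_one_left, map_zero]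
  map_mul' := fun a b => by
    obtain ⟨Q₁, y₁, h₁⟩ := (OTA_inOTA_iff A π (a : LaurentSeries K)).mp a.2
    obtain ⟨Q₂, y₂, h₂⟩ := (OTA_inOTA_iff A π (b : LaurentSeries K)).mp b.2
    rw [OTA_redTFun_eq a h₁, OTA_redTFun_eq b h₂,
      OTA_redTFun_eq (a * b) (Q := Q₁ * Q₂) (y := y₁ * y₂) (OTA_isWit_mul h₁ h₂)]
    rw [OTA_redVal, OTA_redVal, OTA_redVal, Polynomial.map_mul, map_mul, map_mul,
      mul_div_mul_comm]
  map_add' := fun a b => by
    obtain ⟨Q₁, y₁, h₁⟩ := (OTA_inOTA_iff A π (a : LaurentSeries K)).mp a.2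
    obtain ⟨Q₂, y₂, h₂⟩ := (OTA_inOTA_iff A π (b : LaurentSeries K)).mp b.2
    have hne₁ := evalC_jqModC_ne_zero k _ h₁.1
    have hne₂ := evalC_jqModC_ne_zero k _ h₂.1
    rw [OTA_redTFun_eq a h₁, OTA_redTFun_eq b h₂,
      OTA_redTFun_eq (a + b) (Q := Q₁ * Q₂) (y := OTA_jA A Q₂ * y₁ + OTA_jA A Q₁ * y₂)
        (OTA_isWit_add h₁ h₂)]
    rw [OTA_redVal, OTA_redVal, OTA_redVal, Polynomial.map_mul, map_mul, map_add, map_mul,
      map_mul, OTA_redA_jA, OTA_redA_jA]
    field_simp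

variable {A π}

theorem OTA_redT_apply (x : OTA A π) {Q : Polynomial A} {y : LaurentSeries A}
    (h : OTA_IsWit A π (x : LaurentSeries K) Q y) : OTA_redT A π x = OTA_redVal A π Q y :=
  OTA_redTFun_eq x h

theorem OTA_redT_mul_eq (x : OTA A π) (Q : Polynomial A) (y : LaurentSeries A)
    (hQ : Q.map π ≠ 0) (hy : embA A y = evalA A (jK K) Q * (x : LaurentSeries K)) :
    OTA_redT A π x * evalC (jqModC k) (Q.map π) = redA π y := by
  have hne := evalC_jqModC_ne_zero k _ hQ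
  rw [OTA_redT_apply x (Q := Q) (y := y) ⟨hQ, hy⟩, OTA_redVal, div_mul_cancel₀ _ hne]

theorem OTA_redT_of_embA (x : OTA A π) (y : LaurentSeries A)
    (h : embA A y = (x : LaurentSeries K)) : OTA_redT A π x = redA π y := by
  have hw : OTA_IsWit A π (x : LaurentSeries K) 1 y := by
    have := OTA_isWit_of_embA A π y
    rwa [h] at this
  rw [OTA_redT_apply x hw, OTA_redVal_one_left]

variable (A π)

/-- **GV4**: the ring `OT` over `A` and its reduction homomorphism. -/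
theorem exists_redTA {K : Type} [Field K] (A : ValuationSubring K)
    {k : Type} [Field k] (π : A →+* k) :
    ∃ (OT : Subring (LaurentSeries K)) (redT : OT →+* LaurentSeries k),
      (∀ x, x ∈ OT ↔ InOTA A π x) ∧
      (∀ (x : OT) (Q : Polynomial A) (y : LaurentSeries A), Q.map π ≠ 0 →
        embA A y = evalA A (jK K) Q * (x : LaurentSeries K) →
        redT x * evalC (jqModC k) (Q.map π) = redA π y) :=
  ⟨OTA A π, OTA_redT A π, OTA_mem A π, fun x Q y hQ hy => OTA_redT_mul_eq x Q y hQ hy⟩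

end Fermat.Agent.Red.GV

end
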