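import Fermat.Agent.Red.GV.Defs
import Fermat.Agent.S28.RAsm

/-!
# P-RED / GV5: representation over `K`

`exists_rep_K`: every element `x` of `F_K = laurentBaseChange K (modularFunctionFieldFull N)`
is a `K(j)`-linear combination of `1, U, …, U^(I-1)`:
`D₀(j) · x = Σ_i P_i(j) · U^i` with `D₀ ≠ 0`.

Proof: over `ℚ` this is the landed `Fermat.Agent.S28.rep_of_deg_le`; the set of elements of
`K((q))` admitting such a representation contains the generators of `F_K` and is the simple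
algebraic extension `K(j)(U)` of `K(j)`, hence a field.
-/

set_option autoImplicit false

open ModularCurve Polynomial IntermediateField

noncomputable section

namespace Fermat.Agent.Red.GV

open Fermat.Agent.S28

namespace Rep

section Generic

variable {K F : Type*} [Field K] [Field F] [Algebra K F]

theorem h71_aeval_mem (t : F) (b : K[X]) : aeval t b ∈ K⟮t⟯ :=
  IntermediateField.algebra_adjoin_le_adjoin K _ (Polynomial.aeval_mem_adjoin_singleton K t)

/-- every element of `K⟮t⟯` is a quotient `a(t)/b(t)` with `b ≠ 0`. -/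
theorem h71_exists_div (t : F) {c : F} (hc : c ∈ K⟮t⟯) :
    ∃ a b : K[X], b ≠ 0 ∧ aeval t b * c = aeval t a := by
  obtain ⟨r, s, hrs⟩ := (mem_adjoin_simple_iff K c).mp hc
  by_cases hs : aeval t s = 0
  · refine ⟨0, 1, one_ne_zero, ?_⟩
    rw [hrs, hs]
    simp
  · refine ⟨r, s, fun h => hs (by rw [h, map_zero]), ?_⟩
    rw [hrs]
    field_simp

/-- clearing denominators of a finite family in `K⟮t⟯`. -/
theorem h71_exists_common_denom (t : F) {n : ℕ} (c : Fin n → F) (hc : ∀ i, c i ∈ K⟮t⟯) :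
    ∃ (B : K[X]) (a : Fin n → K[X]), B ≠ 0 ∧ ∀ i, aeval t B * c i = aeval t (a i) := by
  classical
  choose a b hb hab using fun i => h71_exists_div t (hc i)
  refine ⟨∏ j, b j, fun i => (∏ j ∈ Finset.univ.erase i, b j) * a i,
    Finset.prod_ne_zero_iff.mpr (fun j _ => hb j), fun i => ?_⟩
  rw [← Finset.mul_prod_erase Finset.univ b (Finset.mem_univ i), map_mul, map_mul, ← hab i]
  ring

/-- The representation lemma: if the generators `S` and `u ^ I` are `K(t)`-combinations of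
`1, u, …, u^(I-1)`, then so is every element of the field generated by `S` over `K`. -/
theorem h71_rep_of_gen (t u : F) (I : ℕ) (hI : 0 < I)
    (htr : ∀ b : K[X], aeval t b = 0 → b = 0)
    (S : Set F)
    (hS : ∀ y ∈ S, ∃ (D₀ : K[X]) (P : Fin I → K[X]), D₀ ≠ 0 ∧
      aeval t D₀ * y = ∑ i : Fin I, aeval t (P i) * u ^ (i : ℕ))
    (hu : ∃ (D₀ : K[X]) (P : Fin I → K[X]), D₀ ≠ 0 ∧
      aeval t D₀ * u ^ I = ∑ i : Fin I, aeval t (P i) * u ^ (i : ℕ))
    (x : F) (hx : x ∈ IntermediateField.adjoin K S) :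
    ∃ (D₀ : K[X]) (P : Fin I → K[X]), D₀ ≠ 0 ∧
      aeval t D₀ * x = ∑ i : Fin I, aeval t (P i) * u ^ (i : ℕ) := by
  classical
  have hq : ∀ a b : K[X], aeval t a / aeval t b ∈ K⟮t⟯ := fun a b =>
    div_mem (h71_aeval_mem t a) (h71_aeval_mem t b)
  -- the monic relation for `u`
  obtain ⟨D₁, P₁, hD₁, hrel⟩ := hu
  have hD₁' : aeval t D₁ ≠ 0 := fun h => hD₁ (htr _ h)
  set c : Fin I → K⟮t⟯ := fun i => ⟨aeval t (P₁ i) / aeval t D₁, hq _ _⟩ with hc
  set p : (K⟮t⟯)[X] := X ^ I - ∑ i : Fin I, C (c i) * X ^ (i : ℕ) with hp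
  have hpm : p.Monic := monic_X_pow_sub (degree_sum_fin_lt c)
  have hcval : ∀ i, algebraMap K⟮t⟯ F (c i) = aeval t (P₁ i) / aeval t D₁ := fun i => rfl
  have hpu : aeval u p = 0 := by
    simp only [hp, map_sub, map_pow, aeval_X, map_sum, map_mul, aeval_C, hcval]
    rw [sub_eq_zero]
    have h1 : u ^ I = (aeval t D₁)⁻¹ * (aeval t D₁ * u ^ I) := by
      field_simp
    rw [h1, hrel, Finset.mul_sum]
    refine Finset.sum_congr rfl fun i _ => ?_
    field_simp
  have hint : IsIntegral K⟮t⟯ u := ⟨p, hpm, hpu⟩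
  -- generators lie in `K(t)(u)`
  have hmemE : ∀ e : F, e ∈ K⟮t⟯ → e ∈ (K⟮t⟯)⟮u⟯ := fun e he =>
    ((K⟮t⟯)⟮u⟯).algebraMap_mem (⟨e, he⟩ : K⟮t⟯)
  have huM : u ∈ (K⟮t⟯)⟮u⟯ := mem_adjoin_simple_self _ u
  have hSM : ∀ y ∈ S, y ∈ (K⟮t⟯)⟮u⟯ := by
    intro y hy
    obtain ⟨D₀, P, hD₀, hrep⟩ := hS y hy
    have hD₀' : aeval t D₀ ≠ 0 := fun h => hD₀ (htr _ h)
    have h1 : y = (aeval t D₀)⁻¹ * ∑ i : Fin I, aeval t (P i) * u ^ (i : ℕ) := by
      rw [← hrep]
      field_simp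
    rw [h1]
    refine mul_mem (inv_mem (hmemE _ (h71_aeval_mem t D₀))) (sum_mem fun i _ => ?_)
    exact mul_mem (hmemE _ (h71_aeval_mem t (P i))) (pow_mem huM _)
  have hxM : x ∈ (K⟮t⟯)⟮u⟯ := by
    have h1 : IntermediateField.adjoin K S ≤ ((K⟮t⟯)⟮u⟯).restrictScalars K :=
      adjoin_le_iff.mpr hSM
    exact h1 hx
  have hxA : x ∈ Algebra.adjoin K⟮t⟯ {u} := by
    rw [← adjoin_simple_toSubalgebra_of_isAlgebraic hint.isAlgebraic]
    exact hxM
  rw [Algebra.adjoin_singleton_eq_range_aeval] at hxA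
  obtain ⟨g, hg⟩ := hxA
  set g' := g %ₘ p with hg'def
  have hg' : aeval u g' = x := by
    rw [hg'def, Polynomial.aeval_modByMonic_eq_self_of_root hpu]
    exact hg
  have hpdeg : p.degree ≤ I := by
    rw [hp]
    refine (degree_sub_le _ _).trans (max_le (degree_X_pow_le I) ?_)
    exact (degree_sum_fin_lt c).le
  have hg'deg : g'.degree < I := lt_of_lt_of_le (degree_modByMonic_lt g hpm) hpdeg
  have hsum : x = ∑ i : Fin I, algebraMap K⟮t⟯ F (g'.coeff i) * u ^ (i : ℕ) := by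
    rw [← hg', aeval_eq_sum_range' (n := I), Finset.sum_range]
    · simp [Algebra.smul_def]
    · by_cases hg0 : g' = 0
      · rw [hg0, natDegree_zero]
        exact hI
      · exact (natDegree_lt_iff_degree_lt hg0).mpr hg'deg
  obtain ⟨B, a, hB, ha⟩ := h71_exists_common_denom t
    (fun i : Fin I => algebraMap K⟮t⟯ F (g'.coeff i)) (fun i => (g'.coeff i).2)
  refine ⟨B, a, hB, ?_⟩
  rw [hsum, Finset.mul_sum]
  refine Finset.sum_congr rfl fun i _ => ?_
  rw [← mul_assoc, ha i]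

end Generic

/-- `coeffEmb` commutes with polynomial evaluation. -/
theorem h71_coeffEmb_evalAtQ (K : Type) [Field K] [Algebra ℚ K] (y : LaurentSeries ℚ)
    (Q : Polynomial ℚ) :
    coeffEmb K (evalAtQ y Q) = evalC (coeffEmb K y) (Q.map (algebraMap ℚ K)) := by
  show coeffEmb K (Polynomial.eval₂ _ y Q) = Polynomial.eval₂ _ _ (Q.map _)
  rw [Polynomial.hom_eval₂, Polynomial.eval₂_map]
  congr 1
  exact Subsingleton.elim _ _

theorem h71_coeffEmb_jq (K : Type) [Field K] [Algebra ℚ K] : coeffEmb K jq = jK K :=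
  coeffMap_jqModC (algebraMap ℚ K)

/-- Step (a): the image under `coeffEmb K` of an element of the field generated by `U` and the
`j(q^d)` over `ℚ` is a `K(j)`-combination of `1, U, …, U^(I-1)`. -/
theorem h71_rep_coeffEmb {K : Type} [Field K] [Algebra ℚ K] (N ℓ : ℕ) [NeZero N]
    [Fact ℓ.Prime] (D : IgusaInput N ℓ) (y : LaurentSeries ℚ)
    (hy : y ∈ IntermediateField.adjoin ℚ (insert D.U (divisorExpansions N))) :
    ∃ (D₀ : Polynomial K) (P : Fin D.I → Polynomial K), D₀ ≠ 0 ∧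
      aeval (jK K) D₀ * coeffEmb K y =
        ∑ i : Fin D.I, aeval (jK K) (P i) * (UK K D.U) ^ (i : ℕ) := by
  obtain ⟨D₀, P₀, hD₀, hrep⟩ := rep_of_deg_le (insert D.U (divisorExpansions N))
    ((Asm.finite_divisorExpansions N).insert _) jq D.U D.I D.I_pos
    (Set.mem_insert_of_mem _ (Asm.jq_mem_divisorExpansions N)) (Set.mem_insert _ _)
    Asm.evalAtQ_jq_injective' (Asm.indep_char0 N ℓ D) D.deg_le y hy
  refine ⟨D₀.map (algebraMap ℚ K), fun i => (P₀ i).map (algebraMap ℚ K), ?_, ?_⟩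
  · exact (Polynomial.map_ne_zero_iff (algebraMap ℚ K).injective).mpr hD₀
  · have h := congrArg (coeffEmb K) hrep
    rw [map_mul, map_sum, h71_coeffEmb_evalAtQ, h71_coeffEmb_jq] at h
    simp only [← h8_evalC_eq_aeval]
    rw [h]
    refine Finset.sum_congr rfl fun i _ => ?_
    rw [map_mul, map_pow, h71_coeffEmb_evalAtQ, h71_coeffEmb_jq]
    rfl

end Rep

/-- **GV5**: every `x ∈ F_K = laurentBaseChange K (modularFunctionFieldFull N)` is a
`K(j)`-combination of `1, U, …, U^(I-1)`. -/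
theorem exists_rep_K {K : Type} [Field K] [Algebra ℚ K] (N ℓ : ℕ) [NeZero N] [Fact ℓ.Prime]
    (D : IgusaInput N ℓ) (x : LaurentSeries K)
    (hx : x ∈ laurentBaseChange K (modularFunctionFieldFull N)) :
    ∃ (D₀ : Polynomial K) (P : Fin D.I → Polynomial K), D₀ ≠ 0 ∧
      evalC (jK K) D₀ * x = ∑ i : Fin D.I, evalC (jK K) (P i) * (UK K D.U) ^ (i : ℕ) := by
  have htr : ∀ b : K[X], aeval (jK K) b = 0 → b = 0 := by
    intro b hb
    by_contra hne
    exact evalC_jqModC_ne_zero K b hne (by rw [h8_evalC_eq_aeval]; exact hb)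
  have hu := Rep.h71_rep_coeffEmb (K := K) N ℓ D (D.U ^ D.I)
    (pow_mem (subset_adjoin ℚ _ (Set.mem_insert _ _)) _)
  rw [map_pow] at hu
  have key := Rep.h71_rep_of_gen (jK K) (UK K D.U) D.I D.I_pos htr
    (⇑(coeffEmb K) '' (modularFunctionFieldFull N : Set (LaurentSeries ℚ))) ?_ hu x hx
  · simpa only [h8_evalC_eq_aeval] using key
  · rintro _ ⟨y, hy, rfl⟩
    exact Rep.h71_rep_coeffEmb N ℓ D y (Asm.full_le_adjoin_insert N D.U hy)

end Fermat.Agent.Red.GV
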