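import Fermat.Agent.Red.GV.Series
import Fermat.Agent.Red.GV.Base
import Fermat.Agent.Red.GV.Normalize
import Fermat.Agent.Red.GV.OT
import Fermat.Agent.Red.GV.Rep
import Fermat.Agent.Red.GV.IntVal
import Fermat.Agent.S28.RAsm

/-!
# P-RED / GV7 (part 1): combinations over `A`, Newton nonvanishing over the residue field,
and the normalised representation of elements of `F_K`.
-/

set_option autoImplicit false

open ModularCurve

noncomputable section

namespace Fermat.Agent.Red.GV.Asm

open Fermat.Agent.S28 Fermat.Agent.Red.GV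

/-! ### Valuation-subring basics -/

theorem inv_mem_nonunits_of_notMem {K : Type} [Field K] (A : ValuationSubring K) (c : K)
    (h : c ∉ A) : c⁻¹ ∈ A.nonunits := by
  rw [ValuationSubring.mem_nonunits_iff, map_inv₀]
  have h1 : ¬ A.valuation c ≤ 1 := fun hle => h ((A.valuation_le_one_iff c).1 hle)
  rw [not_le] at h1
  exact inv_lt_one_of_one_lt₀ h1

theorem mem_of_mem_nonunits {K : Type} [Field K] (A : ValuationSubring K) (c : K)
    (h : c ∈ A.nonunits) : c ∈ A := ValuationSubring.nonunits_subset h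

theorem notMem_nonunits_of_inv_mem {K : Type} [Field K] (A : ValuationSubring K) (c : K)
    (hc' : c⁻¹ ∈ A) (hc0 : c ≠ 0) : c ∉ A.nonunits := by
  intro h
  rw [ValuationSubring.mem_nonunits_iff] at h
  have h2 : A.valuation c⁻¹ ≤ 1 := (A.valuation_le_one_iff _).2 hc'
  have h3 : A.valuation c * A.valuation c⁻¹ = 1 := by
    rw [← map_mul, mul_inv_cancel₀ hc0, map_one]
  have h4 : A.valuation c * A.valuation c⁻¹ < 1 := by
    calc A.valuation c * A.valuation c⁻¹ ≤ A.valuation c * 1 := by gcongr
      _ = A.valuation c := mul_one _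
      _ < 1 := h
  exact absurd h3 (ne_of_lt h4)

theorem inv_mem_of_notMem_nonunits {K : Type} [Field K] (A : ValuationSubring K) (c : K)
    (h : c ∉ A.nonunits) : c⁻¹ ∈ A := by
  rw [ValuationSubring.mem_nonunits_iff, not_lt] at h
  rw [← A.valuation_le_one_iff, map_inv₀]
  exact inv_le_one_of_one_le₀ h

/-! ### Basic composites -/

theorem embA_comp_evalC {K : Type} [Field K] (A : ValuationSubring K) (y : LaurentSeries A) :
    (embA A).comp (evalC y) = evalA A (embA A y) :=
  RingHom.ext fun Q => embA_evalC A y Q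

theorem redA_comp_evalC {K : Type} [Field K] {A : ValuationSubring K} {k : Type} [Field k]
    (π : A →+* k) (y : LaurentSeries A) :
    (redA π).comp (evalC y) = (evalC (redA π y)).comp (Polynomial.mapRingHom π) :=
  RingHom.ext fun Q => redA_evalC π y Q

theorem embA_C {K : Type} [Field K] (A : ValuationSubring K) (a : A) :
    embA A (HahnSeries.C a) = HahnSeries.C (a : K) := by
  have h := embA_C_mul A a 1
  rwa [mul_one, map_one, mul_one] at h

theorem redA_C {K : Type} [Field K] {A : ValuationSubring K} {k : Type} [Field k]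
    (π : A →+* k) (a : A) : redA π (HahnSeries.C a) = HahnSeries.C (π a) := by
  have h := redA_C_mul π a 1
  rwa [mul_one, map_one, mul_one] at h

theorem embA_evalC_j {K : Type} [Field K] (A : ValuationSubring K) (Q : Polynomial A) :
    embA A (evalC (jqModC A) Q) = evalA A (jK K) Q := by
  rw [embA_evalC, embA_jqModC]

theorem redA_evalC_j {K : Type} [Field K] {A : ValuationSubring K} {k : Type} [Field k]
    (π : A →+* k) (Q : Polynomial A) :
    redA π (evalC (jqModC A) Q) = evalC (jqModC k) (Q.map π) := by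
  rw [redA_evalC, redA_jqModC]

theorem redA_evalC_j_ne_zero {K : Type} [Field K] {A : ValuationSubring K} {k : Type} [Field k]
    (π : A →+* k) (Q : Polynomial A) (hQ : Q.map π ≠ 0) :
    redA π (evalC (jqModC A) Q) ≠ 0 := by
  rw [redA_evalC_j]
  exact evalC_jqModC_ne_zero k _ hQ

theorem C_ne_zero' {K : Type} [Field K] {c : K} (hc : c ≠ 0) :
    (HahnSeries.C c : LaurentSeries K) ≠ 0 :=
  (map_ne_zero (HahnSeries.C : K →+* LaurentSeries K)).mpr hc

theorem evalA_C {K : Type} [Field K] (A : ValuationSubring K) (x : LaurentSeries K) (a : A) :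
    evalA A x (Polynomial.C a) = HahnSeries.C (a : K) := by
  simp [evalA]

theorem evalA_X {K : Type} [Field K] (A : ValuationSubring K) (x : LaurentSeries K) :
    evalA A x Polynomial.X = x := by
  simp [evalA]

theorem evalA_injective {K : Type} [Field K] (A : ValuationSubring K) :
    Function.Injective (evalA A (jK K)) := by
  intro P Q h
  rw [evalA_eq_evalC_map, evalA_eq_evalC_map] at h
  exact Polynomial.map_injective _ A.subtype_injective (evalC_jK_injective K h)

theorem evalA_ne_zero {K : Type} [Field K] (A : ValuationSubring K) {k : Type} [Field k]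
    (π : A →+* k) (Q : Polynomial A) (hQ : Q.map π ≠ 0) : evalA A (jK K) Q ≠ 0 := by
  intro h
  have : Q = 0 := evalA_injective A (by rw [h, map_zero])
  exact hQ (by rw [this, Polynomial.map_zero])

/-! ### Combinations -/

/-- The combination `Σ P_i(j) U^i` over `A`. -/
def combA {K : Type} [Field K] (A : ValuationSubring K) (I : ℕ) (UA : LaurentSeries A)
    (P : Fin I → Polynomial A) : LaurentSeries A :=
  ∑ i : Fin I, evalC (jqModC A) (P i) * UA ^ (i : ℕ)

theorem embA_combA {K : Type} [Field K] (A : ValuationSubring K) (I : ℕ) (UA : LaurentSeries A)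
    (P : Fin I → Polynomial A) :
    embA A (combA A I UA P) =
      ∑ i : Fin I, evalA A (jK K) (P i) * (embA A UA) ^ (i : ℕ) := by
  rw [combA, map_sum]
  refine Finset.sum_congr rfl fun i _ => ?_
  rw [map_mul, map_pow, embA_evalC, embA_jqModC]

theorem redA_combA {K : Type} [Field K] {A : ValuationSubring K} {k : Type} [Field k]
    (π : A →+* k) (I : ℕ) (UA : LaurentSeries A) (P : Fin I → Polynomial A) :
    redA π (combA A I UA P) =
      ∑ i : Fin I, evalC (jqModC k) ((P i).map π) * (redA π UA) ^ (i : ℕ) := by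
  rw [combA, map_sum]
  refine Finset.sum_congr rfl fun i _ => ?_
  rw [map_mul, map_pow, redA_evalC, redA_jqModC]

theorem C_mul_combA {K : Type} [Field K] (A : ValuationSubring K) (I : ℕ) (UA : LaurentSeries A)
    (P : Fin I → Polynomial A) (a : A) :
    HahnSeries.C a * combA A I UA P = combA A I UA (fun i => Polynomial.C a * P i) := by
  rw [combA, combA, Finset.mul_sum]
  refine Finset.sum_congr rfl fun i _ => ?_
  rw [map_mul, mul_assoc]
  congr 1
  simp [evalC]

theorem exists_jinvA {K : Type} [Field K] (A : ValuationSubring K) {k : Type} [Field k]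
    (π : A →+* k) : ∃ y : LaurentSeries A, y * jqModC A = 1 ∧
      embA A y = (jK K)⁻¹ ∧ redA π y = (jqModC k)⁻¹ := by
  obtain ⟨y, hy⟩ := exists_jqModC_inv A
  refine ⟨y, hy, ?_, ?_⟩
  · have h := congrArg (embA A) hy
    rw [map_mul, map_one, embA_jqModC] at h
    exact eq_inv_of_mul_eq_one_left h
  · have h := congrArg (redA π) hy
    rw [map_mul, map_one, redA_jqModC] at h
    exact eq_inv_of_mul_eq_one_left h

/-- Transfer of a monic relation along `redA`. -/
theorem transfer_monic_redA {K : Type} [Field K] {A : ValuationSubring K} {k : Type} [Field k]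
    (π : A →+* k) (tA vA : LaurentSeries A)
    (h : ∃ P : Polynomial (Polynomial A), P.Monic ∧ P.eval₂ (evalC tA) vA = 0) :
    ∃ P : Polynomial (Polynomial k), P.Monic ∧
      P.eval₂ (evalC (redA π tA)) (redA π vA) = 0 := by
  obtain ⟨P, hP, h0⟩ := h
  refine ⟨P.map (Polynomial.mapRingHom π), hP.map _, ?_⟩
  rw [Polynomial.eval₂_map, ← redA_comp_evalC, ← Polynomial.hom_eval₂, h0, map_zero]

/-- Transfer of a monic relation along `embA`. -/
theorem transfer_monic_embA {K : Type} [Field K] (A : ValuationSubring K)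
    (tA vA : LaurentSeries A)
    (h : ∃ P : Polynomial (Polynomial A), P.Monic ∧ P.eval₂ (evalC tA) vA = 0) :
    (evalA A (embA A tA)).IsIntegralElem (embA A vA) := by
  obtain ⟨P, hP, h0⟩ := h
  refine ⟨P, hP, ?_⟩
  rw [← embA_comp_evalC, ← Polynomial.hom_eval₂, h0, map_zero]

/-- **The modular unit over `A` with Newton nonvanishing over `k`**: a combination
`Σ P_i(j) U^i` with some `P_i ≢ 0 mod 𝔪` does not reduce to zero. -/
theorem exists_UA_newton {K : Type} [Field K] [Algebra ℚ K] (A : ValuationSubring K)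
    {k : Type} [Field k] (π : A →+* k) (N ℓ : ℕ) [Fact ℓ.Prime] (hπ : IsResidueMap A π ℓ)
    (D : IgusaInput N ℓ) :
    ∃ UA : LaurentSeries A, embA A UA = UK K D.U ∧
      (evalA A (jK K)).IsIntegralElem (UK K D.U) ∧
      (evalA A (jK K)⁻¹).IsIntegralElem (UK K D.U * (jK K)⁻¹ ^ D.m) ∧
      ∀ P : Fin D.I → Polynomial A, (∃ i, (P i).map π ≠ 0) →
        redA π (combA A D.I UA P) ≠ 0 := by
  obtain ⟨UA, hUA, hu0, hu, hint, hint'⟩ := exists_UA A π N ℓ hπ D
  obtain ⟨jinv, hjinv, hjinvK, hjinvred⟩ := exists_jinvA A π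
  refine ⟨UA, hUA, ?_, ?_, fun P ⟨i, hi⟩ h0 => ?_⟩
  · have h := transfer_monic_embA A (jqModC A) UA hint
    rwa [embA_jqModC, hUA] at h
  · have h := transfer_monic_embA A jinv (UA * jinv ^ D.m) (hint' jinv hjinv)
    rwa [map_mul, map_pow, hjinvK, hUA] at h
  · have h1 := transfer_monic_redA π (jqModC A) UA hint
    rw [redA_jqModC] at h1
    have h2 := transfer_monic_redA π jinv (UA * jinv ^ D.m) (hint' jinv hjinv)
    rw [map_mul, map_pow, hjinvred] at h2
    have key := newton_linearIndependent k (jqModC k) (redA π UA) D.m D.I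
      D.m_pos D.I_pos (jqModC_ne_zero_of_nontrivial _) (Asm.order_jqModC' _) hu0 hu h1 h2
      (fun i => (P i).map π) (by
        rw [redA_combA] at h0
        rw [← h0]
        rfl)
    exact hi (congrFun key i)

/-! ### The normalised representation -/

theorem evalC_C_mul_map {K : Type} [Field K] (A : ValuationSubring K) (c : K)
    (x : LaurentSeries K) (Q : Polynomial A) :
    evalC x (Polynomial.C c * Q.map A.subtype) = HahnSeries.C c * evalA A x Q := by
  rw [map_mul, evalA_eq_evalC_map]
  congr 1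
  simp [evalC]

/-- Every nonzero `x ∈ F_K` has a normalised representation. -/
theorem exists_normalized_rep_K {K : Type} [Field K] [Algebra ℚ K] (A : ValuationSubring K)
    {k : Type} [Field k] (π : A →+* k) (N ℓ : ℕ) [NeZero N] [Fact ℓ.Prime]
    (D : IgusaInput N ℓ) (UA : LaurentSeries A) (hUA : embA A UA = UK K D.U)
    (x : LaurentSeries K) (hx : x ∈ laurentBaseChange K (modularFunctionFieldFull N))
    (hx0 : x ≠ 0) :
    ∃ (c : K) (Dn : Polynomial A) (P : Fin D.I → Polynomial A),
      c ≠ 0 ∧ Dn.map π ≠ 0 ∧ (∃ i, (P i).map π ≠ 0) ∧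
      HahnSeries.C c * (evalA A (jK K) Dn * x) = embA A (combA A D.I UA P) := by
  obtain ⟨D₀, P₀, hD₀, hrep⟩ := exists_rep_K N ℓ D x hx
  have hP₀ : P₀ ≠ 0 := by
    rintro rfl
    simp only [Pi.zero_apply, map_zero, zero_mul, Finset.sum_const_zero, mul_eq_zero] at hrep
    rcases hrep with h | h
    · exact hD₀ (evalC_jK_injective K (by rw [h, map_zero]))
    · exact hx0 h
  have hD₀' : (fun _ : Fin 1 => D₀) ≠ 0 := fun h => hD₀ (congrFun h 0)
  obtain ⟨a, Dn, ha, ⟨_, hDn⟩, hDa⟩ := exists_normalize_family_val A π (fun _ : Fin 1 => D₀) hD₀'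
  obtain ⟨b, P, hb, hP, hPb⟩ := exists_normalize_family_val A π P₀ hP₀
  refine ⟨b⁻¹ * a, Dn 0, P, mul_ne_zero (inv_ne_zero hb) ha, ?_, hP, ?_⟩
  · rwa [Subsingleton.elim 0 _]
  · have h1 : HahnSeries.C a * (evalA A (jK K) (Dn 0) * x) =
        HahnSeries.C b * embA A (combA A D.I UA P) := by
      rw [embA_combA, hUA, Finset.mul_sum, ← mul_assoc, ← evalC_C_mul_map, ← hDa 0, hrep]
      refine Finset.sum_congr rfl fun i _ => ?_
      rw [hPb i, evalC_C_mul_map, mul_assoc]
    rw [map_mul, mul_assoc, h1, ← mul_assoc, ← map_mul, inv_mul_cancel₀ hb, map_one, one_mul]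

end Fermat.Agent.Red.GV.Asm
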