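import Fermat.Agent.Red.GV.Asm3

/-!
# P-RED / GV7 (part 4): the two charts (integral closures of `A[j]` and `A[1/j]` in `F_K`)
-/

set_option autoImplicit false

open ModularCurve

noncomputable section

namespace Fermat.Agent.Red.GV.Asm

open Fermat.Agent.S28 Fermat.Agent.Red.GV

theorem jK_ne_zero (K : Type) [Field K] : jK K ≠ 0 :=
  jqModC_ne_zero_of_nontrivial K

theorem evalA_reflect {K : Type} [Field K] (A : ValuationSubring K) (t : LaurentSeries K)
    (ht : t ≠ 0) (n : ℕ) (P : Polynomial A) (hP : P.natDegree ≤ n) :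
    evalA A t⁻¹ (P.reflect n) = evalA A t P * t⁻¹ ^ n := by
  let _ : Invertible t := invertibleOfNonzero ht
  have h := Polynomial.eval₂_reflect_mul_pow
    ((HahnSeries.C : K →+* LaurentSeries K).comp A.subtype) t n P hP
  rw [invOf_eq_inv] at h
  simp only [evalA, Polynomial.coe_eval₂RingHom]
  rw [← h, mul_assoc, ← mul_pow, mul_inv_cancel₀ ht, one_pow, mul_one]

theorem evalA_inv_injective {K : Type} [Field K] (A : ValuationSubring K) :
    Function.Injective (evalA A (jK K)⁻¹) := by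
  intro P Q h
  rw [evalA_eq_evalC_map, evalA_eq_evalC_map] at h
  exact Polynomial.map_injective _ A.subtype_injective (evalC_jK_inv_injective K h)

/-- Core statement, finite chart: a Gauss-integral element of `F_K` some nonzero `A`-multiple
of which is integral over `A[j]` is itself integral over `A[j]`. -/
theorem core_fin_val {K : Type} [Field K] [Algebra ℚ K] (A : ValuationSubring K)
    {k : Type} [Field k] (π : A →+* k) (N ℓ : ℕ) [NeZero N] [Fact ℓ.Prime]
    (hπ : IsResidueMap A π ℓ) (D : IgusaInput N ℓ)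
    (x : LaurentSeries K) (hx : x ∈ FK K N) (hOT : InOTA A π x) (c : A) (hc : c ≠ 0)
    (hint : (evalA A (jK K)).IsIntegralElem (HahnSeries.C (c : K) * x)) :
    (evalA A (jK K)).IsIntegralElem x := by
  obtain ⟨Dn, P, hDn, hrep⟩ := exists_rep_of_inOTA A π N ℓ hπ D x hx hOT
  obtain ⟨UA, -, hU, -, -⟩ := exists_UA_newton A π N ℓ hπ D
  refine isIntegralElem_of_mul_of_mul_val A π hπ.ker_eq (evalA A (jK K)) (evalA_injective A)
    c hc Dn hDn x ?_ ?_
  · rwa [evalA_C]
  · rw [hrep]
    exact Asm.isIntegralElem_sum_mul_pow _ _ hU _ _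

/-- Core statement, chart at infinity. -/
theorem core_inf_val {K : Type} [Field K] [Algebra ℚ K] (A : ValuationSubring K)
    {k : Type} [Field k] (π : A →+* k) (N ℓ : ℕ) [NeZero N] [Fact ℓ.Prime]
    (hπ : IsResidueMap A π ℓ) (D : IgusaInput N ℓ)
    (x : LaurentSeries K) (hx : x ∈ FK K N) (hOT : InOTA A π x) (c : A) (hc : c ≠ 0)
    (hint : (evalA A (jK K)⁻¹).IsIntegralElem (HahnSeries.C (c : K) * x)) :
    (evalA A (jK K)⁻¹).IsIntegralElem x := by
  obtain ⟨Dn, P, hDn, hrep⟩ := exists_rep_of_inOTA A π N ℓ hπ D x hx hOT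
  obtain ⟨UA, -, -, hU, -⟩ := exists_UA_newton A π N ℓ hπ D
  -- a uniform bound
  set M : ℕ := Dn.natDegree + ∑ i : Fin D.I, ((P i).natDegree + D.m * (i : ℕ)) with hM
  have hMi : ∀ i : Fin D.I, (P i).natDegree + D.m * (i : ℕ) ≤ M := fun i =>
    le_trans (Finset.single_le_sum (f := fun i : Fin D.I => (P i).natDegree + D.m * (i : ℕ))
      (fun _ _ => Nat.zero_le _) (Finset.mem_univ i)) (Nat.le_add_left _ _)
  have hQ : (Dn.reflect M).map π ≠ 0 := by
    rw [← Polynomial.reflect_map]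
    exact fun h => hDn (Polynomial.reflect_eq_zero_iff.mp h)
  refine isIntegralElem_of_mul_of_mul_val A π hπ.ker_eq (evalA A (jK K)⁻¹)
    (evalA_inv_injective A) c hc (Dn.reflect M) hQ x ?_ ?_
  · rwa [evalA_C]
  · have key : evalA A (jK K)⁻¹ (Dn.reflect M) * x =
        ∑ i : Fin D.I, evalA A (jK K)⁻¹
          ((P i).reflect (M - D.m * (i : ℕ))) * (UK K D.U * (jK K)⁻¹ ^ D.m) ^ (i : ℕ) := by
      rw [evalA_reflect _ (jK K) (jK_ne_zero K) M Dn (Nat.le_add_right _ _), mul_right_comm,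
        hrep, Finset.sum_mul]
      refine Finset.sum_congr rfl fun i _ => ?_
      have hi := hMi i
      rw [evalA_reflect _ (jK K) (jK_ne_zero K) _ (P i) (by omega), mul_pow, ← pow_mul]
      have hsplit : (jK K)⁻¹ ^ M =
          (jK K)⁻¹ ^ (M - D.m * (i : ℕ)) * (jK K)⁻¹ ^ (D.m * (i : ℕ)) := by
        rw [← pow_add]; congr 1; omega
      rw [hsplit]
      ring
    rw [key]
    exact Asm.isIntegralElem_sum_mul_pow _ _ hU _ _

/-- Integrality over `A[j]` implies Gauss-integrality (finite chart). -/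
theorem inOTA_of_isIntegralElem_fin {K : Type} [Field K] [Algebra ℚ K] (A : ValuationSubring K)
    {k : Type} [Field k] (π : A →+* k) (N ℓ : ℕ) [NeZero N] [Fact ℓ.Prime]
    (hπ : IsResidueMap A π ℓ) (D : IgusaInput N ℓ)
    (x : LaurentSeries K) (hx : x ∈ FK K N)
    (hint : (evalA A (jK K)).IsIntegralElem x) : InOTA A π x := by
  refine inOTA_of_isIntegralElem A π N ℓ hπ D (jqModC A) x hx ?_
  rwa [embA_jqModC]

/-- Integrality over `A[1/j]` implies Gauss-integrality (chart at infinity). -/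
theorem inOTA_of_isIntegralElem_inf {K : Type} [Field K] [Algebra ℚ K] (A : ValuationSubring K)
    {k : Type} [Field k] (π : A →+* k) (N ℓ : ℕ) [NeZero N] [Fact ℓ.Prime]
    (hπ : IsResidueMap A π ℓ) (D : IgusaInput N ℓ)
    (x : LaurentSeries K) (hx : x ∈ FK K N)
    (hint : (evalA A (jK K)⁻¹).IsIntegralElem x) : InOTA A π x := by
  obtain ⟨jinv, -, hjinv, -⟩ := exists_jinvA A π
  refine inOTA_of_isIntegralElem A π N ℓ hπ D jinv x hx ?_
  rwa [hjinv]

end Fermat.Agent.Red.GV.Asm
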