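import Fermat.Agent.Red.GV.Asm1

/-!
# P-RED / GV7 (part 2): the Gauss norm of an element with a normalised representation
-/

set_option autoImplicit false

open ModularCurve

noncomputable section

namespace Fermat.Agent.Red.GV.Asm

open Fermat.Agent.S28 Fermat.Agent.Red.GV

/-- `c · Dn(j)` as an element of `A((q))`, for `c ∈ A`. -/
theorem embA_C_mul_evalC_j {K : Type} [Field K] (A : ValuationSubring K) (c : A)
    (Dn : Polynomial A) :
    embA A (HahnSeries.C c * evalC (jqModC A) Dn) =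
      HahnSeries.C (c : K) * evalA A (jK K) Dn := by
  rw [embA_C_mul, embA_evalC_j]

theorem redA_C_mul_of_nonunit {K : Type} [Field K] {A : ValuationSubring K} {k : Type} [Field k]
    (π : A →+* k) (hker : ∀ a : A, π a = 0 ↔ (a : K) ∈ A.nonunits)
    (c : A) (hc : (c : K) ∈ A.nonunits) (y : LaurentSeries A) :
    redA π (HahnSeries.C c * y) = 0 := by
  rw [redA_C_mul, (hker c).2 hc, map_zero, zero_mul]

/-- If `c·Dn(j)·x = emb bb` with `c ∈ 𝔪` and `bb ≢ 0 mod 𝔪`, then `x` is not Gauss-integral. -/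
theorem not_inOTA_of_rep {K : Type} [Field K] (A : ValuationSubring K) {k : Type} [Field k]
    (π : A →+* k) (hker : ∀ a : A, π a = 0 ↔ (a : K) ∈ A.nonunits)
    (x : LaurentSeries K) (c : K) (hc : c ∈ A.nonunits) (Dn : Polynomial A)
    (bb : LaurentSeries A) (hbb : redA π bb ≠ 0)
    (hrep : HahnSeries.C c * (evalA A (jK K) Dn * x) = embA A bb) : ¬ InOTA A π x := by
  rintro ⟨Q, hQ, y, hy⟩
  have hcA : c ∈ A := mem_of_mem_nonunits A c hc
  have h1 : evalC (jqModC A) Q * bb =
      HahnSeries.C (⟨c, hcA⟩ : A) * (evalC (jqModC A) Dn * y) := by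
    apply embA_injective A
    rw [map_mul, embA_C_mul, map_mul, embA_evalC_j, embA_evalC_j, ← hrep, hy]
    ring
  have h2 := congrArg (redA π) h1
  rw [redA_C_mul_of_nonunit π hker _ hc, map_mul] at h2
  rcases mul_eq_zero.mp h2 with h | h
  · exact redA_evalC_j_ne_zero π Q hQ h
  · exact hbb h

/-- If `c·Dn(j)·x = emb bb` with `c ∈ 𝔪` and `bb ≢ 0 mod 𝔪`, then `x` is not integral over
`A((q))`. -/
theorem not_isIntegralElem_of_rep {K : Type} [Field K] (A : ValuationSubring K) {k : Type}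
    [Field k] (π : A →+* k) (hker : ∀ a : A, π a = 0 ↔ (a : K) ∈ A.nonunits)
    (x : LaurentSeries K) (c : K) (hc : c ∈ A.nonunits) (Dn : Polynomial A)
    (bb : LaurentSeries A) (hbb : redA π bb ≠ 0)
    (hrep : HahnSeries.C c * (evalA A (jK K) Dn * x) = embA A bb) :
    ¬ (embA A).IsIntegralElem x := by
  rintro ⟨p, hp, hpx⟩
  have hcA : c ∈ A := mem_of_mem_nonunits A c hc
  set cR : LaurentSeries A := HahnSeries.C (⟨c, hcA⟩ : A) * evalC (jqModC A) Dn with hcR
  have hc0 : redA π cR = 0 := redA_C_mul_of_nonunit π hker _ hc _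
  have hcK : embA A cR = HahnSeries.C c * evalA A (jK K) Dn := embA_C_mul_evalC_j A _ Dn
  have h1 : Polynomial.eval₂ (embA A) (embA A bb) (p.scaleRoots cR) = 0 := by
    rw [← hrep, ← mul_assoc, ← hcK]
    exact Polynomial.scaleRoots_eval₂_eq_zero _ hpx
  rw [Polynomial.eval₂_at_apply] at h1
  have h2 : (p.scaleRoots cR).eval bb = 0 := embA_injective A (by rw [h1, map_zero])
  have h3 := congrArg (redA π) h2
  rw [map_zero, ← Polynomial.eval₂_at_apply, ← Polynomial.eval_map,
    Polynomial.map_scaleRoots _ _ _ (by rw [hp.leadingCoeff, map_one]; exact one_ne_zero),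
    hc0, Polynomial.scaleRoots_zero, (hp.map _).leadingCoeff, one_smul,
    Polynomial.eval_pow, Polynomial.eval_X] at h3
  exact hbb (eq_zero_of_pow_eq_zero h3)

/-- If `c·Dn(j)·x = emb bb` and `c⁻¹ ∈ A`, then `Dn(j)·x = emb (c⁻¹ bb)`. -/
theorem rep_of_inv_mem {K : Type} [Field K] (A : ValuationSubring K)
    (x : LaurentSeries K) (c : K) (hc0 : c ≠ 0) (hc : c⁻¹ ∈ A) (Dn : Polynomial A)
    (bb : LaurentSeries A)
    (hrep : HahnSeries.C c * (evalA A (jK K) Dn * x) = embA A bb) :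
    evalA A (jK K) Dn * x = embA A (HahnSeries.C (⟨c⁻¹, hc⟩ : A) * bb) := by
  rw [embA_C_mul, ← hrep, ← mul_assoc, ← map_mul, inv_mul_cancel₀ hc0, map_one, one_mul]

/-- **Gauss norm criterion**: if `c·Dn(j)·x = emb bb` is normalised, then `x` is
Gauss-integral iff `c⁻¹ ∈ A`. -/
theorem inOTA_iff_of_rep {K : Type} [Field K] (A : ValuationSubring K) {k : Type} [Field k]
    (π : A →+* k) (hker : ∀ a : A, π a = 0 ↔ (a : K) ∈ A.nonunits)
    (x : LaurentSeries K) (c : K) (hc0 : c ≠ 0) (Dn : Polynomial A) (hDn : Dn.map π ≠ 0)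
    (bb : LaurentSeries A) (hbb : redA π bb ≠ 0)
    (hrep : HahnSeries.C c * (evalA A (jK K) Dn * x) = embA A bb) :
    InOTA A π x ↔ c⁻¹ ∈ A := by
  constructor
  · intro hx
    by_contra hc
    have h := inv_mem_nonunits_of_notMem A c⁻¹ hc
    rw [inv_inv] at h
    exact not_inOTA_of_rep A π hker x c h Dn bb hbb hrep hx
  · intro hc
    exact ⟨Dn, hDn, _, (rep_of_inv_mem A x c hc0 hc Dn bb hrep).symm⟩

/-- Integral over `A((q))` implies Gauss-integral, for elements with a normalised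
representation. -/
theorem inOTA_of_isIntegralElem_of_rep {K : Type} [Field K] (A : ValuationSubring K) {k : Type}
    [Field k] (π : A →+* k) (hker : ∀ a : A, π a = 0 ↔ (a : K) ∈ A.nonunits)
    (x : LaurentSeries K) (c : K) (hc0 : c ≠ 0) (Dn : Polynomial A) (hDn : Dn.map π ≠ 0)
    (bb : LaurentSeries A) (hbb : redA π bb ≠ 0)
    (hrep : HahnSeries.C c * (evalA A (jK K) Dn * x) = embA A bb)
    (hint : (embA A).IsIntegralElem x) : InOTA A π x := by
  rw [inOTA_iff_of_rep A π hker x c hc0 Dn hDn bb hbb hrep]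
  by_contra hc
  have h := inv_mem_nonunits_of_notMem A c⁻¹ hc
  rw [inv_inv] at h
  exact not_isIntegralElem_of_rep A π hker x c h Dn bb hbb hrep hint

/-- A scalar `e` with `e·Q(j) = emb y`, `Q ≢ 0`, `y ≢ 0 mod 𝔪` is a unit of `A`. -/
theorem unit_of_scalar_rep {K : Type} [Field K] (A : ValuationSubring K) {k : Type} [Field k]
    (π : A →+* k) (hker : ∀ a : A, π a = 0 ↔ (a : K) ∈ A.nonunits)
    (e : K) (he : e ≠ 0) (Q : Polynomial A) (hQ : Q.map π ≠ 0) (y : LaurentSeries A)
    (hy : redA π y ≠ 0) (h : HahnSeries.C e * evalA A (jK K) Q = embA A y) :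
    e ∈ A ∧ e⁻¹ ∈ A := by
  constructor
  · by_contra hn
    have hinv := inv_mem_nonunits_of_notMem A e hn
    have hinvA : e⁻¹ ∈ A := mem_of_mem_nonunits A _ hinv
    have h1 : evalC (jqModC A) Q = HahnSeries.C (⟨e⁻¹, hinvA⟩ : A) * y := by
      apply embA_injective A
      rw [embA_C_mul, embA_evalC_j, ← h, ← mul_assoc, ← map_mul, inv_mul_cancel₀ he, map_one,
        one_mul]
    have h2 := congrArg (redA π) h1
    rw [redA_C_mul_of_nonunit π hker _ hinv] at h2
    exact redA_evalC_j_ne_zero π Q hQ h2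
  · by_contra hn
    have hnu := inv_mem_nonunits_of_notMem A e⁻¹ hn
    rw [inv_inv] at hnu
    have heA : e ∈ A := mem_of_mem_nonunits A _ hnu
    have h1 : HahnSeries.C (⟨e, heA⟩ : A) * evalC (jqModC A) Q = y := by
      apply embA_injective A
      rw [embA_C_mul_evalC_j, h]
    have h2 := congrArg (redA π) h1
    rw [redA_C_mul_of_nonunit π hker _ hnu] at h2
    exact hy h2.symm

end Fermat.Agent.Red.GV.Asm
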