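import Fermat.Agent.Red.GV.Coord
import Fermat.Agent.Red.GV.BarGalois

/-!
# P-RED / GV: charts of a general base coordinate, `S37` vocabulary

For `t : FF N` with `A`-integral `q`-expansion `tA`, `t̄ ≠ 0`, and a relation
`j · t^a = R(t)` (`R ∈ A[Y]`), the chart `S37.modelAt N A t` (integral closure of `A[t]`)
satisfies QEP; moreover `modelFin ⊆ modelAt[1/t]`, and `modelAt ⊆ modelFin` if `t ∈ modelFin`.
-/

set_option autoImplicit false

open ModularCurve AlgebraicCurve

noncomputable section

namespace Fermat.Agent.Red.GV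

open Fermat.Agent.S28 Fermat.Agent.S37 Fermat.Agent.Red.GV.Asm

/-- Transitivity of integrality for two evaluation maps `f, g : A[Y] → L` agreeing on
constants: if `f Y` is integral over `g` then every element integral over `f` is integral
over `g`. -/
theorem isIntegralElem_trans_eval {A L : Type} [CommRing A] [CommRing L]
    (f g : Polynomial A →+* L) (hX : g.IsIntegralElem (f Polynomial.X))
    (hC : ∀ c : A, f (Polynomial.C c) = g (Polynomial.C c)) (x : L)
    (hx : f.IsIntegralElem x) : g.IsIntegralElem x := by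
  let _ := g.toAlgebra
  have hrange : ∀ Q : Polynomial A, f Q ∈ integralClosure (Polynomial A) L := by
    intro Q
    induction Q using Polynomial.induction_on with
    | C c =>
      rw [hC]
      exact (integralClosure (Polynomial A) L).algebraMap_mem (Polynomial.C c)
    | add p q hp hq => rw [map_add]; exact add_mem hp hq
    | monomial n c h =>
      rw [pow_succ, ← mul_assoc, map_mul]
      exact mul_mem h hX
  obtain ⟨p, hp, hpx⟩ := hx
  let f' : Polynomial A →+* integralClosure (Polynomial A) L :=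
    f.codRestrict (integralClosure (Polynomial A) L).toSubring hrange
  have h1 : IsIntegral (integralClosure (Polynomial A) L) x := by
    refine ⟨p.map f', hp.map _, ?_⟩
    rw [Polynomial.eval₂_map]
    exact hpx
  exact isIntegral_trans x h1

section

variable (A : ValuationSubring Kbar) (N : ℕ) [NeZero N] {ℓ : ℕ}

/-- The relation `j · t^a = R(t)` in `FF N` gives a coordinate in the sense of `IsCoord`. -/
theorem isCoord_of_rel_FF (t : FF N) (tA : LaurentSeries A)
    (htA : embA A tA = (t : LaurentSeries Kbar))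
    (hred : redA (IsLocalRing.residue A) tA ≠ 0) (a : ℕ) (R : Polynomial A)
    (hrel : jB N * t ^ a = evalF N A t R) :
    IsCoord A (IsLocalRing.residue A) tA a R := by
  refine isCoord_of_rel A _ tA a R hred ?_
  have h : ((jB N * t ^ a : FF N) : LaurentSeries Kbar) =
      ((evalF N A t R : FF N) : LaurentSeries Kbar) := congrArg Subtype.val hrel
  rw [htA, ← coe_evalF, ← h, ← coe_jB N]
  rfl

/-- The chart of `t` consists of Gauss-integral functions. -/
theorem modelAt_le_gaussV (hℓ : ℓ.Prime) (hN : ¬ ℓ ∣ N) (hA : A.LiesOverPrime ℓ)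
    (t : FF N) (tA : LaurentSeries A) (htA : embA A tA = (t : LaurentSeries Kbar)) :
    modelAt N A t ≤ gaussV A N := by
  have : Fact ℓ.Prime := ⟨hℓ⟩
  intro x hx
  refine coord_mem_gaussSubring A _ N ℓ (isResidueMap_residue A ℓ hA) hN tA x ?_
  rw [htA]
  exact (mem_modelAt_iff N A t x).1 hx

/-- **QEP for the chart of a coordinate `t`.** -/
theorem mem_modelAt_of_cst_mul (hℓ : ℓ.Prime) (hN : ¬ ℓ ∣ N) (hA : A.LiesOverPrime ℓ)
    (t : FF N) (tA : LaurentSeries A) (htA : embA A tA = (t : LaurentSeries Kbar))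
    (hred : redA (IsLocalRing.residue A) tA ≠ 0) (a : ℕ) (R : Polynomial A)
    (hrel : jB N * t ^ a = evalF N A t R)
    (x : FF N) (hx : x ∈ gaussV A N) (c : Kbar) (hcA : c ∈ A) (hc : c ≠ 0)
    (h : cst N c * x ∈ modelAt N A t) : x ∈ modelAt N A t := by
  have : Fact ℓ.Prime := ⟨hℓ⟩
  have ht := isCoord_of_rel_FF A N t tA htA hred a R hrel
  rw [mem_modelAt_iff, ← htA] at h ⊢
  refine coord_qep A _ N ℓ (isResidueMap_residue A ℓ hA) hN ht x hx ⟨c, hcA⟩
    (fun h0 => hc (congrArg Subtype.val h0)) ?_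
  have h1 : ((cst N c * x : FF N) : LaurentSeries Kbar) =
      ((cst N c : FF N) : LaurentSeries Kbar) * (x : LaurentSeries Kbar) := rfl
  rwa [h1, coe_cst] at h

/-- **Kernel of the reduction on the chart of a coordinate `t`** is `𝔪_A · modelAt`: the
special fibre of the chart embeds into `k((q))`, in particular it is a domain. -/
theorem exists_eq_cst_mul_of_gaussR_eq_zero_modelAt (hℓ : ℓ.Prime) (hN : ¬ ℓ ∣ N)
    (hA : A.LiesOverPrime ℓ)
    (t : FF N) (tA : LaurentSeries A) (htA : embA A tA = (t : LaurentSeries Kbar))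
    (hred : redA (IsLocalRing.residue A) tA ≠ 0) (a : ℕ) (R : Polynomial A)
    (hrel : jB N * t ^ a = evalF N A t R)
    (x : gaussV A N) (hx : (x : FF N) ∈ modelAt N A t) (hx0 : gaussR A N x = 0) :
    ∃ (c : Kbar) (x' : FF N), c ≠ 0 ∧ c ∈ A.nonunits ∧ x' ∈ modelAt N A t ∧
      (x : FF N) = cst N c * x' := by
  have : Fact ℓ.Prime := ⟨hℓ⟩
  have ht := isCoord_of_rel_FF A N t tA htA hred a R hrel
  have hint := (mem_modelAt_iff N A t _).1 hx
  rw [← htA] at hint
  obtain ⟨c, x', hc, hnu, hx', hxx'⟩ := coord_ker A _ N ℓ (isResidueMap_residue A ℓ hA) hN ht x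
    hx0 hint
  refine ⟨(c : Kbar), x', fun h0 => hc (Subtype.ext h0), hnu, ?_, hxx'⟩
  rw [mem_modelAt_iff, ← htA]
  exact hx'

/-- `modelFin ⊆ modelAt[1/t]`: an element integral over `A[j]` becomes integral over `A[t]`
after multiplication by a power of `t`. -/
theorem exists_pow_mul_mem_modelAt
    (t : FF N) (tA : LaurentSeries A) (htA : embA A tA = (t : LaurentSeries Kbar))
    (hred : redA (IsLocalRing.residue A) tA ≠ 0) (a : ℕ) (R : Polynomial A)
    (hrel : jB N * t ^ a = evalF N A t R) (x : FF N) (hx : x ∈ modelFin N A) :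
    ∃ n : ℕ, t ^ n * x ∈ modelAt N A t := by
  have ht := isCoord_of_rel_FF A N t tA htA hred a R hrel
  obtain ⟨n, hn⟩ := coord_exists_pow_mul_isIntegralElem A _ ht _ ((mem_modelFin_iff N A x).1 hx)
  refine ⟨n, ?_⟩
  have h1 : ((t ^ n * x : FF N) : LaurentSeries Kbar) =
      (embA A tA) ^ n * (x : LaurentSeries Kbar) := by
    rw [htA]
    rfl
  rw [mem_modelAt_iff, h1, ← htA]
  exact hn

/-- `modelAt t ⊆ modelFin` if `t ∈ modelFin`. -/
theorem modelAt_le_modelFin (t : FF N) (ht : t ∈ modelFin N A) :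
    modelAt N A t ≤ modelFin N A := by
  intro x hx
  rw [mem_modelFin_iff] at ht ⊢
  rw [mem_modelAt_iff] at hx
  refine isIntegralElem_trans_eval (evalA A (t : LaurentSeries Kbar)) (evalA A (jK Kbar)) ?_
    (fun c => by rw [evalA_C, evalA_C]) _ hx
  rwa [Asm.evalA_X]

/-- `modelAt t ⊆ modelInf` if `t ∈ modelInf`. -/
theorem modelAt_le_modelInf (t : FF N) (ht : t ∈ modelInf N A) :
    modelAt N A t ≤ modelInf N A := by
  intro x hx
  rw [mem_modelInf_iff] at ht ⊢
  rw [mem_modelAt_iff] at hx
  refine isIntegralElem_trans_eval (evalA A (t : LaurentSeries Kbar)) (evalA A (jK Kbar)⁻¹) ?_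
    (fun c => by rw [evalA_C, evalA_C]) _ hx
  rwa [Asm.evalA_X]

end

end Fermat.Agent.Red.GV
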