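import Fermat.Agent.Red.GV.Main

/-!
# P-RED / GV: charts with respect to a general base coordinate

Let `t ∈ F_K` have an `A`-integral `q`-expansion `tA` with `t̄ ≠ 0`, and assume one relation
`j · t^a = R(t)` with `R ∈ A[Y]` (so `j ∈ A[t, 1/t]`).  Examples:

* `t = t₂ = Δ(q)/Δ(q²)`: `j t² = (t + 256)³`; `t = 1/t₂`: `j t = (1 + 256 t)³`;
* `t = t₃ = (η(q)/η(q³))¹²`: `j t³ = (t + 27)(t + 243)³`; `t = 1/t₃`: `j t = (1+27t)(1+243t)³`;
* `t = j` (`a = 0`, `R = Y`), `t = 1/j` (`a = 1`, `R = 1`).

Then the integral closure `B_t` of `A[t]` in `F_K` satisfies: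

* `coord_mem_gaussSubring` : `B_t ⊆ V` (Gauss-integral);
* `coord_qep` : `x ∈ V`, `c ∈ A ∖ 0`, `c x ∈ B_t` imply `x ∈ B_t`;
* `coord_ker` : `x ∈ B_t` with `red x = 0` is `c · x'` with `c ∈ 𝔪_A ∖ 0`, `x' ∈ B_t`
  (so `B_t / 𝔪_A B_t ↪ k((q))` is a domain);
* `coord_exists_pow_mul_isIntegralElem` : `y` integral over `A[j]` implies `t^n y ∈ B_t`.
-/

set_option autoImplicit false

open ModularCurve

noncomputable section

namespace Fermat.Agent.Red.GV

open Fermat.Agent.S28 Fermat.Agent.Red.GV.Asm

namespace CoordAbs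

/-- **Lemma B′**: if `j · t^a ∈ A[t]` then every element of `A[j]` becomes an element of `A[t]`
after multiplication by a power of `t`. -/
theorem exists_pow_mul_eq {A L : Type} [CommRing A] [Field L]
    (f g : Polynomial A →+* L) (t : L) (hfX : f Polynomial.X = t)
    (a : ℕ) (R : Polynomial A) (hR : g Polynomial.X * t ^ a = f R)
    (hC : ∀ c : A, g (Polynomial.C c) = f (Polynomial.C c)) (G : Polynomial A) :
    ∃ (n : ℕ) (Q : Polynomial A), t ^ n * g G = f Q := by
  induction G using Polynomial.induction_on with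
  | C c => exact ⟨0, Polynomial.C c, by rw [pow_zero, one_mul, hC]⟩
  | add p q hp hq =>
    obtain ⟨n₁, Q₁, h₁⟩ := hp
    obtain ⟨n₂, Q₂, h₂⟩ := hq
    refine ⟨n₁ + n₂, Polynomial.X ^ n₂ * Q₁ + Polynomial.X ^ n₁ * Q₂, ?_⟩
    rw [map_add, map_add, map_mul, map_mul, map_pow, map_pow, hfX, ← h₁, ← h₂, pow_add]
    ring
  | monomial n c h =>
    obtain ⟨m, Q, hQ⟩ := h
    refine ⟨m + a, Q * R, ?_⟩
    rw [pow_succ, ← mul_assoc, map_mul g, map_mul f, ← hQ, ← hR, pow_add]
    ring

/-- **Lemma B**: if `j · t^a ∈ A[t]` then every element integral over `A[j]` becomes integral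
over `A[t]` after multiplication by a power of `t`. -/
theorem exists_pow_mul_isIntegralElem {A L : Type} [CommRing A] [Field L]
    (f g : Polynomial A →+* L) (t : L) (ht : t ≠ 0) (hfX : f Polynomial.X = t)
    (a : ℕ) (R : Polynomial A) (hR : g Polynomial.X * t ^ a = f R)
    (hC : ∀ c : A, g (Polynomial.C c) = f (Polynomial.C c))
    (x : L) (hx : g.IsIntegralElem x) : ∃ n : ℕ, f.IsIntegralElem (t ^ n * x) := by
  classical
  let algf : Algebra (Polynomial A) L := f.toAlgebra
  have hu : IsUnit (f Polynomial.X) := by rw [hfX]; exact isUnit_iff_ne_zero.2 ht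
  let lift : Localization.Away (Polynomial.X : Polynomial A) →+* L :=
    IsLocalization.Away.lift (Polynomial.X : Polynomial A) hu
  let algm : Algebra (Localization.Away (Polynomial.X : Polynomial A)) L := lift.toAlgebra
  have : IsScalarTower (Polynomial A) (Localization.Away (Polynomial.X : Polynomial A)) L :=
    IsScalarTower.of_algebraMap_eq (fun p => (IsLocalization.Away.lift_eq _ hu p).symm)
  have hlift : ∀ p : Polynomial A, lift (algebraMap _ _ p) = f p :=
    fun p => IsLocalization.Away.lift_eq _ hu p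
  have hinv : lift (IsLocalization.Away.invSelf (Polynomial.X : Polynomial A)) = t⁻¹ := by
    have h1 : lift (IsLocalization.Away.invSelf (Polynomial.X : Polynomial A)) * t = 1 := by
      rw [← hfX, ← hlift, ← map_mul, mul_comm, IsLocalization.Away.mul_invSelf, map_one]
    exact eq_inv_of_mul_eq_one_left h1
  let ψ : Polynomial A →+* Localization.Away (Polynomial.X : Polynomial A) :=
    Polynomial.eval₂RingHom
      ((algebraMap (Polynomial A) (Localization.Away (Polynomial.X : Polynomial A))).comp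
        Polynomial.C)
      (algebraMap _ _ R * (IsLocalization.Away.invSelf (Polynomial.X : Polynomial A)) ^ a)
  have hψ : lift.comp ψ = g := by
    apply Polynomial.ringHom_ext
    · intro c
      simp only [ψ, RingHom.comp_apply, Polynomial.coe_eval₂RingHom, Polynomial.eval₂_C]
      rw [hlift, hC]
    · simp only [ψ, RingHom.comp_apply, Polynomial.coe_eval₂RingHom, Polynomial.eval₂_X]
      rw [map_mul, map_pow, hlift, hinv, ← hR, mul_assoc, ← mul_pow, mul_inv_cancel₀ ht, one_pow,
        mul_one]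
  have hx' : IsIntegral (Localization.Away (Polynomial.X : Polynomial A)) x :=
    Asm.isIntegralElem_of_comp ψ lift x (by rw [hψ]; exact hx)
  obtain ⟨⟨m, n, rfl⟩, hm⟩ := IsIntegral.exists_multiple_integral_of_isLocalization
    (Submonoid.powers (Polynomial.X : Polynomial A)) x hx'
  refine ⟨n, ?_⟩
  have h2 : t ^ n * x = (⟨Polynomial.X ^ n, n, rfl⟩ :
      Submonoid.powers (Polynomial.X : Polynomial A)) • x := by
    rw [Submonoid.smul_def, Algebra.smul_def]
    show t ^ n * x = f (Polynomial.X ^ n) * x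
    rw [map_pow, hfX]
  rw [h2]
  exact hm

/-- multiplication by an element of the base preserves integrality. -/
theorem isIntegralElem_map_mul {A L : Type} [CommRing A] [CommRing L] (f : A →+* L) (p : A)
    (x : L) (hx : f.IsIntegralElem x) : f.IsIntegralElem (f p * x) := by
  let _ := f.toAlgebra
  show IsIntegral A _
  exact (isIntegral_algebraMap (x := p)).mul hx

end CoordAbs

/-- A base coordinate: `t = emb tA` with `t̄ ≠ 0`, transcendental, and `j · t^a = R(t)`. -/
structure IsCoord {K : Type} [Field K] (A : ValuationSubring K) {k : Type} [Field k]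
    (π : A →+* k) (tA : LaurentSeries A) (a : ℕ) (R : Polynomial A) : Prop where
  inj : Function.Injective (evalA A (embA A tA))
  rel : jK K * (embA A tA) ^ a = evalA A (embA A tA) R
  red_ne : redA π tA ≠ 0

section

variable {K : Type} [Field K] [Algebra ℚ K] (A : ValuationSubring K) {k : Type} [Field k]
  (π : A →+* k) (N ℓ : ℕ) [NeZero N] [Fact ℓ.Prime]
  {tA : LaurentSeries A} {a : ℕ} {R : Polynomial A}

omit [Algebra ℚ K] in
theorem IsCoord.ne_zero (ht : IsCoord A π tA a R) : embA A tA ≠ 0 := by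
  intro h
  have h1 : tA = 0 := embA_injective A (by rw [h, map_zero])
  exact ht.red_ne (by rw [h1, map_zero])

omit [Algebra ℚ K] in
/-- `j` is a coordinate (`a = 0`, `R = Y`). -/
theorem isCoord_j : IsCoord A π (jqModC A) 0 Polynomial.X where
  inj := by rw [embA_jqModC]; exact evalA_injective A
  rel := by rw [embA_jqModC, pow_zero, mul_one, Asm.evalA_X]
  red_ne := by rw [redA_jqModC]; exact jqModC_ne_zero_of_nontrivial _

omit [Algebra ℚ K] in
/-- **Lemma B** for a coordinate: integral over `A[j]` implies `t^n · y` integral over `A[t]`. -/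
theorem coord_exists_pow_mul_isIntegralElem (ht : IsCoord A π tA a R) (y : LaurentSeries K)
    (hy : (evalA A (jK K)).IsIntegralElem y) :
    ∃ n : ℕ, (evalA A (embA A tA)).IsIntegralElem ((embA A tA) ^ n * y) :=
  CoordAbs.exists_pow_mul_isIntegralElem (evalA A (embA A tA)) (evalA A (jK K)) (embA A tA)
    (ht.ne_zero A π) (Asm.evalA_X A _) a R (by rw [Asm.evalA_X]; exact ht.rel)
    (fun c => by rw [evalA_C, evalA_C]) y hy

omit [Algebra ℚ K] in
/-- **Lemma B′** for a coordinate. -/
theorem coord_exists_pow_mul_eq (ht : IsCoord A π tA a R) (G : Polynomial A) :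
    ∃ (n : ℕ) (Q : Polynomial A), (embA A tA) ^ n * evalA A (jK K) G = evalA A (embA A tA) Q :=
  CoordAbs.exists_pow_mul_eq (evalA A (embA A tA)) (evalA A (jK K)) (embA A tA)
    (Asm.evalA_X A _) a R (by rw [Asm.evalA_X]; exact ht.rel)
    (fun c => by rw [evalA_C, evalA_C]) G

/-- Elements of `F_K` integral over `A[t]` are Gauss-integral. -/
theorem coord_mem_gaussSubring (hπ : IsResidueMap A π ℓ) (hN : ¬ ℓ ∣ N)
    (tA : LaurentSeries A) (x : FK K N)
    (h : (evalA A (embA A tA)).IsIntegralElem (x : LaurentSeries K)) :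
    x ∈ gaussSubring A π N := by
  obtain ⟨D⟩ := exists_igusaInput N ℓ hN
  exact inOTA_of_isIntegralElem A π N ℓ hπ D tA _ x.2 h

/-- **QEP for the chart of a coordinate `t`.** -/
theorem coord_qep (hπ : IsResidueMap A π ℓ) (hN : ¬ ℓ ∣ N) (ht : IsCoord A π tA a R)
    (x : FK K N) (hx : x ∈ gaussSubring A π N) (c : A) (hc : c ≠ 0)
    (h : (evalA A (embA A tA)).IsIntegralElem (HahnSeries.C (c : K) * (x : LaurentSeries K))) :
    (evalA A (embA A tA)).IsIntegralElem (x : LaurentSeries K) := by
  obtain ⟨D⟩ := exists_igusaInput N ℓ hN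
  obtain ⟨Dn, P, hDn, hrep⟩ := exists_rep_of_inOTA A π N ℓ hπ D _ x.2 hx
  obtain ⟨UA, -, hU, -, -⟩ := exists_UA_newton A π N ℓ hπ D
  have hy : (evalA A (jK K)).IsIntegralElem
      (∑ i : Fin D.I, evalA A (jK K) (P i) * (UK K D.U) ^ (i : ℕ)) :=
    Asm.isIntegralElem_sum_mul_pow _ _ hU _ _
  obtain ⟨n₁, hn₁⟩ := coord_exists_pow_mul_isIntegralElem A π ht _ hy
  obtain ⟨n₂, Q, hQ⟩ := coord_exists_pow_mul_eq A π ht Dn
  have hQ'' : evalA A (embA A tA) (Polynomial.X ^ n₁ * Q) =
      (embA A tA) ^ (n₁ + n₂) * evalA A (jK K) Dn := by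
    rw [map_mul, map_pow, Asm.evalA_X, ← hQ, pow_add]
    ring
  have hne : (Polynomial.X ^ n₁ * Q).map π ≠ 0 := by
    intro h0
    have h1 : evalC tA (Polynomial.X ^ n₁ * Q) = tA ^ (n₁ + n₂) * evalC (jqModC A) Dn := by
      apply embA_injective A
      rw [embA_evalC, hQ'', map_mul, map_pow, embA_evalC_j]
    have h2 := congrArg (redA π) h1
    rw [redA_evalC, h0, map_zero, map_mul, map_pow] at h2
    rcases mul_eq_zero.mp h2.symm with h3 | h3
    · exact ht.red_ne (eq_zero_of_pow_eq_zero h3)
    · exact redA_evalC_j_ne_zero π Dn hDn h3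
  refine isIntegralElem_of_mul_of_mul_val A π hπ.ker_eq (evalA A (embA A tA)) ht.inj c hc
    (Polynomial.X ^ n₁ * Q) hne _ ?_ ?_
  · rwa [evalA_C]
  · rw [hQ'', mul_assoc, hrep, pow_add, mul_assoc, mul_comm ((embA A tA) ^ n₁), mul_assoc]
    have h3 := CoordAbs.isIntegralElem_map_mul (evalA A (embA A tA)) (Polynomial.X ^ n₂) _
      (by rw [mul_comm]; exact hn₁ :
        (evalA A (embA A tA)).IsIntegralElem
          ((∑ i : Fin D.I, evalA A (jK K) (P i) * (UK K D.U) ^ (i : ℕ)) * (embA A tA) ^ n₁))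
    rwa [map_pow, Asm.evalA_X] at h3

/-- **Kernel of the reduction on the chart of a coordinate `t`**: an element of `F_K` integral
over `A[t]` and reducing to zero is a non-unit scalar of `A` times an element integral over
`A[t]`. -/
theorem coord_ker (hπ : IsResidueMap A π ℓ) (hN : ¬ ℓ ∣ N) (ht : IsCoord A π tA a R)
    (x : gaussSubring A π N)
    (hred : gaussRed A π N x = 0) 
    (hint : (evalA A (embA A tA)).IsIntegralElem ((x : FK K N) : LaurentSeries K)) :
    ∃ (c : A) (x' : FK K N), c ≠ 0 ∧ (c : K) ∈ A.nonunits ∧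
      (evalA A (embA A tA)).IsIntegralElem (x' : LaurentSeries K) ∧
      (x : FK K N) = algebraMap K (FK K N) (c : K) * x' := by
  obtain ⟨c, x', hc, hnu, hx', hxx'⟩ := exists_eq_mul_of_gaussRed_eq_zero A π N ℓ hπ hN x hred
  refine ⟨c, x', hc, hnu, ?_, hxx'⟩
  refine coord_qep A π N ℓ hπ hN ht x' hx' c hc ?_
  have h : ((x : FK K N) : LaurentSeries K) =
      ((algebraMap K (FK K N) (c : K) : FK K N) : LaurentSeries K) * (x' : LaurentSeries K) :=
    congrArg Subtype.val hxx'
  rw [coe_algebraMap_FK] at h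
  rwa [← h]

omit [Algebra ℚ K] in
/-- Transcendence of a coordinate follows from the relation `j · t^a = R(t)`. -/
theorem evalA_injective_of_rel (tA : LaurentSeries A) (a : ℕ) (R : Polynomial A)
    (h0 : embA A tA ≠ 0) (rel : jK K * (embA A tA) ^ a = evalA A (embA A tA) R) :
    Function.Injective (evalA A (embA A tA)) := by
  have htr : Transcendental K (embA A tA) := by
    intro halg
    apply h36_transcendental_jK K
    have hmem : embA A tA ∈ algebraicClosure K (LaurentSeries K) :=
      mem_algebraicClosure_iff.2 halg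
    have hR : evalA A (embA A tA) R ∈ algebraicClosure K (LaurentSeries K) := by
      rw [evalA_eq_evalC_map, h8_evalC_eq_aeval]
      exact Polynomial.aeval_mem_adjoin_singleton K _ |> fun h =>
        (Algebra.adjoin_le (S := (algebraicClosure K (LaurentSeries K)).toSubalgebra)
          (Set.singleton_subset_iff.2 hmem)) h
    have hj : jK K = evalA A (embA A tA) R * ((embA A tA) ^ a)⁻¹ := by
      rw [← rel, mul_assoc, mul_inv_cancel₀ (pow_ne_zero _ h0), mul_one]
    rw [hj]
    exact mem_algebraicClosure_iff.1 (mul_mem hR (inv_mem (pow_mem hmem _)))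
  have h := transcendental_iff_injective.mp htr
  intro P Q hPQ
  rw [evalA_eq_evalC_map, evalA_eq_evalC_map, h8_evalC_eq_aeval, h8_evalC_eq_aeval] at hPQ
  exact Polynomial.map_injective _ A.subtype_injective (h hPQ)

omit [Algebra ℚ K] in
/-- Constructor for `IsCoord` without the transcendence hypothesis. -/
theorem isCoord_of_rel (tA : LaurentSeries A) (a : ℕ) (R : Polynomial A)
    (hred : redA π tA ≠ 0) (rel : jK K * (embA A tA) ^ a = evalA A (embA A tA) R) :
    IsCoord A π tA a R where
  inj := by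
    refine evalA_injective_of_rel A tA a R ?_ rel
    intro h
    have h1 : tA = 0 := embA_injective A (by rw [h, map_zero])
    exact hred (by rw [h1, map_zero])
  rel := rel
  red_ne := hred

end

end Fermat.Agent.Red.GV
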