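import Fermat.Agent.Red.GV.Asm4
import Fermat.Agent.S28.PartOne

/-!
# P-RED / GV: the Gauss valuation on `F_K` — exported API

Setting: `K` a field of characteristic `0`, `A` a valuation subring of `K`, `π : A →+* k` its
residue map (`IsResidueMap A π ℓ`), `ℓ` a prime non-unit of `A`, `N` a level prime to `ℓ`,
`F_K = FK K N = laurentBaseChange K (modularFunctionFieldFull N) ⊆ K((q))`.

* `gaussSubring A π N : Subring (FK K N)` — the Gauss-integral elements (`InOTA`).
* `gaussRed A π N : gaussSubring A π N →+* k((q))` — the reduction map.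
* `gaussRing A π N ℓ hπ hN : ValuationSubring (FK K N)` — the same ring as a valuation subring.
* `gaussRed_eq_zero_iff` — the kernel of the reduction is the set of non-units.
* `exists_scalar_mul_unit` — the value group is that of `A`.
* `algebraMap_mem_gaussSubring_iff`, `gaussRed_algebraMap` — constants.
* `gaussRed_of_embA` — on series with coefficients in `A` the reduction is coefficientwise.
* `congOne_iff` — the loose form of "`w ≡ 1`" is equivalent to `red w = 1`.
* `mem_gaussSubring_of_isIntegralElem_fin/inf`, `isIntegralElem_fin/inf_of_mul` — the charts.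
-/

set_option autoImplicit false

open ModularCurve

noncomputable section

namespace Fermat.Agent.Red.GV

open Fermat.Agent.S28 Fermat.Agent.Red.GV.Asm

variable {K : Type} [Field K] [Algebra ℚ K] (A : ValuationSubring K) {k : Type} [Field k]
  (π : A →+* k) (N : ℕ)

/-- The Gauss-integral elements of `F_K`. -/
def gaussSubring : Subring (FK K N) :=
  (OTA A π).comap (FK K N).val.toRingHom

theorem mem_gaussSubring_iff (x : FK K N) :
    x ∈ gaussSubring A π N ↔ InOTA A π (x : LaurentSeries K) :=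
  Iff.rfl

/-- The inclusion of the Gauss-integral elements of `F_K` into `OT`. -/
def gaussIncl : gaussSubring A π N →+* OTA A π :=
  ((FK K N).val.toRingHom.comp (gaussSubring A π N).subtype).codRestrict (OTA A π)
    (fun x => x.2)

@[simp]
theorem coe_gaussIncl (x : gaussSubring A π N) :
    ((gaussIncl A π N x : OTA A π) : LaurentSeries K) = ((x : FK K N) : LaurentSeries K) :=
  rfl

/-- The reduction map of the Gauss valuation. -/
def gaussRed : gaussSubring A π N →+* LaurentSeries k :=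
  (OTA_redT A π).comp (gaussIncl A π N)

/-- Characterisation of the reduction map. -/
theorem gaussRed_spec (x : gaussSubring A π N) (Q : Polynomial A) (y : LaurentSeries A)
    (hQ : Q.map π ≠ 0)
    (hy : embA A y = evalA A (jK K) Q * ((x : FK K N) : LaurentSeries K)) :
    gaussRed A π N x * evalC (jqModC k) (Q.map π) = redA π y :=
  OTA_redT_mul_eq (gaussIncl A π N x) Q y hQ hy

/-- On elements with `A`-integral `q`-expansion the reduction is coefficientwise. -/
theorem gaussRed_of_embA (x : gaussSubring A π N) (y : LaurentSeries A)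
    (hy : embA A y = ((x : FK K N) : LaurentSeries K)) :
    gaussRed A π N x = redA π y :=
  OTA_redT_of_embA (gaussIncl A π N x) y hy

/-- Elements with `A`-integral `q`-expansion are Gauss-integral. -/
theorem mem_gaussSubring_of_embA (x : FK K N) (y : LaurentSeries A)
    (hy : embA A y = (x : LaurentSeries K)) : x ∈ gaussSubring A π N := by
  rw [mem_gaussSubring_iff]
  exact ⟨1, by simp, y, by rw [hy, map_one, one_mul]⟩

theorem coe_algebraMap_FK (a : K) :
    ((algebraMap K (FK K N) a : FK K N) : LaurentSeries K) = HahnSeries.C a := by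
  show algebraMap K (LaurentSeries K) a = HahnSeries.C a
  rw [algebraMap_laurentSeries_eq_single]
  rfl

/-- Constants of `A` are Gauss-integral. -/
theorem algebraMap_mem_gaussSubring (a : A) :
    algebraMap K (FK K N) (a : K) ∈ gaussSubring A π N :=
  mem_gaussSubring_of_embA A π N _ (HahnSeries.C a)
    (by rw [Asm.embA_C, coe_algebraMap_FK])

/-- The reduction of a constant of `A`. -/
theorem gaussRed_algebraMap (a : A) :
    gaussRed A π N ⟨algebraMap K (FK K N) (a : K), algebraMap_mem_gaussSubring A π N a⟩ =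
      HahnSeries.C (π a) := by
  rw [gaussRed_of_embA A π N _ (HahnSeries.C a) (by rw [Asm.embA_C, coe_algebraMap_FK]),
    Asm.redA_C]

section Field

variable (ℓ : ℕ) [NeZero N] [Fact ℓ.Prime]

/-- **Valuation-ring property.** -/
theorem mem_or_inv_mem_gaussSubring (hπ : IsResidueMap A π ℓ) (hN : ¬ ℓ ∣ N) (x : FK K N) :
    x ∈ gaussSubring A π N ∨ x⁻¹ ∈ gaussSubring A π N := by
  obtain ⟨D⟩ := exists_igusaInput N ℓ hN
  exact inOTA_or_inv A π N ℓ hπ D (x : LaurentSeries K) x.2

/-- The Gauss valuation subring of `F_K`. -/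
def gaussRing (hπ : IsResidueMap A π ℓ) (hN : ¬ ℓ ∣ N) : ValuationSubring (FK K N) :=
  { gaussSubring A π N with
    mem_or_inv_mem' := mem_or_inv_mem_gaussSubring A π N ℓ hπ hN }

@[simp]
theorem gaussRing_toSubring (hπ : IsResidueMap A π ℓ) (hN : ¬ ℓ ∣ N) :
    (gaussRing A π N ℓ hπ hN).toSubring = gaussSubring A π N :=
  rfl

theorem mem_gaussRing_iff (hπ : IsResidueMap A π ℓ) (hN : ¬ ℓ ∣ N) (x : FK K N) :
    x ∈ gaussRing A π N ℓ hπ hN ↔ InOTA A π (x : LaurentSeries K) :=
  Iff.rfl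

/-- A Gauss-integral element with nonzero reduction is a Gauss unit. -/
theorem inv_mem_gaussSubring_of_gaussRed_ne_zero (hπ : IsResidueMap A π ℓ) (hN : ¬ ℓ ∣ N)
    (x : gaussSubring A π N) (hx : gaussRed A π N x ≠ 0) :
    (x : FK K N)⁻¹ ∈ gaussSubring A π N := by
  obtain ⟨D⟩ := exists_igusaInput N ℓ hN
  have hx0 : ((x : FK K N) : LaurentSeries K) ≠ 0 := by
    intro h
    apply hx
    have : x = 0 := Subtype.ext (Subtype.ext h)
    rw [this, map_zero]
  obtain ⟨c, Dn, P, bb, hc, hDn, hbb, -, hrep⟩ :=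
    exists_gauss_rep A π N ℓ hπ D _ (x : FK K N).2 hx0
  have hcA : c⁻¹ ∈ A := (inOTA_iff_of_rep A π hπ.ker_eq _ c hc Dn hDn bb hbb hrep).1 x.2
  have hspec := gaussRed_spec A π N x Dn _ hDn (rep_of_inv_mem A _ c hc hcA Dn bb hrep).symm
  rw [mem_gaussSubring_iff]
  show InOTA A π ((x : FK K N) : LaurentSeries K)⁻¹
  rw [inOTA_inv_iff_of_rep A π N ℓ hπ D _ (x : FK K N).2 hx0 c hc Dn hDn bb hbb hrep]
  by_contra hcn
  have hnu := inv_mem_nonunits_of_notMem A c hcn
  rw [redA_C_mul_of_nonunit π hπ.ker_eq ⟨c⁻¹, hcA⟩ hnu] at hspec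
  rcases mul_eq_zero.mp hspec with h | h
  · exact hx h
  · exact evalC_jqModC_ne_zero k _ hDn h

/-- **The kernel of the reduction is the set of non-units**: a Gauss-integral element reduces
to zero iff its inverse is not Gauss-integral (or it is zero). -/
theorem gaussRed_eq_zero_iff (hπ : IsResidueMap A π ℓ) (hN : ¬ ℓ ∣ N)
    (x : gaussSubring A π N) :
    gaussRed A π N x = 0 ↔ (x : FK K N) = 0 ∨ (x : FK K N)⁻¹ ∉ gaussSubring A π N := by
  constructor
  · intro h
    by_cases hx0 : (x : FK K N) = 0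
    · exact Or.inl hx0
    · right
      intro hinv
      have h1 : x * ⟨(x : FK K N)⁻¹, hinv⟩ = 1 := Subtype.ext (mul_inv_cancel₀ hx0)
      have h2 := congrArg (gaussRed A π N) h1
      rw [map_mul, h, zero_mul, map_one] at h2
      exact zero_ne_one h2
  · rintro (h | h)
    · have : x = 0 := Subtype.ext h
      rw [this, map_zero]
    · by_contra hne
      exact h (inv_mem_gaussSubring_of_gaussRed_ne_zero A π N ℓ hπ hN x hne)

/-- The kernel of the reduction, in terms of the valuation subring. -/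
theorem gaussRed_eq_zero_iff_mem_nonunits (hπ : IsResidueMap A π ℓ) (hN : ¬ ℓ ∣ N)
    (x : gaussSubring A π N) :
    gaussRed A π N x = 0 ↔ (x : FK K N) ∈ (gaussRing A π N ℓ hπ hN).nonunits := by
  rw [gaussRed_eq_zero_iff A π N ℓ hπ hN, ValuationSubring.mem_nonunits_iff]
  constructor
  · rintro (h | h)
    · rw [h, map_zero]
      exact zero_lt_one
    · have h1 : ¬ (gaussRing A π N ℓ hπ hN).valuation (x : FK K N)⁻¹ ≤ 1 := fun hle =>
        h (((gaussRing A π N ℓ hπ hN).valuation_le_one_iff _).1 hle)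
      rw [not_le, map_inv₀] at h1
      by_cases hx0 : (gaussRing A π N ℓ hπ hN).valuation (x : FK K N) = 0
      · rw [hx0]; exact zero_lt_one
      · exact (one_lt_inv₀ (zero_lt_iff.2 hx0)).1 h1
  · intro h
    by_cases hx0 : (x : FK K N) = 0
    · exact Or.inl hx0
    · right
      intro hinv
      have h2 : (gaussRing A π N ℓ hπ hN).valuation (x : FK K N)⁻¹ ≤ 1 :=
        ((gaussRing A π N ℓ hπ hN).valuation_le_one_iff _).2 hinv
      have h3 : (gaussRing A π N ℓ hπ hN).valuation (x : FK K N) *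
          (gaussRing A π N ℓ hπ hN).valuation (x : FK K N)⁻¹ = 1 := by
        rw [← map_mul, mul_inv_cancel₀ hx0, map_one]
      have h4 : (gaussRing A π N ℓ hπ hN).valuation (x : FK K N) *
          (gaussRing A π N ℓ hπ hN).valuation (x : FK K N)⁻¹ < 1 := by
        calc _ ≤ (gaussRing A π N ℓ hπ hN).valuation (x : FK K N) * 1 := by gcongr
          _ = _ := mul_one _
          _ < 1 := h
      exact absurd h3 (ne_of_lt h4)

/-- **The value group of the Gauss valuation is that of `A`.** -/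
theorem exists_scalar_mul_unit (hπ : IsResidueMap A π ℓ) (hN : ¬ ℓ ∣ N) (x : FK K N)
    (hx : x ≠ 0) :
    ∃ c : K, c ≠ 0 ∧ algebraMap K (FK K N) c * x ∈ gaussSubring A π N ∧
      (algebraMap K (FK K N) c * x)⁻¹ ∈ gaussSubring A π N := by
  obtain ⟨D⟩ := exists_igusaInput N ℓ hN
  have hx0 : (x : LaurentSeries K) ≠ 0 := fun h => hx (Subtype.ext h)
  obtain ⟨c, hc, h1, h2⟩ := exists_scalar_unit A π N ℓ hπ D (x : LaurentSeries K) x.2 hx0
  refine ⟨c, hc, ?_, ?_⟩
  · rw [mem_gaussSubring_iff]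
    show InOTA A π (((algebraMap K (FK K N) c : FK K N) : LaurentSeries K) * _)
    rwa [coe_algebraMap_FK]
  · rw [mem_gaussSubring_iff]
    show InOTA A π (((algebraMap K (FK K N) c : FK K N) : LaurentSeries K) * _)⁻¹
    rwa [coe_algebraMap_FK]

omit [NeZero N] [Fact ℓ.Prime] in
/-- A constant is Gauss-integral iff it lies in `A`. -/
theorem algebraMap_mem_gaussSubring_iff (hπ : IsResidueMap A π ℓ) (a : K) :
    algebraMap K (FK K N) a ∈ gaussSubring A π N ↔ a ∈ A := by
  constructor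
  · intro h
    by_contra ha
    have ha0 : a ≠ 0 := fun h0 => ha (h0 ▸ A.zero_mem)
    have hinv := inv_mem_nonunits_of_notMem A a ha
    have hrep : HahnSeries.C a⁻¹ * (evalA A (jK K) 1 * HahnSeries.C a) =
        embA A (1 : LaurentSeries A) := by
      rw [map_one, one_mul, ← map_mul, inv_mul_cancel₀ ha0, map_one, map_one]
    rw [mem_gaussSubring_iff, coe_algebraMap_FK] at h
    exact not_inOTA_of_rep A π hπ.ker_eq _ a⁻¹ hinv 1 1
      (by rw [map_one]; exact one_ne_zero) hrep h
  · intro h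
    exact algebraMap_mem_gaussSubring A π N ⟨a, h⟩

omit [NeZero N] [Fact ℓ.Prime] in
/-- Compatibility of the reduction with an arbitrary fraction of series over `A`:
if `emb a = x · emb b` then `red x · b̄ = ā`. -/
theorem gaussRed_mul_redA (x : gaussSubring A π N) (a b : LaurentSeries A)
    (h : embA A a = ((x : FK K N) : LaurentSeries K) * embA A b) :
    gaussRed A π N x * redA π b = redA π a := by
  have hb : embA A b ∈ OTA A π := ⟨1, by simp, b, by rw [map_one, one_mul]⟩
  have ha : embA A a ∈ OTA A π := ⟨1, by simp, a, by rw [map_one, one_mul]⟩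
  have h1 : gaussIncl A π N x * ⟨embA A b, hb⟩ = ⟨embA A a, ha⟩ := Subtype.ext h.symm
  have h2 := congrArg (OTA_redT A π) h1
  rw [map_mul, OTA_redT_of_embA ⟨embA A b, hb⟩ b rfl, OTA_redT_of_embA ⟨embA A a, ha⟩ a rfl]
    at h2
  exact h2

/-- A fraction `a / b` of series over `A` with `b ≢ 0 mod 𝔪` which lies in `F_K` is
Gauss-integral. -/
theorem mem_gaussSubring_of_frac (hπ : IsResidueMap A π ℓ) (hN : ¬ ℓ ∣ N) (w : FK K N)
    (a b : LaurentSeries A) (hb : redA π b ≠ 0)
    (h : embA A a = (w : LaurentSeries K) * embA A b) : w ∈ gaussSubring A π N := by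
  obtain ⟨D⟩ := exists_igusaInput N ℓ hN
  rw [mem_gaussSubring_iff]
  by_cases hw0 : (w : LaurentSeries K) = 0
  · rw [hw0]; exact inOTA_zero A π
  obtain ⟨c, Dn, P, bb, hc, hDn, hbb, -, hrep⟩ := exists_gauss_rep A π N ℓ hπ D _ w.2 hw0
  rw [inOTA_iff_of_rep A π hπ.ker_eq _ c hc Dn hDn bb hbb hrep]
  by_contra hcn
  have hnu := inv_mem_nonunits_of_notMem A c⁻¹ hcn
  rw [inv_inv] at hnu
  have hcA : c ∈ A := mem_of_mem_nonunits A c hnu
  have h1 : HahnSeries.C (⟨c, hcA⟩ : A) * (evalC (jqModC A) Dn * a) = bb * b := by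
    apply embA_injective A
    rw [embA_C_mul, map_mul, map_mul, embA_evalC_j, h, ← hrep]
    ring
  have h2 := congrArg (redA π) h1
  rw [redA_C_mul_of_nonunit π hπ.ker_eq _ hnu, map_mul] at h2
  rcases mul_eq_zero.mp h2.symm with h3 | h3
  · exact hbb h3
  · exact hb h3

/-- **`w ≡ 1` modulo the Gauss valuation, loose form.**  For `w ∈ F_K`: `w = a / b` with
`a, b` series over `A`, `b ≢ 0` and `a ≡ b mod 𝔪`, iff `w` is Gauss-integral with
reduction `1`. -/
theorem congOne_iff (hπ : IsResidueMap A π ℓ) (hN : ¬ ℓ ∣ N) (w : FK K N) :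
    (∃ a b : LaurentSeries A, redA π b ≠ 0 ∧
        embA A a = (w : LaurentSeries K) * embA A b ∧ redA π a = redA π b) ↔
      ∃ h : w ∈ gaussSubring A π N, gaussRed A π N ⟨w, h⟩ = 1 := by
  constructor
  · rintro ⟨a, b, hb, hab, hred⟩
    have hw := mem_gaussSubring_of_frac A π N ℓ hπ hN w a b hb hab
    refine ⟨hw, ?_⟩
    have h1 := gaussRed_mul_redA A π N ⟨w, hw⟩ a b hab
    rw [hred] at h1
    exact mul_right_cancel₀ hb (h1.trans (one_mul _).symm)
  · rintro ⟨hw, hred⟩
    obtain ⟨Q, hQ, y, hy⟩ := (mem_gaussSubring_iff A π N w).1 hw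
    refine ⟨y, evalC (jqModC A) Q, redA_evalC_j_ne_zero π Q hQ, ?_, ?_⟩
    · rw [hy, embA_evalC_j, mul_comm]
    · have h1 := gaussRed_spec A π N ⟨w, hw⟩ Q y hQ hy
      rw [hred, one_mul] at h1
      rw [← h1, redA_evalC_j]

/-! ### The two charts -/

/-- Elements of `F_K` integral over `A[j]` are Gauss-integral. -/
theorem mem_gaussSubring_of_isIntegralElem_fin (hπ : IsResidueMap A π ℓ) (hN : ¬ ℓ ∣ N)
    (x : FK K N) (h : (evalA A (jK K)).IsIntegralElem (x : LaurentSeries K)) :
    x ∈ gaussSubring A π N := by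
  obtain ⟨D⟩ := exists_igusaInput N ℓ hN
  exact inOTA_of_isIntegralElem_fin A π N ℓ hπ D _ x.2 h

/-- Elements of `F_K` integral over `A[1/j]` are Gauss-integral. -/
theorem mem_gaussSubring_of_isIntegralElem_inf (hπ : IsResidueMap A π ℓ) (hN : ¬ ℓ ∣ N)
    (x : FK K N) (h : (evalA A (jK K)⁻¹).IsIntegralElem (x : LaurentSeries K)) :
    x ∈ gaussSubring A π N := by
  obtain ⟨D⟩ := exists_igusaInput N ℓ hN
  exact inOTA_of_isIntegralElem_inf A π N ℓ hπ D _ x.2 h

/-- **QEP, finite chart**: a Gauss-integral `x ∈ F_K` such that `c·x` is integral over `A[j]`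
for some nonzero `c ∈ A` is integral over `A[j]`. -/
theorem isIntegralElem_fin_of_mul (hπ : IsResidueMap A π ℓ) (hN : ¬ ℓ ∣ N)
    (x : FK K N) (hx : x ∈ gaussSubring A π N) (c : A) (hc : c ≠ 0)
    (h : (evalA A (jK K)).IsIntegralElem (HahnSeries.C (c : K) * (x : LaurentSeries K))) :
    (evalA A (jK K)).IsIntegralElem (x : LaurentSeries K) := by
  obtain ⟨D⟩ := exists_igusaInput N ℓ hN
  exact core_fin_val A π N ℓ hπ D _ x.2 hx c hc h

/-- **QEP, chart at infinity**. -/
theorem isIntegralElem_inf_of_mul (hπ : IsResidueMap A π ℓ) (hN : ¬ ℓ ∣ N)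
    (x : FK K N) (hx : x ∈ gaussSubring A π N) (c : A) (hc : c ≠ 0)
    (h : (evalA A (jK K)⁻¹).IsIntegralElem (HahnSeries.C (c : K) * (x : LaurentSeries K))) :
    (evalA A (jK K)⁻¹).IsIntegralElem (x : LaurentSeries K) := by
  obtain ⟨D⟩ := exists_igusaInput N ℓ hN
  exact core_inf_val A π N ℓ hπ D _ x.2 hx c hc h

/-- A Gauss-integral element reducing to zero is a non-unit scalar of `A` times a
Gauss-integral element. -/
theorem exists_eq_mul_of_gaussRed_eq_zero (hπ : IsResidueMap A π ℓ) (hN : ¬ ℓ ∣ N)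
    (x : gaussSubring A π N) (hred : gaussRed A π N x = 0) :
    ∃ (c : A) (x' : FK K N), c ≠ 0 ∧ (c : K) ∈ A.nonunits ∧ x' ∈ gaussSubring A π N ∧
      (x : FK K N) = algebraMap K (FK K N) (c : K) * x' := by
  obtain ⟨D⟩ := exists_igusaInput N ℓ hN
  by_cases hx0 : ((x : FK K N) : LaurentSeries K) = 0
  · have hℓ0 : (ℓ : K) ≠ 0 := by
      have h := (Nat.cast_ne_zero (R := ℚ)).2 (Fact.out : ℓ.Prime).ne_zero
      have h2 : algebraMap ℚ K (ℓ : ℚ) ≠ 0 := fun h0 =>
        h ((algebraMap ℚ K).injective (by rw [h0, map_zero]))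
      rwa [map_natCast] at h2
    refine ⟨⟨(ℓ : K), mem_of_mem_nonunits A _ hπ.natCast_mem⟩, 0, ?_, hπ.natCast_mem,
      (gaussSubring A π N).zero_mem, ?_⟩
    · intro h
      exact hℓ0 (congrArg Subtype.val h)
    · rw [mul_zero]
      exact Subtype.ext hx0
  obtain ⟨c, Dn, P, bb, hc, hDn, hbb, -, hrep⟩ :=
    exists_gauss_rep A π N ℓ hπ D _ (x : FK K N).2 hx0
  have hcA : c⁻¹ ∈ A := (inOTA_iff_of_rep A π hπ.ker_eq _ c hc Dn hDn bb hbb hrep).1 x.2
  have hspec := gaussRed_spec A π N x Dn _ hDn (rep_of_inv_mem A _ c hc hcA Dn bb hrep).symm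
  rw [hred, zero_mul, redA_C_mul] at hspec
  have hπc : π ⟨c⁻¹, hcA⟩ = 0 := by
    rcases mul_eq_zero.mp hspec.symm with h | h
    · exact (map_eq_zero (HahnSeries.C : k →+* LaurentSeries k)).1 h
    · exact absurd h hbb
  have hnu : c⁻¹ ∈ A.nonunits := (hπ.ker_eq ⟨c⁻¹, hcA⟩).1 hπc
  refine ⟨⟨c⁻¹, hcA⟩, algebraMap K (FK K N) c * (x : FK K N), ?_, hnu, ?_, ?_⟩
  · intro h
    exact inv_ne_zero hc (congrArg Subtype.val h)
  · have hrep1 : HahnSeries.C (1 : K) * (evalA A (jK K) Dn *
        (HahnSeries.C c * ((x : FK K N) : LaurentSeries K))) = embA A bb := by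
      rw [map_one, one_mul, ← hrep]
      ring
    rw [mem_gaussSubring_iff]
    show InOTA A π (((algebraMap K (FK K N) c : FK K N) : LaurentSeries K) * _)
    rw [coe_algebraMap_FK, inOTA_iff_of_rep A π hπ.ker_eq _ 1 one_ne_zero Dn hDn bb hbb hrep1,
      inv_one]
    exact A.one_mem
  · rw [← mul_assoc, ← map_mul, inv_mul_cancel₀ hc, map_one, one_mul]

/-- **Kernel of the reduction on the finite chart**: an element of `F_K` integral over `A[j]`
and reducing to zero is a non-unit scalar of `A` times an element integral over `A[j]`. -/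
theorem exists_eq_mul_of_gaussRed_eq_zero_fin (hπ : IsResidueMap A π ℓ) (hN : ¬ ℓ ∣ N)
    (x : gaussSubring A π N)
    (hint : (evalA A (jK K)).IsIntegralElem ((x : FK K N) : LaurentSeries K))
    (hred : gaussRed A π N x = 0) :
    ∃ (c : A) (x' : FK K N), c ≠ 0 ∧ (c : K) ∈ A.nonunits ∧
      (evalA A (jK K)).IsIntegralElem (x' : LaurentSeries K) ∧
      (x : FK K N) = algebraMap K (FK K N) (c : K) * x' := by
  obtain ⟨c, x', hc, hnu, hx', hxx'⟩ := exists_eq_mul_of_gaussRed_eq_zero A π N ℓ hπ hN x hred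
  refine ⟨c, x', hc, hnu, ?_, hxx'⟩
  refine isIntegralElem_fin_of_mul A π N ℓ hπ hN x' hx' c hc ?_
  have h : ((x : FK K N) : LaurentSeries K) =
      ((algebraMap K (FK K N) (c : K) : FK K N) : LaurentSeries K) * (x' : LaurentSeries K) :=
    congrArg Subtype.val hxx'
  rw [coe_algebraMap_FK] at h
  rwa [← h]

/-- **Kernel of the reduction on the chart at infinity**. -/
theorem exists_eq_mul_of_gaussRed_eq_zero_inf (hπ : IsResidueMap A π ℓ) (hN : ¬ ℓ ∣ N)
    (x : gaussSubring A π N)
    (hint : (evalA A (jK K)⁻¹).IsIntegralElem ((x : FK K N) : LaurentSeries K))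
    (hred : gaussRed A π N x = 0) :
    ∃ (c : A) (x' : FK K N), c ≠ 0 ∧ (c : K) ∈ A.nonunits ∧
      (evalA A (jK K)⁻¹).IsIntegralElem (x' : LaurentSeries K) ∧
      (x : FK K N) = algebraMap K (FK K N) (c : K) * x' := by
  obtain ⟨c, x', hc, hnu, hx', hxx'⟩ := exists_eq_mul_of_gaussRed_eq_zero A π N ℓ hπ hN x hred
  refine ⟨c, x', hc, hnu, ?_, hxx'⟩
  refine isIntegralElem_inf_of_mul A π N ℓ hπ hN x' hx' c hc ?_
  have h : ((x : FK K N) : LaurentSeries K) =
      ((algebraMap K (FK K N) (c : K) : FK K N) : LaurentSeries K) * (x' : LaurentSeries K) :=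
    congrArg Subtype.val hxx'
  rw [coe_algebraMap_FK] at h
  rwa [← h]

end Field

end Fermat.Agent.Red.GV
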