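import Fermat.Agent.Red.GV.Series
import Fermat.Agent.S05.RealOrdExists

/-!
# P-RED / GV (soft form), part 1: discreteness of the valuation on finitely generated modules

Let `K` be a field of characteristic zero, `A` a valuation subring over a prime `q`, with its
normalised real-valued `ord` (`S05/RealOrd.lean`).

* `ord_mul_factorial_int` : if `y ≠ 0` is algebraic over `ℚ` of degree `≤ D`, then
  `D! * ord y ∈ ℤ`.
* `IsDisc x` : the coefficients of the Laurent series `x` lie in a finitely generated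
  `ℤ`-submodule of `K`.
* `IsDisc.exists_min` : a nonzero discrete series has a coefficient of minimal `ord`
  (the Gauss norm is attained).
-/

set_option autoImplicit false
set_option linter.unusedSectionVars false

open ModularCurve

noncomputable section

namespace Fermat.Agent.Red.GV.Soft

open Fermat.Agent.S05 Fermat.Agent.Red.GV

section Ord

variable {K : Type*} [Field K] [CharZero K] [Algebra ℚ K] {A : ValuationSubring K} {q : ℕ}
  {ord : K → ℝ}

/-- the `ord` of a nonzero integer is a natural number. -/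
theorem ord_intCast (h : RO.IsOrd A q ord) (hq : q.Prime) {c : ℤ} (hc : c ≠ 0) :
    ∃ k : ℕ, ord (c : K) = k := by
  obtain ⟨k, hk⟩ := RO.val_intCast_eq_pow hq h.q_nonunit hc
  refine ⟨k, ?_⟩
  have hc0 : (c : K) ≠ 0 := by exact_mod_cast hc
  have h1 : ord (c : K) = ord ((q : K) ^ k) := by
    rw [h.eq_iff hc0 (pow_ne_zero _ h.q_ne_zero), hk, map_pow]
  rw [h1, h.map_q_pow]

/-- the `ord` of a nonzero rational number is an integer. -/
theorem ord_ratCast (h : RO.IsOrd A q ord) (hq : q.Prime) {r : ℚ} (hr : r ≠ 0) :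
    ∃ z : ℤ, ord (algebraMap ℚ K r) = z := by
  have hnum : r.num ≠ 0 := Rat.num_ne_zero.mpr hr
  have hden : (r.den : ℤ) ≠ 0 := by exact_mod_cast r.den_ne_zero
  obtain ⟨a, ha⟩ := ord_intCast h hq hnum
  obtain ⟨b, hb⟩ := ord_intCast h hq hden
  refine ⟨(a : ℤ) - b, ?_⟩
  have h1 : algebraMap ℚ K r = ((r.num : ℤ) : K) / (((r.den : ℤ)) : K) := by
    rw [eq_ratCast]
    conv_lhs => rw [← Rat.num_div_den r]
    push_cast
    rfl
  have hn0 : ((r.num : ℤ) : K) ≠ 0 := by exact_mod_cast hnum
  have hd0 : (((r.den : ℤ)) : K) ≠ 0 := by exact_mod_cast hden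
  rw [h1, h.map_div hn0 hd0, ha, hb]
  push_cast
  ring

/-- ultrametric inequality for finite sums. -/
theorem le_ord_sum (h : RO.IsOrd A q ord) {ι : Type*} (s : Finset ι) (t : ι → K) (c : ℝ)
    (ht : ∀ i ∈ s, t i ≠ 0 → c ≤ ord (t i)) (h0 : ∑ i ∈ s, t i ≠ 0) :
    c ≤ ord (∑ i ∈ s, t i) := by
  classical
  induction s using Finset.induction_on with
  | empty => simp at h0
  | insert a s ha ih =>
    rw [Finset.sum_insert ha] at h0 ⊢
    by_cases h1 : t a = 0
    · rw [h1, zero_add] at h0 ⊢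
      exact ih (fun i hi => ht i (Finset.mem_insert_of_mem hi)) h0
    by_cases h2 : ∑ i ∈ s, t i = 0
    · rw [h2, add_zero]
      exact ht a (Finset.mem_insert_self a s) h1
    · have h3 := ih (fun i hi => ht i (Finset.mem_insert_of_mem hi)) h2
      have h4 := ht a (Finset.mem_insert_self a s) h1
      exact (le_min h4 h3).trans (h.min_le_add h0)

/-- in a vanishing finite sum of nonzero terms, two distinct terms have the same `ord`. -/
theorem exists_pair_of_sum_eq_zero (h : RO.IsOrd A q ord) {ι : Type*} (s : Finset ι)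
    (t : ι → K) (ht : ∀ i ∈ s, t i ≠ 0) (hs : s.Nonempty) (h0 : ∑ i ∈ s, t i = 0) :
    ∃ i ∈ s, ∃ j ∈ s, i ≠ j ∧ ord (t i) = ord (t j) := by
  classical
  obtain ⟨i, hi, hmin⟩ := Finset.exists_min_image s (fun i => ord (t i)) hs
  have hsum : ∑ j ∈ s.erase i, t j = -t i := by
    have := Finset.add_sum_erase s t hi
    rw [h0] at this
    linear_combination this
  have hne : ∑ j ∈ s.erase i, t j ≠ 0 := by
    rw [hsum]
    exact neg_ne_zero.mpr (ht i hi)
  have hne' : (s.erase i).Nonempty := by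
    by_contra hemp
    rw [Finset.not_nonempty_iff_eq_empty] at hemp
    rw [hemp, Finset.sum_empty] at hne
    exact hne rfl
  obtain ⟨j, hj, hjmin⟩ := Finset.exists_min_image (s.erase i) (fun i => ord (t i)) hne'
  refine ⟨i, hi, j, Finset.mem_of_mem_erase hj, (Finset.ne_of_mem_erase hj).symm, ?_⟩
  apply le_antisymm (hmin j (Finset.mem_of_mem_erase hj))
  have h5 := le_ord_sum h (s.erase i) t (ord (t j)) (fun k hk _ => hjmin k hk) hne
  rw [hsum, h.map_neg] at h5
  exact h5

/-- **Discreteness.**  If `y ≠ 0` is a root of a nonzero rational polynomial of degree `≤ D`,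
then `D! * ord y` is an integer. -/
theorem ord_mul_factorial_int (h : RO.IsOrd A q ord) (hq : q.Prime) {y : K} (hy : y ≠ 0)
    (p : Polynomial ℚ) (hp : p ≠ 0) (hroot : Polynomial.aeval y p = 0) (D : ℕ)
    (hD : p.natDegree ≤ D) : ∃ z : ℤ, (D.factorial : ℝ) * ord y = z := by
  classical
  have hsum : ∑ i ∈ p.support, algebraMap ℚ K (p.coeff i) * y ^ i = 0 := by
    rw [Polynomial.aeval_eq_sum_range, ] at hroot
    rw [← hroot]
    rw [Finset.sum_subset (s₁ := p.support) (s₂ := Finset.range (p.natDegree + 1))]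
    · refine Finset.sum_congr rfl fun i _ => ?_
      rw [Algebra.smul_def]
    · intro i hi
      rw [Finset.mem_range]
      exact Nat.lt_succ_of_le (Polynomial.le_natDegree_of_mem_supp i hi)
    · intro i _ hi
      rw [Polynomial.notMem_support_iff.mp hi]
      simp
  have hnz : ∀ i ∈ p.support, algebraMap ℚ K (p.coeff i) * y ^ i ≠ 0 := by
    intro i hi
    refine mul_ne_zero ?_ (pow_ne_zero _ hy)
    rw [Ne, map_eq_zero_iff _ (algebraMap ℚ K).injective]
    exact Polynomial.mem_support_iff.mp hi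
  have hsne : p.support.Nonempty := Polynomial.nonempty_support_iff.mpr hp
  obtain ⟨i, hi, j, hj, hij, heq⟩ := exists_pair_of_sum_eq_zero h p.support _ hnz hsne hsum
  have hci : algebraMap ℚ K (p.coeff i) ≠ 0 := by
    rw [Ne, map_eq_zero_iff _ (algebraMap ℚ K).injective]
    exact Polynomial.mem_support_iff.mp hi
  have hcj : algebraMap ℚ K (p.coeff j) ≠ 0 := by
    rw [Ne, map_eq_zero_iff _ (algebraMap ℚ K).injective]
    exact Polynomial.mem_support_iff.mp hj
  obtain ⟨a, ha⟩ := ord_ratCast (K := K) h hq (Polynomial.mem_support_iff.mp hi)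
  obtain ⟨b, hb⟩ := ord_ratCast (K := K) h hq (Polynomial.mem_support_iff.mp hj)
  rw [h.map_mul hci (pow_ne_zero _ hy), h.map_mul hcj (pow_ne_zero _ hy), h.map_pow, h.map_pow,
    ha, hb] at heq
  -- `(i - j) * ord y = b - a`
  have hiD : i ≤ D := (Polynomial.le_natDegree_of_mem_supp i hi).trans hD
  have hjD : j ≤ D := (Polynomial.le_natDegree_of_mem_supp j hj).trans hD
  have key : ∀ (m n : ℕ) (u w : ℤ), m < n → n ≤ D → (u : ℝ) + m * ord y = w + n * ord y →
      ∃ z : ℤ, (D.factorial : ℝ) * ord y = z := by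
    intro m n u w hmn hnD hE
    have hd : (n - m) ∣ D.factorial :=
      Nat.dvd_factorial (Nat.sub_pos_of_lt hmn) ((Nat.sub_le n m).trans hnD)
    obtain ⟨e, he⟩ := hd
    refine ⟨(e : ℤ) * (u - w), ?_⟩
    have h1 : ((n - m : ℕ) : ℝ) * ord y = u - w := by
      rw [Nat.cast_sub hmn.le]
      linear_combination -hE
    rw [he]
    push_cast
    rw [mul_comm ((n - m : ℕ) : ℝ) (e : ℝ), mul_assoc, h1]
  rcases Nat.lt_or_gt_of_ne hij with hlt | hgt
  · exact key i j a b hlt hjD heq
  · exact key j i b a hgt hiD heq.symm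

end Ord

section Disc

open scoped Pointwise

variable {K : Type*} [Field K] [CharZero K] [Algebra ℚ K]

/-- the coefficients of `x` lie in a finitely generated `ℤ`-submodule of `K`. -/
def IsDisc (x : LaurentSeries K) : Prop :=
  ∃ s : Finset K, ∀ n : ℤ, x.coeff n ∈ Submodule.span ℤ (s : Set K)

theorem isDisc_zero : IsDisc (0 : LaurentSeries K) :=
  ⟨∅, fun n => by simp⟩

theorem isDisc_C (c : K) : IsDisc (HahnSeries.C c : LaurentSeries K) := by
  classical
  refine ⟨{c}, fun n => ?_⟩
  rw [HahnSeries.C_apply, HahnSeries.coeff_single]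
  split_ifs
  · exact Submodule.subset_span (by simp)
  · exact zero_mem _

theorem isDisc_one : IsDisc (1 : LaurentSeries K) := by
  have := isDisc_C (1 : K)
  rwa [map_one] at this

theorem IsDisc.add {x y : LaurentSeries K} (hx : IsDisc x) (hy : IsDisc y) :
    IsDisc (x + y) := by
  classical
  obtain ⟨s, hs⟩ := hx
  obtain ⟨t, ht⟩ := hy
  refine ⟨s ∪ t, fun n => ?_⟩
  rw [HahnSeries.coeff_add]
  refine add_mem ?_ ?_
  · exact Submodule.span_mono (by simp) (hs n)
  · exact Submodule.span_mono (by simp) (ht n)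

theorem IsDisc.neg {x : LaurentSeries K} (hx : IsDisc x) : IsDisc (-x) := by
  obtain ⟨s, hs⟩ := hx
  refine ⟨s, fun n => ?_⟩
  rw [HahnSeries.coeff_neg]
  exact neg_mem (hs n)

theorem IsDisc.mul {x y : LaurentSeries K} (hx : IsDisc x) (hy : IsDisc y) :
    IsDisc (x * y) := by
  classical
  obtain ⟨s, hs⟩ := hx
  obtain ⟨t, ht⟩ := hy
  refine ⟨s * t, fun n => ?_⟩
  rw [HahnSeries.coeff_mul]
  refine Submodule.sum_mem _ fun ij _ => ?_
  have h1 : x.coeff ij.1 * y.coeff ij.2 ∈
      Submodule.span ℤ (s : Set K) * Submodule.span ℤ (t : Set K) :=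
    Submodule.mul_mem_mul (hs _) (ht _)
  rw [Submodule.span_mul_span] at h1
  rwa [Finset.coe_mul]

theorem isDisc_coeffMap_int (y : LaurentSeries ℤ) :
    IsDisc (coeffMap (Int.castRingHom K) y) := by
  classical
  refine ⟨{1}, fun n => ?_⟩
  rw [coeffMap_coeff]
  have : ((Int.castRingHom K) (y.coeff n)) = (y.coeff n) • (1 : K) := by simp
  rw [this]
  exact Submodule.smul_mem _ _ (Submodule.subset_span (by simp))

variable {A : ValuationSubring K} {q : ℕ} {ord : K → ℝ}

/-- **The Gauss norm of a nonzero discrete series is attained.** -/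
theorem IsDisc.exists_min [Algebra.IsAlgebraic ℚ K] (h : RO.IsOrd A q ord) (hq : q.Prime)
    {x : LaurentSeries K} (hx : IsDisc x) (hx0 : x ≠ 0) :
    ∃ n₁ : ℤ, x.coeff n₁ ≠ 0 ∧ ∀ n : ℤ, x.coeff n ≠ 0 → ord (x.coeff n₁) ≤ ord (x.coeff n) := by
  classical
  obtain ⟨s, hs⟩ := hx
  -- the number field generated by `s`
  set L₀ : IntermediateField ℚ K := IntermediateField.adjoin ℚ (s : Set K) with hL₀
  have : FiniteDimensional ℚ L₀ :=
    IntermediateField.finiteDimensional_adjoin
      (fun c _ => (Algebra.IsAlgebraic.isAlgebraic c).isIntegral)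
  set D : ℕ := Module.finrank ℚ L₀ with hD
  have hmemL : ∀ y ∈ Submodule.span ℤ (s : Set K), y ∈ L₀ := by
    intro y hy
    induction hy using Submodule.span_induction with
    | mem c hc => exact IntermediateField.subset_adjoin ℚ _ hc
    | zero => exact zero_mem _
    | add a b _ _ ha hb => exact add_mem ha hb
    | smul n a _ ha =>
      rw [zsmul_eq_mul]
      exact mul_mem (intCast_mem _ n) ha
  have hdisc : ∀ y ∈ Submodule.span ℤ (s : Set K), y ≠ 0 →
      ∃ z : ℤ, (D.factorial : ℝ) * ord y = z := by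
    intro y hy hy0
    have hint : IsIntegral ℚ y := (Algebra.IsAlgebraic.isAlgebraic y).isIntegral
    refine ord_mul_factorial_int h hq hy0 (minpoly ℚ y) (minpoly.ne_zero hint)
      (minpoly.aeval ℚ y) D ?_
    letI iA : Algebra ℚ L₀ := IntermediateField.algebra' L₀
    have h1 := @minpoly.natDegree_le ℚ L₀ _ _ iA this (⟨y, hmemL y hy⟩ : L₀)
    have h2 : @minpoly ℚ L₀ _ _ iA (⟨y, hmemL y hy⟩ : L₀) = minpoly ℚ y :=
      (minpoly.algebraMap_eq (algebraMap L₀ K).injective (⟨y, hmemL y hy⟩ : L₀)).symm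
    rw [h2] at h1
    exact h1
  -- a lower bound
  obtain ⟨M, hM⟩ : ∃ M : ℝ, ∀ i ∈ s.image ord, M ≤ i := by
    obtain ⟨M', hM'⟩ := Finset.exists_le ((s.image ord).image Neg.neg)
    refine ⟨-M', fun i hi => ?_⟩
    have := hM' (-i) (Finset.mem_image_of_mem _ hi)
    linarith
  set m₀ : ℝ := min 0 M with hm₀
  have hlow : ∀ y ∈ Submodule.span ℤ (s : Set K), y = 0 ∨ m₀ ≤ ord y := by
    intro y hy
    induction hy using Submodule.span_induction with
    | mem c hc =>
      right
      exact (min_le_right _ _).trans (hM _ (Finset.mem_image_of_mem ord hc))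
    | zero => exact Or.inl rfl
    | add a b _ _ ha hb =>
      by_cases hab : a + b = 0
      · exact Or.inl hab
      right
      rcases ha with rfl | ha
      · rcases hb with rfl | hb
        · simp at hab
        · rwa [zero_add]
      rcases hb with rfl | hb
      · rwa [add_zero]
      exact (le_min ha hb).trans (h.min_le_add hab)
    | smul n a _ ha =>
      by_cases hna : n • a = 0
      · exact Or.inl hna
      right
      have hn0 : n ≠ 0 := by
        rintro rfl
        simp at hna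
      have ha0 : a ≠ 0 := by
        rintro rfl
        simp at hna
      rcases ha with rfl | ha
      · exact absurd rfl ha0
      obtain ⟨k, hk⟩ := ord_intCast h hq hn0
      have hnK : ((n : ℤ) : K) ≠ 0 := by exact_mod_cast hn0
      rw [zsmul_eq_mul, h.map_mul hnK ha0, hk]
      have : (0 : ℝ) ≤ k := Nat.cast_nonneg k
      linarith
  -- the set of scaled orders
  have hex : ∃ n, x.coeff n ≠ 0 := by
    by_contra hcon
    refine hx0 (HahnSeries.ext (funext fun n => ?_))
    by_contra hn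
    exact hcon ⟨n, hn⟩
  have hfpos : (0 : ℝ) < D.factorial := by exact_mod_cast D.factorial_pos
  have hbdd : ∃ b : ℤ, ∀ z : ℤ,
      (∃ n, x.coeff n ≠ 0 ∧ (D.factorial : ℝ) * ord (x.coeff n) = z) → b ≤ z := by
    refine ⟨⌊(D.factorial : ℝ) * m₀⌋, ?_⟩
    rintro z ⟨n, hn, hz⟩
    rw [Int.floor_le_iff]
    rcases hlow _ (hs n) with h0 | h1
    · exact absurd h0 hn
    · have : (D.factorial : ℝ) * m₀ ≤ (D.factorial : ℝ) * ord (x.coeff n) :=
        mul_le_mul_of_nonneg_left h1 hfpos.le
      rw [hz] at this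
      linarith
  have hinh : ∃ z : ℤ, ∃ n, x.coeff n ≠ 0 ∧ (D.factorial : ℝ) * ord (x.coeff n) = z := by
    obtain ⟨n, hn⟩ := hex
    obtain ⟨z, hz⟩ := hdisc _ (hs n) hn
    exact ⟨z, n, hn, hz⟩
  obtain ⟨lb, ⟨n₁, hn₁, hlb⟩, hleast⟩ := Int.exists_least_of_bdd hbdd hinh
  refine ⟨n₁, hn₁, fun n hn => ?_⟩
  obtain ⟨z, hz⟩ := hdisc _ (hs n) hn
  have h1 := hleast z ⟨n, hn, hz⟩
  have h2 : (lb : ℝ) ≤ z := by exact_mod_cast h1
  rw [← hlb, ← hz] at h2
  exact le_of_mul_le_mul_left h2 hfpos

end Disc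

end Fermat.Agent.Red.GV.Soft
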