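import Fermat.Agent.Red.GV.Series

/-!
# P-RED / GV (soft form), part 2: the ring of Gauss-integral fractions and its reduction

For a valuation subring `A` of a field `K` and a ring homomorphism `π : A →+* k` to a field,

`softOT = {x ∈ K((q)) | ∃ a b ∈ A((q)), π(b) ≠ 0, a = x·b}`  and  `softRedT x = π(a) / π(b)`.

This is the "`a / b`" form of the Gauss valuation (the shape of `S37.CongOne`); it makes sense at
every level and needs no input from the theory of modular curves.
-/

set_option autoImplicit false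

open ModularCurve

noncomputable section

namespace Fermat.Agent.Red.GV.Soft

open Fermat.Agent.Red.GV

variable {K : Type} [Field K] (A : ValuationSubring K) {k : Type} [Field k] (π : A →+* k)

/-- `x = a / b` with `a, b ∈ A((q))` and `b ≢ 0`. -/
def IsWit (x : LaurentSeries K) (a b : LaurentSeries A) : Prop :=
  redA π b ≠ 0 ∧ embA A a = x * embA A b

/-- `x` is a Gauss-integral fraction. -/
def IsSoft (x : LaurentSeries K) : Prop :=
  ∃ a b : LaurentSeries A, IsWit A π x a b

theorem isWit_zero : IsWit A π 0 0 1 := by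
  refine ⟨?_, ?_⟩
  · rw [map_one]; exact one_ne_zero
  · rw [map_zero, zero_mul]

theorem isWit_of_embA (y : LaurentSeries A) : IsWit A π (embA A y) y 1 := by
  refine ⟨?_, ?_⟩
  · rw [map_one]; exact one_ne_zero
  · rw [map_one, mul_one]

theorem isWit_one : IsWit A π 1 1 1 := by
  have := isWit_of_embA A π 1
  rwa [map_one] at this

variable {A π}

theorem IsWit.add {x₁ x₂ : LaurentSeries K} {a₁ b₁ a₂ b₂ : LaurentSeries A}
    (h₁ : IsWit A π x₁ a₁ b₁) (h₂ : IsWit A π x₂ a₂ b₂) :
    IsWit A π (x₁ + x₂) (a₁ * b₂ + a₂ * b₁) (b₁ * b₂) := by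
  refine ⟨?_, ?_⟩
  · rw [map_mul]; exact mul_ne_zero h₁.1 h₂.1
  · rw [map_add, map_mul, map_mul, map_mul, h₁.2, h₂.2]
    ring

theorem IsWit.mul {x₁ x₂ : LaurentSeries K} {a₁ b₁ a₂ b₂ : LaurentSeries A}
    (h₁ : IsWit A π x₁ a₁ b₁) (h₂ : IsWit A π x₂ a₂ b₂) :
    IsWit A π (x₁ * x₂) (a₁ * a₂) (b₁ * b₂) := by
  refine ⟨?_, ?_⟩
  · rw [map_mul]; exact mul_ne_zero h₁.1 h₂.1
  · rw [map_mul, map_mul, h₁.2, h₂.2]
    ring

theorem IsWit.neg {x : LaurentSeries K} {a b : LaurentSeries A}
    (h : IsWit A π x a b) : IsWit A π (-x) (-a) b := by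
  refine ⟨h.1, ?_⟩
  rw [map_neg, h.2, neg_mul]

theorem IsWit.embA_ne_zero {x : LaurentSeries K} {a b : LaurentSeries A}
    (h : IsWit A π x a b) : embA A b ≠ 0 := by
  intro h0
  have : b = 0 := embA_injective A (by rw [h0, map_zero])
  exact h.1 (by rw [this, map_zero])

/-- a witness with nonzero reduced numerator gives a witness for the inverse. -/
theorem IsWit.inv {x : LaurentSeries K} {a b : LaurentSeries A}
    (h : IsWit A π x a b) (ha : redA π a ≠ 0) : IsWit A π x⁻¹ b a := by
  refine ⟨ha, ?_⟩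
  have hb := h.embA_ne_zero
  have ha0 : embA A a ≠ 0 := by
    intro h0
    have : a = 0 := embA_injective A (by rw [h0, map_zero])
    exact ha (by rw [this, map_zero])
  have hx : x ≠ 0 := by
    rintro rfl
    have h2 := h.2
    rw [zero_mul] at h2
    exact ha0 h2
  rw [h.2]
  field_simp

variable (A π)

/-- The ring of Gauss-integral fractions. -/
def softOT : Subring (LaurentSeries K) where
  carrier := {x | IsSoft A π x}
  zero_mem' := ⟨_, _, isWit_zero A π⟩
  one_mem' := ⟨_, _, isWit_one A π⟩
  add_mem' := fun {_ _} ⟨_, _, h₁⟩ ⟨_, _, h₂⟩ => ⟨_, _, h₁.add h₂⟩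
  mul_mem' := fun {_ _} ⟨_, _, h₁⟩ ⟨_, _, h₂⟩ => ⟨_, _, h₁.mul h₂⟩
  neg_mem' := fun {_} ⟨_, _, h⟩ => ⟨_, _, h.neg⟩

theorem mem_softOT (x : LaurentSeries K) : x ∈ softOT A π ↔ IsSoft A π x := Iff.rfl

theorem embA_mem_softOT (y : LaurentSeries A) : embA A y ∈ softOT A π :=
  ⟨_, _, isWit_of_embA A π y⟩

/-! ### The reduction map -/

/-- The value of the reduction attached to a witness. -/
def redVal (a b : LaurentSeries A) : LaurentSeries k :=
  redA π a / redA π b

variable {A π}

/-- Independence of the witness. -/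
theorem redVal_eq {x : LaurentSeries K} {a₁ b₁ a₂ b₂ : LaurentSeries A}
    (h₁ : IsWit A π x a₁ b₁) (h₂ : IsWit A π x a₂ b₂) :
    redVal A π a₁ b₁ = redVal A π a₂ b₂ := by
  rw [redVal, redVal, div_eq_div_iff h₁.1 h₂.1, ← map_mul, ← map_mul]
  congr 1
  apply embA_injective A
  rw [map_mul, map_mul, h₁.2, h₂.2]
  ring

variable (A π)

/-- The reduction map, as a function. -/
def softRedTFun (x : softOT A π) : LaurentSeries k :=
  redVal A π x.2.choose x.2.choose_spec.choose

variable {A π}

theorem softRedTFun_eq (x : softOT A π) {a b : LaurentSeries A}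
    (h : IsWit A π (x : LaurentSeries K) a b) : softRedTFun A π x = redVal A π a b :=
  redVal_eq x.2.choose_spec.choose_spec h

variable (A π)

/-- The reduction map on the ring of Gauss-integral fractions. -/
def softRedT : softOT A π →+* LaurentSeries k where
  toFun := softRedTFun A π
  map_one' := by
    rw [softRedTFun_eq 1 (isWit_one A π), redVal, map_one, div_one]
  map_zero' := by
    rw [softRedTFun_eq 0 (isWit_zero A π), redVal, map_zero, zero_div]
  map_mul' := fun x y => by
    obtain ⟨a₁, b₁, h₁⟩ := x.2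
    obtain ⟨a₂, b₂, h₂⟩ := y.2
    rw [softRedTFun_eq x h₁, softRedTFun_eq y h₂, softRedTFun_eq (x * y) (h₁.mul h₂)]
    rw [redVal, redVal, redVal, map_mul, map_mul, mul_div_mul_comm]
  map_add' := fun x y => by
    obtain ⟨a₁, b₁, h₁⟩ := x.2
    obtain ⟨a₂, b₂, h₂⟩ := y.2
    have hne₁ := h₁.1
    have hne₂ := h₂.1
    rw [softRedTFun_eq x h₁, softRedTFun_eq y h₂, softRedTFun_eq (x + y) (h₁.add h₂)]
    rw [redVal, redVal, redVal, map_add, map_mul, map_mul, map_mul]
    field_simp

variable {A π}

theorem softRedT_apply (x : softOT A π) {a b : LaurentSeries A}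
    (h : IsWit A π (x : LaurentSeries K) a b) : softRedT A π x = redA π a / redA π b :=
  softRedTFun_eq x h

theorem softRedT_mul_eq (x : softOT A π) (a b : LaurentSeries A)
    (hb : redA π b ≠ 0) (h : embA A a = (x : LaurentSeries K) * embA A b) :
    softRedT A π x * redA π b = redA π a := by
  rw [softRedT_apply x ⟨hb, h⟩, div_mul_cancel₀ _ hb]

theorem softRedT_of_embA (x : softOT A π) (y : LaurentSeries A)
    (h : embA A y = (x : LaurentSeries K)) : softRedT A π x = redA π y := by
  have hw : IsWit A π (x : LaurentSeries K) y 1 := by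
    have := isWit_of_embA A π y
    rwa [h] at this
  rw [softRedT_apply x hw, map_one, div_one]

/-- the reduction is nonzero exactly on the units. -/
theorem softRedT_ne_zero_iff (x : softOT A π) :
    softRedT A π x ≠ 0 ↔ (x : LaurentSeries K) ≠ 0 ∧ (x : LaurentSeries K)⁻¹ ∈ softOT A π := by
  obtain ⟨a, b, h⟩ := x.2
  constructor
  · intro hne
    have ha : redA π a ≠ 0 := by
      intro h0
      apply hne
      rw [softRedT_apply x h, h0, zero_div]
    refine ⟨?_, ⟨_, _, h.inv ha⟩⟩
    intro hx0
    have h2 := h.2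
    rw [hx0, zero_mul] at h2
    have : a = 0 := embA_injective A (by rw [h2, map_zero])
    exact ha (by rw [this, map_zero])
  · rintro ⟨hx0, hinv⟩ h0
    have h1 : softRedT A π x * softRedT A π ⟨_, hinv⟩ = 1 := by
      rw [← map_mul]
      have : x * ⟨_, hinv⟩ = (1 : softOT A π) := by
        apply Subtype.ext
        show (x : LaurentSeries K) * (x : LaurentSeries K)⁻¹ = 1
        exact mul_inv_cancel₀ hx0
      rw [this, map_one]
    rw [h0, zero_mul] at h1
    exact zero_ne_one h1

theorem softRedT_eq_zero_iff (x : softOT A π) :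
    softRedT A π x = 0 ↔ (x : LaurentSeries K) = 0 ∨ (x : LaurentSeries K)⁻¹ ∉ softOT A π := by
  rw [← not_iff_not, not_or, not_not]
  exact softRedT_ne_zero_iff x

/-! ### Constants -/

variable (A π)

theorem C_mem_softOT (a : A) : HahnSeries.C (a : K) ∈ softOT A π := by
  have h := embA_mem_softOT A π (HahnSeries.C a)
  have h2 : embA A (HahnSeries.C a) = HahnSeries.C (a : K) := by
    simp only [HahnSeries.C_apply, embA, coeffMap_single]
    rfl
  rwa [h2] at h

theorem softRedT_C (a : A) (h : HahnSeries.C (a : K) ∈ softOT A π) :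
    softRedT A π ⟨_, h⟩ = HahnSeries.C (π a) := by
  have h2 : embA A (HahnSeries.C a) = HahnSeries.C (a : K) := by
    simp only [HahnSeries.C_apply, embA, coeffMap_single]
    rfl
  rw [softRedT_of_embA ⟨_, h⟩ (HahnSeries.C a) h2]
  simp only [HahnSeries.C_apply, redA, coeffMap_single]

/-- constants: `C c` is Gauss-integral iff `c ∈ A` (for the residue map). -/
theorem C_mem_softOT_iff (hπ : ∀ a : A, (a : K) ∈ A.nonunits → π a = 0) (c : K) :
    HahnSeries.C c ∈ softOT A π ↔ c ∈ A := by
  constructor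
  · rintro ⟨a, b, hb, hab⟩
    by_contra hc
    have hc0 : c ≠ 0 := fun h0 => hc (h0 ▸ A.zero_mem)
    have hcinv : c⁻¹ ∈ A.nonunits := by
      rw [ValuationSubring.mem_nonunits_iff, map_inv₀]
      have h1 : 1 < A.valuation c := by
        by_contra hle
        exact hc ((A.valuation_le_one_iff c).mp (not_lt.mp hle))
      exact inv_lt_one_of_one_lt₀ h1
    have hcA : c⁻¹ ∈ A := A.nonunits_subset hcinv
    -- `b = C(c⁻¹) * a`
    have hb2 : b = HahnSeries.C (⟨c⁻¹, hcA⟩ : A) * a := by
      apply embA_injective A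
      rw [embA_C_mul, hab]
      show embA A b = HahnSeries.C c⁻¹ * (HahnSeries.C c * embA A b)
      rw [← mul_assoc, ← map_mul, inv_mul_cancel₀ hc0, map_one, one_mul]
    apply hb
    rw [hb2, redA_C_mul, hπ ⟨c⁻¹, hcA⟩ hcinv, map_zero, zero_mul]
  · intro hc
    exact C_mem_softOT A π ⟨c, hc⟩

/-! ### Transport along compatible ring homomorphisms -/

section Transport

variable {A π}

variable {K' : Type} [Field K'] {A' : ValuationSubring K'} {k' : Type} [Field k']
  {π' : A' →+* k'}
  (Φ : LaurentSeries K →+* LaurentSeries K') (ΦA : LaurentSeries A →+* LaurentSeries A')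
  (Φk : LaurentSeries k →+* LaurentSeries k')
  (hΦA : ∀ y, embA A' (ΦA y) = Φ (embA A y)) (hΦk : ∀ y, redA π' (ΦA y) = Φk (redA π y))

include hΦA hΦk in
/-- transport of witnesses along a ring homomorphism of series rings which is compatible with
the integral structures and the reductions (coefficientwise maps, `q ↦ q ^ n`, ...). -/
theorem IsWit.transport {x : LaurentSeries K} {a b : LaurentSeries A}
    (h : IsWit A π x a b) : IsWit A' π' (Φ x) (ΦA a) (ΦA b) := by
  refine ⟨?_, ?_⟩
  · rw [hΦk]
    intro h0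
    exact h.1 (Φk.injective (by rw [h0, map_zero]))
  · rw [hΦA, hΦA, h.2, map_mul]

include hΦA hΦk in
theorem mem_softOT_transport {x : LaurentSeries K} (hx : x ∈ softOT A π) :
    Φ x ∈ softOT A' π' := by
  obtain ⟨a, b, h⟩ := hx
  exact ⟨_, _, h.transport Φ ΦA Φk hΦA hΦk⟩

include hΦA hΦk in
/-- the reduction commutes with the transport. -/
theorem softRedT_transport (x : softOT A π) (hx' : Φ (x : LaurentSeries K) ∈ softOT A' π') :
    softRedT A' π' ⟨Φ (x : LaurentSeries K), hx'⟩ = Φk (softRedT A π x) := by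
  obtain ⟨a, b, h⟩ := x.2
  have h' : IsWit A' π' ((⟨Φ (x : LaurentSeries K), hx'⟩ : softOT A' π') : LaurentSeries K')
      (ΦA a) (ΦA b) := h.transport Φ ΦA Φk hΦA hΦk
  rw [softRedT_apply _ h', softRedT_apply x h, hΦk, hΦk, map_div₀]

end Transport

/-! ### Coefficientwise maps -/

section CoeffMap

variable {A π}

variable {K' : Type} [Field K'] {A' : ValuationSubring K'} {k' : Type} [Field k']
  {π' : A' →+* k'}
  (σ : K →+* K') (σA : A →+* A') (hσ : ∀ a : A, ((σA a : A') : K') = σ (a : K))
  (σk : k →+* k') (hσk : ∀ a : A, π' (σA a) = σk (π a))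

include hσ in
theorem soft_embA_coeffMap (y : LaurentSeries A) :
    embA A' (coeffMap σA y) = coeffMap σ (embA A y) := by
  rw [embA, embA, coeffMap_coeffMap, coeffMap_coeffMap]
  exact coeffMap_congr (RingHom.ext fun a => hσ a) y

include hσk in
theorem soft_redA_coeffMap (y : LaurentSeries A) :
    redA π' (coeffMap σA y) = coeffMap σk (redA π y) := by
  rw [redA, redA, coeffMap_coeffMap, coeffMap_coeffMap]
  exact coeffMap_congr (RingHom.ext fun a => hσk a) y

include hσ hσk in
/-- Gauss-integrality of fractions is preserved by a coefficientwise map. -/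
theorem mem_softOT_coeffMap {x : LaurentSeries K} (hx : x ∈ softOT A π) :
    coeffMap σ x ∈ softOT A' π' :=
  mem_softOT_transport (coeffMap σ) (coeffMap σA) (coeffMap σk)
    (soft_embA_coeffMap σ σA hσ) (soft_redA_coeffMap σA σk hσk) hx

include hσ hσk in
/-- the reduction commutes with a coefficientwise map. -/
theorem softRedT_coeffMap (x : softOT A π)
    (hx' : coeffMap σ (x : LaurentSeries K) ∈ softOT A' π') :
    softRedT A' π' ⟨coeffMap σ (x : LaurentSeries K), hx'⟩ = coeffMap σk (softRedT A π x) :=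
  softRedT_transport (coeffMap σ) (coeffMap σA) (coeffMap σk)
    (soft_embA_coeffMap σ σA hσ) (soft_redA_coeffMap σA σk hσk) x hx'

end CoeffMap

/-! ### The substitution `q ↦ q ^ n` -/

section QExpand

theorem soft_embA_qExpand (n : ℕ) [NeZero n] (y : LaurentSeries A) :
    embA A (qExpand A n y) = qExpand K n (embA A y) := by
  rw [embA, coeffMap_qExpand]

theorem soft_redA_qExpand (n : ℕ) [NeZero n] (y : LaurentSeries A) :
    redA π (qExpand A n y) = qExpand k n (redA π y) := by
  rw [redA, coeffMap_qExpand]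

theorem mem_softOT_qExpand (n : ℕ) [NeZero n] {x : LaurentSeries K} (hx : x ∈ softOT A π) :
    qExpand K n x ∈ softOT A π :=
  mem_softOT_transport (qExpand K n) (qExpand A n) (qExpand k n)
    (soft_embA_qExpand A n) (soft_redA_qExpand A π n) hx

theorem softRedT_qExpand (n : ℕ) [NeZero n] (x : softOT A π)
    (hx' : qExpand K n (x : LaurentSeries K) ∈ softOT A π) :
    softRedT A π ⟨qExpand K n (x : LaurentSeries K), hx'⟩ = qExpand k n (softRedT A π x) :=
  softRedT_transport (qExpand K n) (qExpand A n) (qExpand k n)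
    (soft_embA_qExpand A n) (soft_redA_qExpand A π n) x hx'

end QExpand

end Fermat.Agent.Red.GV.Soft
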