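import Fermat.Agent.Red.GV.SoftDisc
import Fermat.Agent.Red.GV.SoftOT

/-!
# P-RED / GV (soft form), part 3: the value group (scaling)

* `dfField` : the subfield of `K((q))` of fractions `a / b` of discrete series.
* `exists_scale` : every nonzero `x ∈ dfField` is `c⁻¹ · a' / b'` with `a', b' ∈ A((q))` of
  nonzero reduction: the Gauss norm of `x` is attained and lies in the value group of `A`.
* `laurentBaseChange_le_dfField` : the function fields `K · F₀` lie in `dfField` as soon as
  the generators of `F₀` have integral coefficients.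
-/

set_option autoImplicit false
set_option linter.unusedSectionVars false

open ModularCurve

noncomputable section

namespace Fermat.Agent.Red.GV.Soft

open Fermat.Agent.S05 Fermat.Agent.Red.GV

section DF

variable {K : Type} [Field K] [CharZero K] [Algebra ℚ K]

/-- `x` is a fraction of two discrete series. -/
def IsDF (x : LaurentSeries K) : Prop :=
  ∃ a b : LaurentSeries K, b ≠ 0 ∧ IsDisc a ∧ IsDisc b ∧ x * b = a

theorem isDF_of_isDisc {x : LaurentSeries K} (hx : IsDisc x) : IsDF x :=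
  ⟨x, 1, one_ne_zero, hx, isDisc_one, mul_one x⟩

theorem IsDF.add {x y : LaurentSeries K} (hx : IsDF x) (hy : IsDF y) : IsDF (x + y) := by
  obtain ⟨a, b, hb, ha, hbd, hab⟩ := hx
  obtain ⟨a', b', hb', ha', hbd', hab'⟩ := hy
  refine ⟨a * b' + a' * b, b * b', mul_ne_zero hb hb', (ha.mul hbd').add (ha'.mul hbd),
    hbd.mul hbd', ?_⟩
  rw [← hab, ← hab']
  ring

theorem IsDF.mul {x y : LaurentSeries K} (hx : IsDF x) (hy : IsDF y) : IsDF (x * y) := by
  obtain ⟨a, b, hb, ha, hbd, hab⟩ := hx
  obtain ⟨a', b', hb', ha', hbd', hab'⟩ := hy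
  refine ⟨a * a', b * b', mul_ne_zero hb hb', ha.mul ha', hbd.mul hbd', ?_⟩
  rw [← hab, ← hab']
  ring

theorem IsDF.neg {x : LaurentSeries K} (hx : IsDF x) : IsDF (-x) := by
  obtain ⟨a, b, hb, ha, hbd, hab⟩ := hx
  refine ⟨-a, b, hb, ha.neg, hbd, ?_⟩
  rw [← hab]
  ring

theorem IsDF.inv {x : LaurentSeries K} (hx : IsDF x) : IsDF x⁻¹ := by
  by_cases hx0 : x = 0
  · rw [hx0, inv_zero]
    exact isDF_of_isDisc isDisc_zero
  obtain ⟨a, b, hb, ha, hbd, hab⟩ := hx
  have ha0 : a ≠ 0 := by
    rw [← hab]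
    exact mul_ne_zero hx0 hb
  refine ⟨b, a, ha0, hbd, ha, ?_⟩
  rw [← hab]
  field_simp

/-- the field of fractions of discrete series. -/
def dfField : Subfield (LaurentSeries K) where
  carrier := {x | IsDF x}
  zero_mem' := isDF_of_isDisc isDisc_zero
  one_mem' := isDF_of_isDisc isDisc_one
  add_mem' := fun hx hy => hx.add hy
  mul_mem' := fun hx hy => hx.mul hy
  neg_mem' := fun hx => hx.neg
  inv_mem' := fun _ hx => hx.inv

theorem mem_dfField {x : LaurentSeries K} : x ∈ dfField (K := K) ↔ IsDF x := Iff.rfl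

theorem C_mem_dfField (c : K) : (HahnSeries.C c : LaurentSeries K) ∈ dfField (K := K) :=
  isDF_of_isDisc (isDisc_C c)

theorem algebraMap_mem_dfField (c : K) :
    algebraMap K (LaurentSeries K) c ∈ dfField (K := K) := by
  have h : algebraMap K (LaurentSeries K) c = HahnSeries.C c := by
    rw [algebraMap_laurentSeries_eq_single]
    rfl
  rw [h]
  exact C_mem_dfField c

theorem coeffMap_int_mem_dfField (y : LaurentSeries ℤ) :
    coeffMap (Int.castRingHom K) y ∈ dfField (K := K) :=
  isDF_of_isDisc (isDisc_coeffMap_int y)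

end DF

section Scale

variable {K : Type} [Field K] [CharZero K] [Algebra ℚ K] [Algebra.IsAlgebraic ℚ K]
variable {A : ValuationSubring K} {q : ℕ} {ord : K → ℝ} {k : Type} [Field k] (π : A →+* k)

/-- a nonzero discrete series is a constant times a series over `A` with nonzero reduction. -/
theorem IsDisc.exists_normalize (h : RO.IsOrd A q ord) (hq : q.Prime)
    {x : LaurentSeries K} (hx : IsDisc x) (hx0 : x ≠ 0) :
    ∃ (c : K) (a : LaurentSeries A), c ≠ 0 ∧ redA π a ≠ 0 ∧ x = HahnSeries.C c * embA A a := by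
  obtain ⟨n₁, hn₁, hmin⟩ := hx.exists_min h hq hx0
  set c : K := x.coeff n₁ with hc
  have hcoeff : ∀ n, (HahnSeries.C c⁻¹ * x).coeff n = c⁻¹ * x.coeff n := by
    intro n
    rw [HahnSeries.C_mul_eq_smul, HahnSeries.coeff_smul, smul_eq_mul]
  have hmem : ∀ n, (HahnSeries.C c⁻¹ * x).coeff n ∈ A := by
    intro n
    rw [hcoeff]
    by_cases hn : x.coeff n = 0
    · rw [hn, mul_zero]; exact A.zero_mem
    have hne : c⁻¹ * x.coeff n ≠ 0 := mul_ne_zero (inv_ne_zero hn₁) hn
    rw [← h.nonneg_iff hne, h.map_mul (inv_ne_zero hn₁) hn, h.map_inv]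
    have := hmin n hn
    linarith
  obtain ⟨a, ha⟩ := (exists_embA_eq_iff A _).mpr hmem
  refine ⟨c, a, hn₁, ?_, ?_⟩
  · intro h0
    have h1 : (redA π a).coeff n₁ = 0 := by rw [h0]; rfl
    rw [h36_redA_coeff] at h1
    have h2 : ((a.coeff n₁ : A) : K) = 1 := by
      rw [← h36_embA_coeff, ha, hcoeff]
      exact inv_mul_cancel₀ hn₁
    have h3 : a.coeff n₁ = 1 := Subtype.ext h2
    rw [h3, map_one] at h1
    exact one_ne_zero h1
  · rw [ha, ← mul_assoc, ← map_mul, mul_inv_cancel₀ hn₁, map_one, one_mul]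

/-- **Scaling.**  Every nonzero fraction of discrete series is `c⁻¹ · a / b` with
`a, b ∈ A((q))` of nonzero reduction. -/
theorem exists_scale (h : RO.IsOrd A q ord) (hq : q.Prime)
    {x : LaurentSeries K} (hx : IsDF x) (hx0 : x ≠ 0) :
    ∃ (c : K) (a b : LaurentSeries A), c ≠ 0 ∧ redA π a ≠ 0 ∧ redA π b ≠ 0 ∧
      embA A a = (HahnSeries.C c * x) * embA A b := by
  obtain ⟨u, v, hv, hu, hvd, huv⟩ := hx
  have hu0 : u ≠ 0 := by
    rw [← huv]
    exact mul_ne_zero hx0 hv
  obtain ⟨c₁, a, hc₁, ha, hua⟩ := hu.exists_normalize π h hq hu0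
  obtain ⟨c₂, b, hc₂, hb, hvb⟩ := hvd.exists_normalize π h hq hv
  refine ⟨c₂ / c₁, a, b, div_ne_zero hc₂ hc₁, ha, hb, ?_⟩
  have h1 : x * (HahnSeries.C c₂ * embA A b) = HahnSeries.C c₁ * embA A a := by
    rw [← hvb, ← hua, huv]
  have hC : (HahnSeries.C (c₂ / c₁) : LaurentSeries K) =
      HahnSeries.C c₂ * (HahnSeries.C c₁)⁻¹ := by
    rw [div_eq_mul_inv, map_mul, map_inv₀]
  have hC1 : (HahnSeries.C c₁ : LaurentSeries K) ≠ 0 := by
    rw [Ne, map_eq_zero_iff _ HahnSeries.C_injective]
    exact hc₁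
  rw [hC]
  calc embA A a = (HahnSeries.C c₁)⁻¹ * (HahnSeries.C c₁ * embA A a) := by
        rw [← mul_assoc, inv_mul_cancel₀ hC1, one_mul]
    _ = (HahnSeries.C c₁)⁻¹ * (x * (HahnSeries.C c₂ * embA A b)) := by rw [h1]
    _ = HahnSeries.C c₂ * (HahnSeries.C c₁)⁻¹ * x * embA A b := by ring

end Scale

section BaseChange

variable {K : Type} [Field K] [CharZero K] [Algebra ℚ K]

/-- the function field `K · F₀` consists of fractions of discrete series as soon as `F₀`
does. -/
theorem laurentBaseChange_le_dfField (F₀ : IntermediateField ℚ (LaurentSeries ℚ))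
    (hF : ∀ g ∈ F₀, coeffEmb K g ∈ dfField (K := K)) :
    (laurentBaseChange K F₀).toSubfield ≤ dfField (K := K) := by
  intro x hx
  have hx' : x ∈ laurentBaseChange K F₀ := hx
  rw [mem_laurentBaseChange_iff] at hx'
  refine Subfield.closure_le.mpr ?_ hx'
  rintro y (⟨c, rfl⟩ | ⟨g, hg, rfl⟩)
  · exact algebraMap_mem_dfField c
  · exact hF g hg

/-- the rational modular function field of level `N` consists of fractions of series with
integral coefficients. -/
theorem coeffEmb_mem_dfField_of_mem_full (N : ℕ) (g : LaurentSeries ℚ)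
    (hg : g ∈ modularFunctionFieldFull N) : coeffEmb K g ∈ dfField (K := K) := by
  let T : IntermediateField ℚ (LaurentSeries ℚ) :=
    { (dfField (K := K)).comap (coeffEmb K) with
      algebraMap_mem' := fun r => by
        show coeffEmb K (algebraMap ℚ (LaurentSeries ℚ) r) ∈ dfField (K := K)
        have h1 : coeffEmb K (algebraMap ℚ (LaurentSeries ℚ) r) =
            algebraMap K (LaurentSeries K) (algebraMap ℚ K r) := by
          rw [algebraMap_laurentSeries_eq_single, algebraMap_laurentSeries_eq_single,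
            coeffEmb, coeffMap_single]
        rw [h1]
        exact algebraMap_mem_dfField _ }
  have hle : modularFunctionFieldFull N ≤ T := by
    rw [modularFunctionFieldFull, IntermediateField.adjoin_le_iff]
    rintro x ⟨d, hd, -, rfl⟩
    haveI := hd
    show coeffEmb K (qExpand ℚ d jq) ∈ dfField (K := K)
    have h2 : (jq : LaurentSeries ℚ) = coeffMap (Int.castRingHom ℚ) (jqModC ℤ) := by
      rw [coeffMap_jqModC]
      rfl
    have h1 : coeffEmb K (qExpand ℚ d jq) =
        coeffMap (Int.castRingHom K) (qExpand ℤ d (jqModC ℤ)) := by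
      rw [h2, ← coeffMap_qExpand (Int.castRingHom ℚ) d (jqModC ℤ), coeffEmb, coeffMap_coeffMap]
      exact coeffMap_congr (RingHom.ext_int _ _) _
    rw [h1]
    exact coeffMap_int_mem_dfField _
  exact hle hg

end BaseChange

end Fermat.Agent.Red.GV.Soft
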